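import Fermat.Agent.Carayol.Two.Invariant
import Fermat.Agent.Carayol.Vert.Main

/-!
# `μ` is a coordinate of level three at the prime two
-/

set_option autoImplicit false
set_option linter.unusedSectionVars false
set_option linter.style.haveILetI false

noncomputable section

namespace FA.Carayol

open UpperHalfPlane hiding I
open CongruenceSubgroup HahnSeries ModularCurve FA.Level FA.ModField FA.Mazur.Wp Polynomial
open scoped MatrixGroups

local notation "Qb" => AlgebraicClosure ℚ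

/-- A nonzero order forbids algebraic relations over the constants. -/
theorem eval_ne_zero_of_order {k : Type*} [Field k] {x : LaurentSeries k} (hx : x ≠ 0)
    (ho : x.order ≠ 0) {P : k[X]} (hP : P ≠ 0) : P.eval₂ HahnSeries.C x ≠ 0 := by
  classical
  intro h0
  rw [eval₂_eq_sum, sum_def] at h0
  obtain ⟨j₀, hj₀, hext⟩ := Finset.exists_min_image P.support (fun j : ℕ => (j : ℤ) * x.order)
    (nonempty_support_iff.2 hP)
  have hc := mem_support_iff.1 hj₀
  have hord : ∀ j, P.coeff j ≠ 0 →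
      (HahnSeries.C (P.coeff j) * x ^ j).order = (j : ℤ) * x.order := fun j hj => by
    rw [order_mul ((_root_.map_ne_zero _).2 hj) (pow_ne_zero _ hx), order_pow, HahnSeries.C_apply,
      order_single hj, zero_add, nsmul_eq_mul]
  have h1 := congrArg (fun s : LaurentSeries k => s.coeff ((j₀ : ℤ) * x.order)) h0
  simp only [HahnSeries.coeff_zero] at h1
  rw [HahnSeries.coeff_sum,
    Finset.sum_eq_single j₀ ?_ fun hn => absurd hj₀ hn] at h1
  · rw [← hord j₀ hc, coeff_order_eq_zero] at h1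
    exact mul_ne_zero ((_root_.map_ne_zero _).2 hc) (pow_ne_zero _ hx) h1
  · intro j hj hne
    refine coeff_eq_zero_of_lt_order ?_
    rw [hord j (mem_support_iff.1 hj)]
    exact lt_of_le_of_ne (hext j hj) fun e =>
      hne (Int.natCast_inj.1 (mul_right_cancel₀ ho e)).symm

variable [Algebra Qb ℂ] {A : ValuationSubring Qb}

variable (A) (q N : ℕ) [NeZero N] in
/-- The functions whose series are fractions of integral ones. -/
def bddField : Subfield (flN N (constK A q)) where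
  carrier := {x | ∃ a b, b ≠ 0 ∧ ser x * serO A q b = serO A q a}
  one_mem' := ⟨1, 1, one_ne_zero, by simp⟩
  zero_mem' := ⟨0, 1, one_ne_zero, by simp⟩
  add_mem' := by
    rintro x y ⟨a, b, hb, h⟩ ⟨c, d, hd, h'⟩
    refine ⟨a * d + c * b, b * d, mul_ne_zero hb hd, ?_⟩
    simp only [map_add, map_mul, ← h, ← h']
    ring
  mul_mem' := by
    rintro x y ⟨a, b, hb, h⟩ ⟨c, d, hd, h'⟩
    exact ⟨a * c, b * d, mul_ne_zero hb hd, by simp only [map_mul, ← h, ← h']; ring⟩
  neg_mem' := by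
    rintro x ⟨a, b, hb, h⟩
    exact ⟨-a, b, hb, by rw [map_neg, map_neg]; linear_combination -h⟩
  inv_mem' := by
    rintro x ⟨a, b, hb, h⟩
    rcases eq_or_ne x 0 with rfl | hx
    · exact ⟨0, 1, one_ne_zero, by simp⟩
    refine ⟨b, a, fun e => ?_, ?_⟩
    · rw [e, map_zero, mul_eq_zero] at h
      exact h.elim ((map_ne_zero_iff _ ser_injective).2 hx) ((map_ne_zero_iff _ serO_injective).2 hb)
    · rw [map_inv₀, ← h, inv_mul_cancel_left₀ ((map_ne_zero_iff _ ser_injective).2 hx)]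

theorem mem_bddField {q N : ℕ} [NeZero N] {x : flN N (constK A q)} :
    x ∈ bddField A q N ↔ ∃ a b, b ≠ 0 ∧ ser x * serO A q b = serO A q a := Iff.rfl

theorem const_mem_bdd {q N : ℕ} [NeZero N] (c : constK A q) :
    toFl (rC c) ∈ bddField A q N := by
  obtain ⟨a, b, hb, h⟩ := exists_base_fraction c
  refine ⟨HahnSeries.C a, HahnSeries.C b, (map_ne_zero_iff _ HahnSeries.C_injective).2 hb, ?_⟩
  show ser ⟨rMer N (constK A q) (rC c), rMer_mem _⟩ * _ = _
  rw [ser_rMer, rSer_rC, serO_C, serO_C, ← map_mul, h]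

variable {N g : ℕ} [NeZero N] (hζ : ∀ b : ℤ, eta N b ∈ constK A 2)
  {ϖ : baseO A (constL A 2).toSubfield} (hA : A.LiesOverPrime 2) (hN : N = 2 * (3 * g))
  (hg : ¬ 2 ∣ 3 * g) (hC : ConstHyp A (constL A 2).toSubfield ϖ)

/-- The coordinate in the field. -/
def muF : flN N (constK A 2) := toFl (muR hN hζ)

/-- `μ³ - 1`. -/
def aR : rN N (constK A 2) := muR hN hζ ^ 3 - 1

theorem aR_eq : aR hζ hN = (muR hN hζ - rC (omK hN hζ ^ 0)) * (muR hN hζ - rC (omK hN hζ ^ 1)) *
    (muR hN hζ - rC (omK hN hζ ^ 2)) := by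
  have h := congrArg (rC (N := N)) (omK_root hN hζ)
  simp only [map_add, map_pow, map_one, map_zero] at h
  simp only [aR, pow_zero, pow_one, map_one, map_pow]
  linear_combination (muR hN hζ ^ 2 - rC (omK hN hζ) * muR hN hζ + (rC (omK hN hζ) - 1)) * h

include hA hN hg hC

theorem lead_aR_finite {r : Fin 4} (hr : r ≠ 0) :
    LeadS A 2 (rSer (rAct (repThree r) (aR hζ hN))) ((2 * g : ℕ) : ℤ) := by
  rw [aR_eq, map_mul, map_mul, map_mul, map_mul]
  refine (congrArg (LeadS A 2 _) ?_).mp (((lead_mu_rep hζ hA hN hg hC r (i := 0) (by norm_num)).mul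
    (lead_mu_rep hζ hA hN hg hC r (i := 1) (by norm_num))).mul
    (lead_mu_rep hζ hA hN hg hC r (i := 2) (by norm_num)))
  have h3 : cuspExp r = 0 ∨ cuspExp r = 1 ∨ cuspExp r = 2 := by
    fin_cases r <;> simp [cuspExp]
  rcases h3 with h | h | h <;> simp [h, hr]

theorem aR_ne_zero : aR hζ hN ≠ 0 := fun h => by
  refine (lead_aR_finite hζ hA hN hg hC (r := 1) (by decide)).ne_zero ?_
  rw [h, map_zero, map_zero]

/-- Invariants become polynomials after clearing the finite cusps. -/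
theorem exists_poly_clear {f : rN N (constK A 2)} (hf : ∀ γ ∈ Gamma 3, rAct γ f = f) :
    ∃ (k : ℕ) (P : (constK A 2)[X]), f * aR hζ hN ^ k = P.eval₂ rC (muR hN hζ) := by
  have hpos := g_pos' hN
  set k := ∑ r, (-(rSer (rAct (repThree r) f)).order).toNat
  set F := f * aR hζ hN ^ k
  obtain ⟨P, -, hP⟩ := exists_poly_three hζ hA hN hg hC (-(rSer F).order).toNat F
    (fun γ hγ => by
      simp only [F, aR, map_mul, map_pow, map_sub, map_one, hf γ hγ, rAct_muR hN hζ hγ])
    (fun r hr => by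
      simp only [F, map_mul, map_pow]
      refine ((ordGE_order _).mul ((lead_aR_finite hζ hA hN hg hC hr).ordGE.pow k)).mono ?_
      have h1 : (-(rSer (rAct (repThree r) f)).order).toNat ≤ k :=
        Finset.single_le_sum (f := fun r => (-(rSer (rAct (repThree r) f)).order).toNat)
          (fun _ _ => Nat.zero_le _) (Finset.mem_univ r)
      have h2 : k ≤ k * (2 * g) := Nat.le_mul_of_pos_right k (by omega)
      rw [show (k : ℤ) * ((2 * g : ℕ) : ℤ) = ((k * (2 * g) : ℕ) : ℤ) by push_cast; ring]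
      omega)
    ((ordGE_order _).mono (by
      have := Nat.le_mul_of_pos_right (-(rSer F).order).toNat (show 0 < 2 * g by omega)
      omega))
  exact ⟨k, P, hP⟩

theorem invariant_mem_mu {c : rN N (constK A 2)} (hc : ∀ δ ∈ Gamma 3, rAct δ c = c) :
    toFl c ∈ Subfield.closure (Set.range ((toFl (N := N)).comp rC) ∪ {muF hζ hN}) := by
  obtain ⟨k, P, hP⟩ := exists_poly_clear hζ hA hN hg hC hc
  set E := Subfield.closure (Set.range ((toFl (N := N)).comp rC) ∪ {muF hζ hN})
  have hm : muF hζ hN ∈ E := Subfield.subset_closure (Or.inr rfl)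
  have ha : toFl (aR hζ hN) ∈ E := by
    rw [aR, map_sub, map_pow, map_one]; exact sub_mem (pow_mem hm 3) (one_mem _)
  have hev : toFl (P.eval₂ rC (muR hN hζ)) ∈ E := by
    rw [hom_eval₂, eval₂_eq_sum_range]
    exact sum_mem fun j _ => mul_mem (Subfield.subset_closure (Or.inl ⟨_, rfl⟩)) (pow_mem hm j)
  rw [← hP, map_mul, map_pow] at hev
  have := div_mem hev (pow_mem ha k)
  rwa [mul_div_cancel_right₀ _ (pow_ne_zero _ ((map_ne_zero_iff _ toFl_injective).2
    (aR_ne_zero hζ hA hN hg hC)))] at this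

theorem fixed_mem_mu {x : flN N (constK A 2)} (hx : ∀ e ∈ galLvl A 2 3, e x = x) :
    x ∈ Subfield.closure (Set.range ((toFl (N := N)).comp rC) ∪ {muF hζ hN}) := by
  classical
  haveI : Finite (galLvl (N := N) A 2 3) := finite_galLvl
  haveI : Fintype (galLvl (N := N) A 2 3) := Fintype.ofFinite _
  obtain ⟨a, b, hb, hab⟩ := exists_toFl_fraction x
  have hlift : ∀ e : galLvl (N := N) A 2 3, ∃ γ ∈ Gamma 3, ∀ c : rN N (constK A 2),
      (e : _ ≃+* _) (toFl c) = toFl (rAct γ c) := by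
    rintro ⟨_, γ, hγ, rfl⟩
    exact ⟨γ⁻¹, inv_mem hγ, fun c => flAct_toFl γ⁻¹ c⟩
  choose γ hγ hγc using hlift
  set b' : rN N (constK A 2) := ∏ e, rAct (γ e) b
  have hb' : toFl b' = ∏ e : galLvl (N := N) A 2 3, (e : _ ≃+* _) (toFl b) := by
    rw [map_prod]; simp only [hγc]
  have hne : b' ≠ 0 := fun h0 => by
    rw [h0, map_zero, eq_comm, Finset.prod_eq_zero_iff] at hb'
    obtain ⟨e, -, he⟩ := hb'
    exact (map_ne_zero_iff _ toFl_injective).2 hb ((map_eq_zero_iff _ (RingEquiv.injective _)).1 he)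
  have hfix : ∀ e ∈ galLvl A 2 3, e (toFl b') = toFl b' := fun e he => by
    rw [hb', map_prod]
    refine Fintype.prod_equiv (Equiv.mulLeft (⟨e, he⟩ : galLvl (N := N) A 2 3)) _ _ fun e' => ?_
    rfl
  set a' : rN N (constK A 2) :=
    a * ∏ e ∈ Finset.univ.erase (1 : galLvl (N := N) A 2 3), rAct (γ e) b
  have ha' : x * toFl b' = toFl a' := by
    have hone : rAct (γ 1) b = b := toFl_injective (by rw [← hγc]; rfl)
    rw [show b' = rAct (γ 1) b * ∏ e ∈ Finset.univ.erase (1 : galLvl (N := N) A 2 3), rAct (γ e) b from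
      (Finset.mul_prod_erase _ _ (Finset.mem_univ _)).symm, hone, map_mul, ← mul_assoc, hab,
      ← map_mul]
  have hinv : ∀ c : rN N (constK A 2), (∀ e ∈ galLvl A 2 3, e (toFl c) = toFl c) →
      ∀ δ ∈ Gamma 3, rAct δ c = c := fun c hc δ hδ => toFl_injective (by
    have := hc (flHom N (constK A 2) δ⁻¹) ⟨δ⁻¹, inv_mem hδ, rfl⟩
    rwa [show flHom N (constK A 2) δ⁻¹ (toFl c) = flAct δ⁻¹⁻¹ (toFl c) from rfl, inv_inv,
      flAct_toFl] at this)
  have h1 := invariant_mem_mu hζ hA hN hg hC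
    (hinv a' fun e he => by rw [← ha', map_mul, hx e he, hfix e he])
  have h2 := invariant_mem_mu hζ hA hN hg hC (hinv b' hfix)
  rw [← ha'] at h1
  have hd := div_mem h1 h2
  rwa [mul_div_cancel_right₀ _ ((map_ne_zero_iff _ toFl_injective).2 hne)] at hd

omit hA hg hC in
/-- Only `Γ(N)` fixes all the ratios. -/
theorem mem_gamma_of_fix_three {γ : SL(2, ℤ)} (hγ : γ ∈ Gamma 3)
    (h : ∀ (v : ℤ × ℤ) (hv : IsVec N v),
      rAct γ (ratHol (constK A 2) hζ hv (isVec_pB hN 0) (isVec_pA hN) (apart_pB_pA hN 0)) =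
        ratHol (constK A 2) hζ hv (isVec_pB hN 0) (isVec_pA hN) (apart_pB_pA hN 0)) :
    γ ∈ Gamma N := by
  have hg0 := g_pos' hN
  have key : ∀ (v : ℤ × ℤ), IsVec N v →
      ((N : ℤ) ∣ (vmul v γ - v).1 ∧ (N : ℤ) ∣ (vmul v γ - v).2) ∨
      ((N : ℤ) ∣ (vmul v γ + v).1 ∧ (N : ℤ) ∣ (vmul v γ + v).2) := by
    intro v hv
    by_contra hne
    rw [not_or] at hne
    have h1 := h v hv
    rw [rAct_ratHol, ratHol_congr hζ _ _ _ _ (hv.vmul γ) (isVec_pB hN 0) (isVec_pA hN)
      (apart_pB_pA hN 0) ⟨by simp, by simp⟩ (vmul_pB hN 0 hγ) (vmul_pA hN hγ)] at h1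
    have h2 := congrArg (rEv UpperHalfPlane.I) h1
    rw [rEv_ratHol, rEv_ratHol, div_left_inj' (sub_ne_zero.2
      (wpAt_ne _ (isVec_pB hN 0) (isVec_pA hN) (apart_pB_pA hN 0))), sub_left_inj] at h2
    exact wpAt_ne _ (hv.vmul γ) hv ⟨hne.1, hne.2⟩ h2
  have n1 : ¬ (N : ℤ) ∣ 1 := fun hd => by have := Int.le_of_dvd one_pos hd; omega
  have n2 : ¬ (N : ℤ) ∣ 2 := fun hd => by have := Int.le_of_dvd two_pos hd; omega
  have a := key (1, 0) fun h => n1 h.1
  have b := key (0, 1) fun h => n1 h.2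
  have c := key (1, 1) fun h => n1 h.1
  simp only [vmul, one_mul, zero_mul, add_zero, zero_add, Prod.fst_sub, Prod.snd_sub, Prod.fst_add,
    Prod.snd_add, sub_zero, add_zero] at a b c
  simp only [← ZMod.intCast_zmod_eq_zero_iff_dvd, Int.cast_add, Int.cast_sub, Int.cast_one] at a b c
  rw [← ZMod.intCast_zmod_eq_zero_iff_dvd, Int.cast_ofNat] at n2
  rw [Gamma_mem]
  rcases a with a | a <;> rcases b with b | b
  · exact ⟨sub_eq_zero.1 a.1, a.2, b.1, sub_eq_zero.1 b.2⟩
  · exfalso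
    rcases c with c | c
    · exact n2 (by linear_combination b.2 + a.2 - c.2)
    · exact n2 (by linear_combination c.1 - a.1 - b.1)
  · exfalso
    rcases c with c | c
    · exact n2 (by linear_combination a.1 + b.1 - c.1)
    · exact n2 (by linear_combination c.2 - b.2 - a.2)
  · exfalso
    obtain ⟨k, hk⟩ : (N : ℤ) ∣ γ 0 0 + 1 := by
      rw [← ZMod.intCast_zmod_eq_zero_iff_dvd]; push_cast; exact a.1
    rw [Gamma_mem] at hγ
    obtain ⟨l, hl⟩ : (3 : ℤ) ∣ γ 0 0 - 1 := by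
      rw [show (3 : ℤ) = ((3 : ℕ) : ℤ) from rfl, ← ZMod.intCast_zmod_eq_zero_iff_dvd]; simp [hγ.1]
    rw [hN] at hk
    push_cast at hk
    have : (2 : ℤ) = 3 * (2 * (g : ℤ) * k - l) := by linear_combination hk - hl
    omega

/-- The ratios generate the field. -/
theorem closure_ratios : Subfield.closure (Set.range ((toFl (N := N)).comp rC) ∪ {muF hζ hN} ∪
    {y | ∃ (v : ℤ × ℤ) (hv : IsVec N v), y =
      toFl (ratHol (constK A 2) hζ hv (isVec_pB hN 0) (isVec_pA hN) (apart_pB_pA hN 0))}) = ⊤ := by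
  haveI : Finite (galLvl (N := N) A 2 3) := finite_galLvl
  rw [eq_top_iff, ← closure_eq_top_of_fixed_trivial (galLvl A 2 3)
    {y | ∃ (v : ℤ × ℤ) (hv : IsVec N v), y =
      toFl (ratHol (constK A 2) hζ hv (isVec_pB hN 0) (isVec_pA hN) (apart_pB_pA hN 0))} (by
    rintro e ⟨γ, hγ, rfl⟩ he
    have hmem := mem_gamma_of_fix_three hζ hN (inv_mem hγ) fun v hv => toFl_injective (by
      rw [← flAct_toFl]; exact he _ ⟨v, hv, rfl⟩)
    exact RingEquiv.ext fun x => Subtype.ext (merSL_eq_self hmem x.2)), Subfield.closure_le]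
  rintro x (hx | hx)
  · exact Subfield.closure_mono Set.subset_union_left (fixed_mem_mu hζ hA hN hg hC hx)
  · exact Subfield.subset_closure (Or.inr hx)

theorem exists_frac_sub (v w : ℤ × ℤ) : ∃ (a : LaurentSeries (baseO A (constL A 2).toSubfield))
    (c : baseO A (constL A 2).toSubfield), c ≠ 0 ∧
      (xK (constK A 2) hζ v - xK (constK A 2) hζ w) * serO A 2 (HahnSeries.C c) = serO A 2 a := by
  obtain ⟨a, ha⟩ := sub_mem (intS_xK_tail hζ hA hN hg hC v) (intS_xK_tail hζ hA hN hg hC w)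
  obtain ⟨p, c, hc, hp⟩ := exists_base_fraction
    ((xK (constK A 2) hζ v).coeff 0 - (xK (constK A 2) hζ w).coeff 0)
  refine ⟨a * HahnSeries.C c + HahnSeries.C p, c, hc, ?_⟩
  rw [map_add, map_mul, ha, serO_C, serO_C, ← hp, map_mul, map_sub]
  ring

theorem bdd_ratio {v : ℤ × ℤ} (hv : IsVec N v) :
    toFl (ratHol (constK A 2) hζ hv (isVec_pB hN 0) (isVec_pA hN) (apart_pB_pA hN 0)) ∈
      bddField A 2 N := by
  obtain ⟨a, c, hc, h⟩ := exists_frac_sub hζ hA hN hg hC v (pA g)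
  obtain ⟨b, d, hd, h'⟩ := exists_frac_sub hζ hA hN hg hC (pB g 0) (pA g)
  have hser : ser (toFl (ratHol (constK A 2) hζ hv (isVec_pB hN 0) (isVec_pA hN)
      (apart_pB_pA hN 0))) = (xK (constK A 2) hζ v - xK (constK A 2) hζ (pA g)) *
      (xK (constK A 2) hζ (pB g 0) - xK (constK A 2) hζ (pA g))⁻¹ := by
    show ser ⟨rMer N (constK A 2) _, rMer_mem _⟩ = _
    rw [ser_rMer, rSer_ratHol]
  have hd' : serO A 2 (HahnSeries.C d) ≠ 0 :=
    (map_ne_zero_iff _ serO_injective).2 ((map_ne_zero_iff _ HahnSeries.C_injective).2 hd)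
  have hn := (lead_diff_third hζ hA hN hg hC (v := pB g 0) (w := pA g) dvd_rfl (dvd_mul_right _ _)
    (dvd_zero _) dvd_rfl (isVec_pB hN 0) (isVec_pA hN) (apart_pB_pA hN 0)).ne_zero
  refine ⟨a * HahnSeries.C d, b * HahnSeries.C c, fun e => ?_, ?_⟩
  · rcases mul_eq_zero.1 e with e | e
    · rw [e, map_zero] at h'; exact mul_ne_zero hn hd' h'
    · exact (map_ne_zero_iff _ HahnSeries.C_injective).2 hc e
  · rw [hser, map_mul, map_mul, ← h, ← h']
    field_simp

/-- **The coordinate.** -/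
theorem twoCoord : Coord A 2 3 (muF hζ hN) where
  dvd := ⟨2 * g, by rw [hN]; ring⟩
  roots := hζ
  fix γ hγ := by
    show flAct γ (toFl (muR hN hζ)) = _
    rw [flAct_toFl, rAct_muR hN hζ hγ]
    rfl
  closed x hx := fixed_mem_mu hζ hA hN hg hC fun e he => by
    obtain ⟨γ, hγ, rfl⟩ := he
    exact hx γ⁻¹ (inv_mem hγ)
  bdd x := by
    have hle : (⊤ : Subfield (flN N (constK A 2))) ≤ bddField A 2 N := by
      rw [← closure_ratios hζ hA hN hg hC, Subfield.closure_le]
      have hμ : muF hζ hN ∈ bddField A 2 N := by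
        obtain ⟨a, ha⟩ := (lead_mu_infty hζ hA hN hg hC).mem_intS
        refine ⟨a, 1, one_ne_zero, ?_⟩
        rw [map_one, mul_one, ha]
        exact ser_rMer (muR hN hζ)
      rintro y ((⟨c, rfl⟩ | rfl) | ⟨v, hv, rfl⟩)
      · exact const_mem_bdd c
      · exact hμ
      · exact bdd_ratio hζ hA hN hg hC hv
    exact hle (Subfield.mem_top x)
  transc := by
    obtain ⟨a, ha, hne, ho⟩ := (lead_mu_infty hζ hA hN hg hC).exists_red
    refine ⟨a, 1, by simp, ?_, fun P hP => ?_⟩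
    · rw [map_one, mul_one, ha]
      exact ser_rMer (muR hN hζ)
    · rw [map_one, div_one]
      refine eval_ne_zero_of_order hne ?_ hP
      rw [ho]
      have := g_pos' hN
      omega

end FA.Carayol

end
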