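import Fermat.Agent.Carayol.Two.Lead
import Fermat.Agent.Carayol.Field.Conj
import Fermat.Agent.Carayol.Curve.Lattice

/-!
# Expansions of differences of abscissae at the prime two

`N = 2 m`, `m` odd. The differences are integral, with unit leading coefficients for points of odd
order.
-/

set_option autoImplicit false
set_option linter.unusedSectionVars false
set_option linter.style.haveILetI false

noncomputable section

namespace FA.Carayol

open UpperHalfPlane hiding I
open HahnSeries ModularCurve FA.Level FA.ModField FA.Mazur.Wp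
open scoped MatrixGroups

local notation "Qb" => AlgebraicClosure ℚ

theorem eta_add (N : ℕ) (a b : ℤ) : eta N (a + b) = eta N a * eta N b := by
  rw [eta, eta, eta, ← Complex.exp_add]
  congr 1
  push_cast
  ring

theorem eta_eq_one_iff {N : ℕ} [NeZero N] {b : ℤ} : eta N b = 1 ↔ (N : ℤ) ∣ b := by
  constructor
  · intro h
    rw [eta, Complex.exp_eq_one_iff] at h
    obtain ⟨n, hn⟩ := h
    rw [tpi, div_eq_iff (Nat.cast_ne_zero.2 (NeZero.ne N))] at hn
    have h1 : ((b : ℤ) : ℂ) = (((N : ℤ) * n : ℤ) : ℂ) := by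
      refine mul_left_cancel₀ Complex.two_pi_I_ne_zero ?_
      push_cast
      linear_combination hn
    exact ⟨n, by exact_mod_cast h1⟩
  · rintro ⟨k, rfl⟩
    rw [show (N : ℤ) * k = 0 + N * k by ring, eta_add_mul]
    simp [eta]

/-- Not killed by two at level `2 m`. -/
def GoodVec (m : ℕ) (v : ℤ × ℤ) : Prop := ¬ ((m : ℤ) ∣ v.1 ∧ (m : ℤ) ∣ v.2)

variable [Algebra Qb ℂ] (A : ValuationSubring Qb) {N m : ℕ} [NeZero N]
  (hζ : ∀ b : ℤ, eta N b ∈ constK A 2)

include hζ in
theorem exists_etaT (b : ℤ) :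
    ∃ e : baseO A (constL A 2).toSubfield, (baseK A 2 e : ℂ) = eta N b := by
  obtain ⟨x, hx, hxb⟩ := mem_constK.1 (hζ b)
  have h1 : x ^ N = 1 := (algebraMap Qb ℂ).injective (by
    rw [map_pow, hxb, map_one, eta, ← Complex.exp_nat_mul,
      mul_div_cancel₀ _ (Nat.cast_ne_zero.mpr (NeZero.ne N)), tpi]
    exact Complex.exp_eq_one_iff.mpr ⟨b, by ring⟩)
  have hint : IsIntegral A x := IsIntegral.of_pow (Nat.pos_of_ne_zero (NeZero.ne N))
    (by rw [h1]; exact isIntegral_one)
  obtain ⟨a, ha⟩ := IsIntegrallyClosed.isIntegral_iff.1 hint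
  exact ⟨⟨x, ha ▸ a.2, hx⟩, hxb⟩

/-- A root of unity as an integral constant. -/
def etaT (b : ℤ) : baseO A (constL A 2).toSubfield := (exists_etaT A hζ b).choose

theorem baseK_etaT (b : ℤ) : baseK A 2 (etaT A hζ b) = ⟨eta N b, hζ b⟩ :=
  Subtype.ext (exists_etaT A hζ b).choose_spec

theorem etaT_add (a b : ℤ) : etaT A hζ (a + b) = etaT A hζ a * etaT A hζ b :=
  baseK_injective (Subtype.ext (by
    rw [map_mul, baseK_etaT, baseK_etaT, baseK_etaT]
    exact eta_add N a b))

theorem etaT_zero : etaT A hζ 0 = 1 :=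
  baseK_injective (Subtype.ext (by rw [baseK_etaT, map_one]; simp [eta]))

theorem isUnit_etaT (b : ℤ) : IsUnit (etaT A hζ b) :=
  isUnit_iff_exists_inv.2 ⟨etaT A hζ (-b), by rw [← etaT_add, add_neg_cancel, etaT_zero]⟩

theorem etaT_congr {a b : ℤ} (h : (N : ℤ) ∣ a - b) : etaT A hζ a = etaT A hζ b :=
  baseK_injective (Subtype.ext (by rw [baseK_etaT, baseK_etaT]; exact eta_congr h))

theorem etaT_nat_mul (k : ℕ) (b : ℤ) : etaT A hζ (k * b) = etaT A hζ b ^ k := by
  induction k with
  | zero => simp [etaT_zero]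
  | succ k ih => rw [pow_succ, ← ih, ← etaT_add]; push_cast; ring_nf

variable {A} (hA : A.LiesOverPrime 2)
include hA

theorem resO_two : resO A 2 (2 : baseO A (constL A 2).toSubfield) = 0 := by
  show IsLocalRing.residue A _ = 0
  rw [IsLocalRing.residue_eq_zero_iff]
  obtain ⟨h, hm⟩ := ValuationSubring.mem_nonunits_iff_exists_mem_maximalIdeal.1 hA
  convert hm using 1
  exact Subtype.ext (by norm_cast)

theorem resO_natCast_odd {k : ℕ} (hk : ¬ 2 ∣ k) :
    resO A 2 (k : baseO A (constL A 2).toSubfield) = 1 := by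
  obtain ⟨j, rfl⟩ : ∃ j, k = 2 * j + 1 := ⟨k / 2, by omega⟩
  simp [resO_two hA]

theorem residue_charTwo : CharP (IsLocalRing.ResidueField A) 2 :=
  CharTwo.of_one_ne_zero_of_two_eq_zero one_ne_zero (by rw [← map_ofNat (resO A 2)]; exact resO_two hA)

variable (hN : N = 2 * m) (hm : ¬ 2 ∣ m)
include hN hm

theorem resO_etaT_ne_one {b : ℤ} (hb : ¬ (m : ℤ) ∣ b) : resO A 2 (etaT A hζ b) ≠ 1 := by
  intro h1
  set ξ := etaT A hζ (b + b)
  have hξm : ξ ^ m = 1 := by
    rw [← etaT_nat_mul, ← etaT_zero A hζ]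
    exact etaT_congr A hζ ⟨b, by rw [hN]; push_cast; ring⟩
  have hξ : ξ ≠ 1 := fun e => hb (by
    have h2 := congrArg (fun x => ((baseK A 2 x : constK A 2) : ℂ)) e
    simp only [ξ, baseK_etaT, map_one, OneMemClass.coe_one, eta_eq_one_iff] at h2
    rw [hN, Nat.cast_mul, Nat.cast_ofNat, show b + b = 2 * b by ring] at h2
    exact Int.dvd_of_mul_dvd_mul_left two_ne_zero h2)
  have hsum : ∑ i ∈ Finset.range m, ξ ^ i = 0 := by
    have := mul_geom_sum ξ m
    rw [hξm, sub_self] at this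
    exact (mul_eq_zero.1 this).resolve_left (sub_ne_zero.2 hξ)
  have hr : resO A 2 ξ = 1 := by simp only [ξ, etaT_add, map_mul, h1, one_mul]
  have := congrArg (resO A 2) hsum
  simp only [map_sum, map_pow, hr, one_pow, Finset.sum_const, Finset.card_range, nsmul_one,
    map_zero] at this
  rw [← map_natCast (resO A 2), resO_natCast_odd hA hm] at this
  exact one_ne_zero this

theorem resO_etaT_inj {a b : ℤ} (h : resO A 2 (etaT A hζ a) = resO A 2 (etaT A hζ b)) :
    (m : ℤ) ∣ a - b := by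
  by_contra hd
  refine resO_etaT_ne_one hζ hA hN hm hd ?_
  have e : resO A 2 (etaT A hζ (a - b)) * resO A 2 (etaT A hζ b) = resO A 2 (etaT A hζ b) := by
    rw [← map_mul, ← etaT_add, sub_add_cancel, h]
  exact (mul_eq_right₀ (resO_ne_of_isUnit (isUnit_etaT A hζ b))).1 e

end FA.Carayol

end
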