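import Fermat.Agent.Carayol.Two.Series
import Fermat.Agent.Carayol.Curve.Field

/-!
# Vectors of odd order and of order three at level `2 (3 g)`

For two vectors of odd order with different abscissae the difference has a unit leading
coefficient; for two of order three the order is `0` if one is toric and `2 g` otherwise.
-/

set_option autoImplicit false
set_option linter.unusedSectionVars false
set_option linter.style.haveILetI false

noncomputable section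

namespace FA.Carayol

open UpperHalfPlane hiding I
open HahnSeries ModularCurve FA.Level FA.ModField FA.Mazur.Wp
open scoped MatrixGroups

local notation "Qb" => AlgebraicClosure ℚ

/-- Both coordinates are even. -/
def EvenVec (v : ℤ × ℤ) : Prop := 2 ∣ v.1 ∧ 2 ∣ v.2

theorem EvenVec.neg {v : ℤ × ℤ} (h : EvenVec v) : EvenVec (-v) :=
  ⟨dvd_neg.2 h.1, dvd_neg.2 h.2⟩

theorem EvenVec.vmul {v : ℤ × ℤ} (h : EvenVec v) (γ : SL(2, ℤ)) : EvenVec (vmul v γ) :=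
  ⟨dvd_add (h.1.mul_right _) (h.2.mul_right _), dvd_add (h.1.mul_right _) (h.2.mul_right _)⟩

theorem mul_dvd_of_even {m : ℕ} (hm : ¬ 2 ∣ m) {x : ℤ} (h2 : 2 ∣ x) (hx : (m : ℤ) ∣ x) :
    ((2 * m : ℕ) : ℤ) ∣ x := by
  have hc : IsCoprime (2 : ℤ) (m : ℤ) := by
    rw [show (2 : ℤ) = ((2 : ℕ) : ℤ) from rfl, Int.isCoprime_iff_nat_coprime]
    simpa using (Nat.prime_two.coprime_iff_not_dvd.2 hm)
  push_cast
  exact hc.mul_dvd h2 hx

theorem EvenVec.goodVec {N m : ℕ} (hN : N = 2 * m) (hm : ¬ 2 ∣ m) {v : ℤ × ℤ} (h : EvenVec v)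
    (hv : IsVec N v) : GoodVec m v := fun hd =>
  hv ⟨hN ▸ mul_dvd_of_even hm h.1 hd.1, hN ▸ mul_dvd_of_even hm h.2 hd.2⟩

theorem dvd_of_congr {n x y : ℤ} (h : n ∣ x - y) : n ∣ x ↔ n ∣ y := by
  refine ⟨fun hx => ?_, fun hy => ?_⟩
  · simpa using dvd_sub hx h
  · simpa using dvd_add h hy

/-- The representative with first coordinate in `[0, N / 2]`. -/
theorem exists_norm_vec {N m : ℕ} [NeZero N] (hN : N = 2 * m) (v : ℤ × ℤ) :
    ∃ (w : ℤ × ℤ) (a : ℕ) (ε : ℤ), (ε = 1 ∨ ε = -1) ∧ w.1 = a ∧ a ≤ m ∧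
      (N : ℤ) ∣ w.1 - ε * v.1 ∧ w.2 = ε * v.2 := by
  have h0 : (N : ℤ) ≠ 0 := by exact_mod_cast NeZero.ne N
  obtain ⟨r, hr⟩ := Int.eq_ofNat_of_zero_le (Int.emod_nonneg v.1 h0)
  have hr' : r < N := by
    have := Int.emod_lt_of_pos v.1 (show (0 : ℤ) < N by positivity)
    omega
  have hdvd : (N : ℤ) ∣ v.1 - r := hr ▸ Int.dvd_self_sub_emod
  rcases le_or_gt r m with h | h
  · exact ⟨((r : ℤ), v.2), r, 1, Or.inl rfl, rfl, h,
      by rw [one_mul]; exact dvd_sub_comm.1 hdvd, (one_mul _).symm⟩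
  · refine ⟨(((N - r : ℕ) : ℤ), -v.2), N - r, -1, Or.inr rfl, rfl, by omega, ?_, (neg_one_mul _).symm⟩
    show (N : ℤ) ∣ ((N - r : ℕ) : ℤ) - -1 * v.1
    rw [Nat.cast_sub hr'.le, show (N : ℤ) - r - -1 * v.1 = N + (v.1 - r) by ring]
    exact dvd_add dvd_rfl hdvd

variable [Algebra Qb ℂ] {A : ValuationSubring Qb} {N g : ℕ} [NeZero N]
  (hζ : ∀ b : ℤ, eta N b ∈ constK A 2) {ϖ : baseO A (constL A 2).toSubfield}
  (hA : A.LiesOverPrime 2) (hN : N = 2 * (3 * g)) (hg : ¬ 2 ∣ 3 * g)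
  (hC : ConstHyp A (constL A 2).toSubfield ϖ)

include hN

theorem xK_norm {v w : ℤ × ℤ} {ε : ℤ} (hε : ε = 1 ∨ ε = -1) (hv : IsVec N v)
    (h1 : (N : ℤ) ∣ w.1 - ε * v.1) (h2 : w.2 = ε * v.2) :
    IsVec N w ∧ xK (constK A 2) hζ w = xK (constK A 2) hζ v := by
  have h2' : (N : ℤ) ∣ w.2 - ε * v.2 := by rw [h2, sub_self]; exact dvd_zero _
  rcases hε with rfl | rfl
  · rw [one_mul] at h1 h2'
    have hw : IsVec N w := fun hd => hv ⟨(dvd_of_congr h1).1 hd.1, (dvd_of_congr h2').1 hd.2⟩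
    exact ⟨hw, xK_congr_dvd hζ hw hv h1 h2'⟩
  · rw [neg_one_mul] at h1 h2'
    have hw : IsVec N w := fun hd =>
      isVec_neg_vec hv ⟨(dvd_of_congr h1).1 hd.1, (dvd_of_congr h2').1 hd.2⟩
    exact ⟨hw, (xK_congr_dvd hζ hw (isVec_neg_vec hv) h1 h2').trans (xK_neg hζ hv)⟩

include hA hg hC

/-- Two vectors of odd order which are not toric. -/
theorem lead_even_other {v w : ℤ × ℤ} (hve : EvenVec v) (hwe : EvenVec w) (hv : IsVec N v)
    (hw : IsVec N w) (hvw : Apart N v w) (hvt : ¬ (N : ℤ) ∣ v.1) (hwt : ¬ (N : ℤ) ∣ w.1) :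
    ∃ (a a' : ℕ) (ε ε' : ℤ), (ε = 1 ∨ ε = -1) ∧ (ε' = 1 ∨ ε' = -1) ∧
      (0 < a ∧ a < 3 * g ∧ (N : ℤ) ∣ (a : ℤ) - ε * v.1) ∧
      (0 < a' ∧ a' < 3 * g ∧ (N : ℤ) ∣ (a' : ℤ) - ε' * w.1) ∧
      LeadS A 2 (xK (constK A 2) hζ v - xK (constK A 2) hζ w) (min a a' : ℕ) := by
  obtain ⟨v', a, ε, hε, hva, ha, h1, h2⟩ := exists_norm_vec hN v
  obtain ⟨w', a', ε', hε', hwa, ha', h1', h2'⟩ := exists_norm_vec hN w
  have hv' := xK_norm hζ hN hε hv h1 h2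
  have hw' := xK_norm hζ hN hε' hw h1' h2'
  have h2N : (2 : ℤ) ∣ (N : ℤ) := ⟨3 * g, by rw [hN]; push_cast; ring⟩
  have hev : EvenVec v' := ⟨(dvd_of_congr (h2N.trans h1)).2 (hve.1.mul_left _),
    h2 ▸ hve.2.mul_left _⟩
  have hew : EvenVec w' := ⟨(dvd_of_congr (h2N.trans h1')).2 (hwe.1.mul_left _),
    h2' ▸ hwe.2.mul_left _⟩
  have pos : ∀ (u u' : ℤ × ℤ) (c : ℕ) (e : ℤ), (e = 1 ∨ e = -1) → u'.1 = c → EvenVec u' →
      ¬ (N : ℤ) ∣ u.1 → c ≤ 3 * g → (N : ℤ) ∣ u'.1 - e * u.1 → 0 < c ∧ c < 3 * g := by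
    intro u u' c e he hc hu' hu hcm hd
    refine ⟨Nat.pos_of_ne_zero fun h0 => hu ?_, lt_of_le_of_ne hcm fun h0 => hg ?_⟩
    · rw [hc, h0] at hd
      rcases he with rfl | rfl <;> simpa using hd
    · have := hu'.1
      rw [hc, h0] at this
      exact_mod_cast this
  obtain ⟨a0, a1⟩ := pos v v' a ε hε hva hev hvt ha h1
  obtain ⟨b0, b1⟩ := pos w w' a' ε' hε' hwa hew hwt ha' h1'
  have apart : a = a' → ¬ ((3 * g : ℕ) : ℤ) ∣ v'.2 - w'.2 := fun hab hd => by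
    have e2 : (N : ℤ) ∣ v'.2 - w'.2 := hN ▸ mul_dvd_of_even hg (dvd_sub hev.2 hew.2) hd
    have e1 : (N : ℤ) ∣ ε * v.1 - ε' * w.1 := by
      have := dvd_sub h1' h1
      rw [hva, hwa, hab] at this
      rwa [show ε * v.1 - ε' * w.1 = ((a' : ℤ) - ε' * w.1) - ((a' : ℤ) - ε * v.1) by ring]
    rw [h2, h2'] at e2
    rcases hε with rfl | rfl <;> rcases hε' with rfl | rfl
    · exact hvw.1 ⟨by simpa using e1, by simpa using e2⟩
    · exact hvw.2 ⟨by simpa [sub_eq_add_neg] using e1, by simpa [sub_eq_add_neg] using e2⟩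
    · refine hvw.2 ⟨?_, ?_⟩
      · rw [← dvd_neg]; rwa [show -(v + w).1 = -1 * v.1 - 1 * w.1 by simp only [Prod.fst_add]; ring]
      · rw [← dvd_neg]; rwa [show -(v + w).2 = -1 * v.2 - 1 * w.2 by simp only [Prod.snd_add]; ring]
    · refine hvw.1 ⟨?_, ?_⟩
      · rw [← dvd_neg]; rwa [show -(v - w).1 = -1 * v.1 - -1 * w.1 by simp only [Prod.fst_sub]; ring]
      · rw [← dvd_neg]; rwa [show -(v - w).2 = -1 * v.2 - -1 * w.2 by simp only [Prod.snd_sub]; ring]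
  refine ⟨a, a', ε, ε', hε, hε', ⟨a0, a1, hva ▸ h1⟩, ⟨b0, b1, hwa ▸ h1'⟩, ?_⟩
  rw [← hv'.2, ← hw'.2]
  rcases le_total a a' with h | h
  · rw [min_eq_left h]
    exact lead_other_other hζ hA hN hg hC (hev.goodVec hN hg hv'.1) (hew.goodVec hN hg hw'.1)
      hva hwa a0 h b1 apart
  · rw [min_eq_right h, ← neg_sub]
    exact (lead_other_other hζ hA hN hg hC (hew.goodVec hN hg hw'.1) (hev.goodVec hN hg hv'.1)
      hwa hva b0 h a1 fun e he => apart e.symm (dvd_sub_comm.1 he)).neg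

/-- A toric vector of odd order against any other. -/
theorem lead_even_toric {v w : ℤ × ℤ} (hve : EvenVec v) (hwe : EvenVec w) (hv : IsVec N v)
    (hw : IsVec N w) (hvw : Apart N v w) (hvt : (N : ℤ) ∣ v.1) :
    LeadS A 2 (xK (constK A 2) hζ v - xK (constK A 2) hζ w) 0 := by
  by_cases hwt : (N : ℤ) ∣ w.1
  · refine lead_toric_toric hζ hA hN hg hC (hve.goodVec hN hg hv) (hwe.goodVec hN hg hw) hvt hwt
      (fun hd => hvw.1 ⟨dvd_sub hvt hwt, ?_⟩) (fun hd => hvw.2 ⟨dvd_add hvt hwt, ?_⟩)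
    · exact hN ▸ mul_dvd_of_even hg (dvd_sub hve.2 hwe.2) hd
    · exact hN ▸ mul_dvd_of_even hg (dvd_add hve.2 hwe.2) hd
  · exact lead_toric_other hζ hA hN hg hC (hve.goodVec hN hg hv) (hwe.goodVec hN hg hw) hvt hwt

/-- **The difference of two abscissae of odd order has a unit leading coefficient.** -/
theorem exists_lead_even {v w : ℤ × ℤ} (hve : EvenVec v) (hwe : EvenVec w) (hv : IsVec N v)
    (hw : IsVec N w) (hvw : Apart N v w) :
    ∃ k : ℕ, LeadS A 2 (xK (constK A 2) hζ v - xK (constK A 2) hζ w) k := by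
  by_cases hvt : (N : ℤ) ∣ v.1
  · exact ⟨0, by exact_mod_cast lead_even_toric hζ hA hN hg hC hve hwe hv hw hvw hvt⟩
  by_cases hwt : (N : ℤ) ∣ w.1
  · refine ⟨0, ?_⟩
    rw [← neg_sub, Nat.cast_zero]
    refine (lead_even_toric hζ hA hN hg hC hwe hve hw hv ?_ hwt).neg
    exact ⟨by rw [← neg_sub]; exact isVec_neg_vec hvw.1, by rw [add_comm]; exact hvw.2⟩
  · obtain ⟨a, a', -, -, -, -, -, -, h⟩ :=
      lead_even_other hζ hA hN hg hC hve hwe hv hw hvw hvt hwt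
    exact ⟨_, h⟩

/-- Two vectors of order three which are not toric. -/
theorem lead_thirds {v w : ℤ × ℤ} (hve : EvenVec v) (hwe : EvenVec w) (hv : IsVec N v)
    (hw : IsVec N w) (hvw : Apart N v w) (hvt : ¬ (N : ℤ) ∣ v.1) (hwt : ¬ (N : ℤ) ∣ w.1)
    (hv3 : ((2 * g : ℕ) : ℤ) ∣ v.1) (hw3 : ((2 * g : ℕ) : ℤ) ∣ w.1) :
    LeadS A 2 (xK (constK A 2) hζ v - xK (constK A 2) hζ w) (2 * g : ℕ) := by
  obtain ⟨a, a', ε, ε', -, -, ⟨a0, a1, ad⟩, ⟨b0, b1, bd⟩, h⟩ :=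
    lead_even_other hζ hA hN hg hC hve hwe hv hw hvw hvt hwt
  have key : ∀ (c : ℕ) (e x : ℤ), 0 < c → c < 3 * g → ((2 * g : ℕ) : ℤ) ∣ x →
      (N : ℤ) ∣ (c : ℤ) - e * x → c = 2 * g := by
    intro c e x c0 c1 hx hd
    have h2N : ((2 * g : ℕ) : ℤ) ∣ (N : ℤ) := ⟨3, by rw [hN]; push_cast; ring⟩
    have := (dvd_of_congr (h2N.trans hd)).2 (hx.mul_left e)
    obtain ⟨j, rfl⟩ := Int.natCast_dvd_natCast.1 this
    have : j = 1 := by
      rcases j with _ | _ | j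
      · omega
      · rfl
      · nlinarith
    rw [this, mul_one]
  rwa [key a ε v.1 a0 a1 hv3 ad, key a' ε' w.1 b0 b1 hw3 bd, min_self] at h

end FA.Carayol

end
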