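import Fermat.Agent.Carayol.Two.Fun
import Fermat.Agent.Carayol.Two.Vectors
import Fermat.Agent.Carayol.Field.Fixed

/-!
# Translations of the ratios, invariance of `μ`, leading terms of ratios
-/

set_option autoImplicit false
set_option linter.unusedSectionVars false
set_option linter.style.haveILetI false

noncomputable section

namespace FA.Carayol

open UpperHalfPlane hiding I
open CongruenceSubgroup HahnSeries ModularCurve FA.Level FA.ModField FA.Mazur.Wp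
open scoped MatrixGroups

local notation "Qb" => AlgebraicClosure ℚ

/-- Congruent modulo `n`. -/
def VecEq (n : ℕ) (v w : ℤ × ℤ) : Prop := (n : ℤ) ∣ v.1 - w.1 ∧ (n : ℤ) ∣ v.2 - w.2

section general

variable {N : ℕ} [NeZero N] {K : Subfield ℂ} (hζ : ∀ b : ℤ, eta N b ∈ K)

omit [NeZero N] in
theorem VecEq.vmul {v w : ℤ × ℤ} (h : VecEq N v w) (g : SL(2, ℤ)) :
    VecEq N (vmul v g) (vmul w g) := by
  constructor
  · simp only [Carayol.vmul]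
    rw [show v.1 * g 0 0 + v.2 * g 1 0 - (w.1 * g 0 0 + w.2 * g 1 0) =
      (v.1 - w.1) * g 0 0 + (v.2 - w.2) * g 1 0 by ring]
    exact dvd_add (h.1.mul_right _) (h.2.mul_right _)
  · simp only [Carayol.vmul]
    rw [show v.1 * g 0 1 + v.2 * g 1 1 - (w.1 * g 0 1 + w.2 * g 1 1) =
      (v.1 - w.1) * g 0 1 + (v.2 - w.2) * g 1 1 by ring]
    exact dvd_add (h.1.mul_right _) (h.2.mul_right _)

theorem rAct_ratHol (g : SL(2, ℤ)) {v a b : ℤ × ℤ} (hv : IsVec N v) (ha : IsVec N a)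
    (hb : IsVec N b) (hab : Apart N a b) :
    rAct g (ratHol K hζ hv ha hb hab) =
      ratHol K hζ (hv.vmul g) (ha.vmul g) (hb.vmul g) (hab.vmul g) :=
  rN_ext fun τ => ratFun_smul v a b g τ

theorem ratHol_congr {v a b v' a' b' : ℤ × ℤ} (hv : IsVec N v) (ha : IsVec N a) (hb : IsVec N b)
    (hab : Apart N a b) (hv' : IsVec N v') (ha' : IsVec N a') (hb' : IsVec N b')
    (hab' : Apart N a' b') (e1 : VecEq N v v') (e2 : VecEq N a a') (e3 : VecEq N b b') :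
    ratHol K hζ hv ha hb hab = ratHol K hζ hv' ha' hb' hab' :=
  rN_ext fun τ => by
    show ratFun N v a b τ = ratFun N v' a' b' τ
    simp only [ratFun, xVal_congr_dvd e1.1 e1.2, xVal_congr_dvd e2.1 e2.2,
      xVal_congr_dvd e3.1 e3.2]

theorem ratHol_ne_zero {v a b : ℤ × ℤ} (hv : IsVec N v) (ha : IsVec N a) (hb : IsVec N b)
    (hab : Apart N a b) (hvb : Apart N v b) : ratHol K hζ hv ha hb hab ≠ 0 := by
  intro h
  have h1 := congrArg (rEv UpperHalfPlane.I) h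
  rw [map_zero, rEv_ratHol] at h1
  exact div_ne_zero (sub_ne_zero.2 (wpAt_ne _ hv hb hvb)) (sub_ne_zero.2 (wpAt_ne _ ha hb hab)) h1

theorem rSer_rAct_ratHol (g : SL(2, ℤ)) {v a b : ℤ × ℤ} (hv : IsVec N v) (ha : IsVec N a)
    (hb : IsVec N b) (hab : Apart N a b) :
    rSer (rAct g (ratHol K hζ hv ha hb hab)) =
      (xK K hζ (vmul v g) - xK K hζ (vmul b g)) * (xK K hζ (vmul a g) - xK K hζ (vmul b g))⁻¹ := by
  rw [rAct_ratHol, rSer_ratHol]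

end general

variable {N g : ℕ} [NeZero N] (hN : N = 2 * (3 * g))
include hN

/-- Vectors killed by three are fixed by `Γ(3)`. -/
theorem vmul_third {w : ℤ × ℤ} (h1 : ((2 * g : ℕ) : ℤ) ∣ w.1) (h2 : ((2 * g : ℕ) : ℤ) ∣ w.2)
    {γ : SL(2, ℤ)} (hγ : γ ∈ Gamma 3) : VecEq N (vmul w γ) w := by
  rw [Gamma_mem] at hγ
  obtain ⟨a, ha⟩ : (3 : ℤ) ∣ γ 0 0 - 1 := by
    rw [show (3 : ℤ) = ((3 : ℕ) : ℤ) from rfl, ← ZMod.intCast_zmod_eq_zero_iff_dvd]; simp [hγ.1]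
  obtain ⟨b, hb⟩ := (ZMod.intCast_zmod_eq_zero_iff_dvd _ 3).mp hγ.2.1
  obtain ⟨c, hc⟩ := (ZMod.intCast_zmod_eq_zero_iff_dvd _ 3).mp hγ.2.2.1
  obtain ⟨d, hd⟩ : (3 : ℤ) ∣ γ 1 1 - 1 := by
    rw [show (3 : ℤ) = ((3 : ℕ) : ℤ) from rfl, ← ZMod.intCast_zmod_eq_zero_iff_dvd]
    simp [hγ.2.2.2]
  obtain ⟨x, hx⟩ := h1
  obtain ⟨y, hy⟩ := h2
  push_cast at hb hc hx hy
  constructor
  · refine ⟨x * a + y * c, ?_⟩
    simp only [Carayol.vmul]
    rw [hx, hy, hc, show γ 0 0 = 1 + 3 * a by linear_combination ha, hN]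
    push_cast
    ring
  · refine ⟨x * b + y * d, ?_⟩
    simp only [Carayol.vmul]
    rw [hx, hy, hb, show γ 1 1 = 1 + 3 * d by linear_combination hd, hN]
    push_cast
    ring

theorem vmul_pA {γ : SL(2, ℤ)} (hγ : γ ∈ Gamma 3) : VecEq N (vmul (pA g) γ) (pA g) :=
  vmul_third hN (dvd_zero _) dvd_rfl hγ

theorem vmul_pB (i : ℤ) {γ : SL(2, ℤ)} (hγ : γ ∈ Gamma 3) :
    VecEq N (vmul (pB g i) γ) (pB g i) :=
  vmul_third hN dvd_rfl (dvd_mul_right _ _) hγ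

variable {K : Subfield ℂ} (hζ : ∀ b : ℤ, eta N b ∈ K)

theorem rAct_muR {γ : SL(2, ℤ)} (hγ : γ ∈ Gamma 3) : rAct γ (muR hN hζ) = muR hN hζ := by
  rw [muR, map_sub, map_one, map_mul, rAct_rC, rAct_ratHol,
    ratHol_congr hζ _ _ _ _ (isVec_pA hN) (isVec_pB hN 0) (isVec_pB hN 1)
      (apart_pB hN (by norm_num)) (vmul_pA hN hγ) (vmul_pB hN 0 hγ) (vmul_pB hN 1 hγ)]

theorem rAct_fR {γ : SL(2, ℤ)} (hγ : γ ∈ Gamma 3) {v : ℤ × ℤ} (hv : IsHalfPt N g v) :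
    rAct γ (fR hN hζ v hv) = fR hN hζ (vmul v γ) (hv.vmul γ) := by
  rw [fR, fR, map_mul, map_sub, map_one, rAct_muR hN hζ hγ, rAct_ratHol,
    ratHol_congr hζ _ _ _ _ (isVec_pB hN 0) (hv.vmul γ).2.2 (isVec_pA hN)
      ((hv.vmul γ).apart_pA hN) (vmul_pB hN 0 hγ) ⟨by simp, by simp⟩ (vmul_pA hN hγ)]

/-! ### Leading terms -/

theorem evenVec_of_two_g {w : ℤ × ℤ} (h1 : ((2 * g : ℕ) : ℤ) ∣ w.1)
    (h2 : ((2 * g : ℕ) : ℤ) ∣ w.2) : EvenVec w :=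
  ⟨(Dvd.intro (g : ℤ) (by push_cast; ring)).trans h1,
    (Dvd.intro (g : ℤ) (by push_cast; ring)).trans h2⟩

end FA.Carayol

end
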