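import Fermat.Agent.Carayol.Two.Points
import Fermat.Agent.Carayol.OddInf.Residual

/-!
# The cusps at the prime two

A point over a cusp is the centre of the place at infinity pulled back by some `γ · repThree r`.
-/

set_option autoImplicit false
set_option linter.unusedSectionVars false
set_option linter.style.haveILetI false
set_option linter.unusedSimpArgs false

noncomputable section

namespace FA.Carayol

open CongruenceSubgroup HahnSeries ModularCurve FA.Level FA.ModField FA.Mazur.Wp Polynomial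
open scoped MatrixGroups

local notation "Qb" => AlgebraicClosure ℚ

/-- The index of the cusp `μ = ω ^ i`. -/
theorem exists_cusp_index (i : ℕ) (hi : i < 3) : ∃ r : Fin 4, r ≠ 0 ∧ cuspExp r = i := by
  interval_cases i
  · exact ⟨1, by decide, rfl⟩
  · exact ⟨3, by decide, rfl⟩
  · exact ⟨2, by decide, rfl⟩

theorem cuspExp_lt (r : Fin 4) : cuspExp r < 3 := by fin_cases r <;> decide

section place

variable [Algebra Qb ℂ] {A : ValuationSubring Qb} {q : ℕ} {N : ℕ} [NeZero N]
  {ϖ : baseO A (constL A q).toSubfield} {z : flN N (constK A q)} {ℓ : ℕ}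
  (hz : Coord A q ℓ z) (hC : ConstHyp A (constL A q).toSubfield ϖ)

/-- An integral series gives an element of the ring at infinity. -/
theorem exists_inftyRes_of_int {x : flN N (constK A q)}
    {a : LaurentSeries (baseO A (constL A q).toSubfield)} (h : serO A q a = ser x) :
    ∃ hmem : x ∈ inftyVal hz hC, inftyRes hz hC ⟨x, hmem⟩ = redO A q a := by
  have h1 : ser x * serO A q 1 = serO A q a := by rw [map_one, mul_one, h]
  refine ⟨(mem_inftyVal hz hC).2 ⟨a, 1, by simp, h1⟩, ?_⟩
  rw [inftyRes_eq hz hC (x := ⟨x, _⟩) (by simp) h1, map_one, div_one]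

theorem exists_inftyRes_of_lead {x : flN N (constK A q)} {k : ℤ}
    (h : LeadS A q (ser x) k) : ∃ hmem : x ∈ inftyVal hz hC,
      inftyRes hz hC ⟨x, hmem⟩ ≠ 0 ∧ (inftyRes hz hC ⟨x, hmem⟩).order = k := by
  obtain ⟨a, ha, hne, ho⟩ := h.exists_red
  obtain ⟨hmem, e⟩ := exists_inftyRes_of_int hz hC ha
  exact ⟨hmem, by rw [e]; exact hne, by rw [e]; exact ho⟩

/-- An integral series without pole lies in the place at infinity. -/
theorem mem_place_of_int {x : flN N (constK A q)} (h : ser x ∈ intS A q) (h0 : OrdGE 0 (ser x)) :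
    x ∈ inftyPlace hz hC := by
  obtain ⟨a, ha⟩ := h
  obtain ⟨hmem, e⟩ := exists_inftyRes_of_int hz hC ha
  refine (mem_inftyPlace hz hC).2 ⟨hmem, ?_⟩
  rw [e]
  intro i hi
  have := h0 i hi
  rw [← ha] at this
  simp only [serO, coeffMap_coeff] at this
  simp [redO, show a.coeff i = 0 from baseK_injective (by rw [this, map_zero])]

theorem lt_place_of_lt {x : flN N (constK A q)} (h : (inftyVal hz hC).valuation x < 1) :
    (inftyPlace hz hC).valuation x < 1 := by
  rw [val_lt_one_iff_inv] at h ⊢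
  exact h.imp_right fun hn hm => hn (inftyPlace_le hz hC hm)

theorem place_val_eq {x y : inftyVal hz hC} (hx : inftyRes hz hC x ≠ 0)
    (hy : inftyRes hz hC y ≠ 0) (h : (inftyRes hz hC x).order = (inftyRes hz hC y).order) :
    (inftyPlace hz hC).valuation (x : flN N (constK A q)) =
      (inftyPlace hz hC).valuation (y : flN N (constK A q)) := by
  have hy1 := (val_eq_iff_inftyRes hz hC y).2 hy
  have hy0 : (y : flN N (constK A q)) ≠ 0 := fun e => by rw [e, map_zero] at hy1; exact zero_ne_one hy1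
  have hu : (x : flN N (constK A q)) / y ∈ inftyVal hz hC := by
    rw [← ValuationSubring.valuation_le_one_iff, map_div₀, hy1, div_one]
    exact ((inftyVal hz hC).valuation_le_one_iff _).2 x.2
  have hm : inftyRes hz hC ⟨_, hu⟩ * inftyRes hz hC y = inftyRes hz hC x := by
    rw [← map_mul]
    exact congrArg _ (Subtype.ext (div_mul_cancel₀ _ hy0))
  have hu0 : inftyRes hz hC ⟨_, hu⟩ ≠ 0 := left_ne_zero_of_mul (a := inftyRes hz hC ⟨_, hu⟩)
    (b := inftyRes hz hC y) (by rw [hm]; exact hx)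
  have ho := congrArg HahnSeries.order hm
  rw [HahnSeries.order_mul hu0 hy, h, add_eq_right] at ho
  have h1 := val_inftyPlace_eq_one hz hC hu0 ho
  rwa [map_div₀, div_eq_one_iff_eq ((Valuation.ne_zero_iff _).2 hy0)] at h1

end place

variable [Algebra Qb ℂ] {A : ValuationSubring Qb} {N g : ℕ} [NeZero N]
  (hζ : ∀ b : ℤ, eta N b ∈ constK A 2) {ϖ : baseO A (constL A 2).toSubfield}
  (hA : A.LiesOverPrime 2) (hN : N = 2 * (3 * g)) (hg : ¬ 2 ∣ 3 * g)
  (hC : ConstHyp A (constL A 2).toSubfield ϖ)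

/-- The value of the coordinate at a cusp. -/
def cuspC (b : Bool) (r : Fin 4) : baseO A (constL A 2).toSubfield :=
  if r = 0 then 0 else omO hζ hN ^ ((bif b then 2 else 1) * cuspExp r)

theorem toFl_om_pow (i : ℕ) :
    toFl (rC (N := N) (omK hN hζ ^ i)) = cF A 2 N (omO hζ hN ^ i) := by
  show _ = toFl (rC (baseK A 2 _))
  rw [map_pow (baseK A 2), baseK_omO]

theorem mul_three_roots (x : flN N (constK A 2)) :
    x ^ 3 - 1 = (x - cF A 2 N (omO hζ hN ^ 0)) * (x - cF A 2 N (omO hζ hN ^ 1)) *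
      (x - cF A 2 N (omO hζ hN ^ 2)) := by
  have h := congrArg (cF A 2 N) (omO_root hζ hN)
  simp only [map_add, map_pow, map_one, map_zero] at h
  simp only [map_pow, map_one, pow_zero, pow_one]
  linear_combination (x ^ 2 - cF A 2 N (omO hζ hN) * x + (cF A 2 N (omO hζ hN) - 1)) * h

theorem ser_flAct_toFl (δ : SL(2, ℤ)) (f : rN N (constK A 2)) :
    ser (flAct δ (toFl f)) = rSer (rAct δ f) := by
  rw [flAct_toFl]; exact ser_rMer _

include hA hN hg hC

/-- The coordinate minus its value at the cusp, at the representative. -/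
theorem lead_coord (b : Bool) (r : Fin 4) (hr : r = 0 → b = true) :
    LeadS A 2 (ser (flAct (repThree r)
      (coordB A 2 (muF hζ hN) b - cF A 2 N (cuspC hζ hN b r)))) ((2 * g : ℕ) : ℤ) := by
  have hl : ∀ {i : ℕ}, i < 3 → LeadS A 2 (ser (flAct (repThree r)
      (muF hζ hN - cF A 2 N (omO hζ hN ^ i))))
      (if r = 0 then -((2 * g : ℕ) : ℤ) else if i = cuspExp r then ((2 * g : ℕ) : ℤ) else 0) := by
    intro i hi
    rw [← toFl_om_pow, muF, ← map_sub, ser_flAct_toFl]
    exact lead_mu_rep hζ hA hN hg hC r hi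
  by_cases h0 : r = 0
  · subst h0
    rw [hr rfl]
    have h := hl (show 0 < 3 by norm_num)
    rw [if_pos rfl, pow_zero, map_one, map_sub, map_one, map_sub, map_one] at h
    have h' := h.add_higher (T := 1) (one_mem _) (ordGE_one.mono (by have := g_pos' hN; omega))
    rw [sub_add_cancel] at h'
    simp only [cuspC, if_true, map_zero, sub_zero]
    show LeadS A 2 (ser (flAct (repThree 0) (muF hζ hN)⁻¹)) _
    rw [map_inv₀, map_inv₀]
    simpa using h'.inv hC
  · have h := hl (cuspExp_lt r)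
    rw [if_neg h0, if_pos rfl] at h
    cases b with
    | false => simpa [cuspC, h0, coordB] using h
    | true =>
      have hC0 : LeadS A 2 (HahnSeries.C (baseK A 2 (omO hζ hN ^ cuspExp r))) 0 := leadS_C (by
        rw [map_pow]
        exact pow_ne_zero _ fun e => by
          have h1 := congrArg (resO A 2) (omO_cube hζ hN)
          rw [map_pow, e, map_one, zero_pow (by norm_num)] at h1
          exact zero_ne_one h1)
      have hμ := hC0.add_higher h.mem_intS
        (h.ordGE.mono (by have := g_pos' hN; omega))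
      rw [map_sub, map_sub, flAct_cF, ser_cF, add_sub_cancel] at hμ
      have hneg : LeadS A 2 (HahnSeries.C (baseK A 2 (omO hζ hN ^ (2 * cuspExp r)))) 0 := leadS_C (by
        rw [map_pow]
        exact pow_ne_zero _ fun e => by
          have h1 := congrArg (resO A 2) (omO_cube hζ hN)
          rw [map_pow, e, map_one, zero_pow (by norm_num)] at h1
          exact zero_ne_one h1)
      have hm0 := muF_ne hζ hA hN hg hC
      have e1 : cF A 2 N (omO hζ hN ^ (2 * cuspExp r)) * cF A 2 N (omO hζ hN ^ cuspExp r) = 1 := by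
        rw [← map_mul, ← _root_.pow_add, show 2 * cuspExp r + cuspExp r = 3 * cuspExp r by ring,
          pow_mul, omO_cube, one_pow, map_one]
      have e : coordB A 2 (muF hζ hN) true - cF A 2 N (cuspC hζ hN true r) =
          -((muF hζ hN - cF A 2 N (omO hζ hN ^ cuspExp r)) *
            cF A 2 N (omO hζ hN ^ (2 * cuspExp r))) * (muF hζ hN)⁻¹ := by
        simp only [cuspC, if_neg h0, coordB, cond_true]
        field_simp
        linear_combination -e1
      rw [e, map_mul, map_mul, map_neg, map_neg, map_mul, map_mul, flAct_cF, ser_cF, map_inv₀,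
        map_inv₀]
      simpa using ((h.mul hneg).neg).mul (hμ.inv hC)

/-- The coordinate has a reduced series, transcendental over the residue field. -/
theorem exists_coord_series (b : Bool) (r : Fin 4) (hr : r = 0 → b = true) :
    ∃ a : LaurentSeries (baseO A (constL A 2).toSubfield),
      serO A 2 a = ser (flAct (repThree r) (coordB A 2 (muF hζ hN) b)) ∧ OrdGE 0 a ∧
      resO A 2 (a.coeff 0) = resO A 2 (cuspC hζ hN b r) ∧
      ∀ P : (IsLocalRing.ResidueField A)[X], P ≠ 0 → P.eval₂ HahnSeries.C (redO A 2 a) ≠ 0 := by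
  have h := lead_coord hζ hA hN hg hC b r hr
  obtain ⟨S, hS, hSne, hSo⟩ := h.exists_red
  obtain ⟨S', hS', hS0, -⟩ := h
  obtain rfl : S = S' := serO_injective (hS.trans hS'.symm)
  have hg0 := g_pos' hN
  refine ⟨S + HahnSeries.C (cuspC hζ hN b r), ?_, (hS0.mono (by omega)).add (ordGE_C _), ?_, ?_⟩
  · rw [map_add, serO_C, hS, map_sub, map_sub, flAct_cF, ser_cF, sub_add_cancel]
  · rw [HahnSeries.coeff_add, hS0 0 (by omega), zero_add]
    simp
  · intro P hP
    rw [map_add, redO_C]
    have h1 := eval_ne_zero_of_order hSne (by rw [hSo]; omega)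
      (P := P.comp (X + Polynomial.C (resO A 2 (cuspC hζ hN b r)))) (fun e => hP (by
        rw [comp_eq_zero_iff] at e
        rcases e with e | ⟨-, e⟩
        · exact e
        · exfalso
          have := congrArg (fun p : (IsLocalRing.ResidueField A)[X] => p.coeff 1) e
          simp [Polynomial.coeff_C] at this))
    rwa [eval₂_comp, eval₂_add, eval₂_X, eval₂_C] at h1

/-- The component at the cusp. -/
theorem isVertF_cusp (b : Bool) (r : Fin 4) (hr : r = 0 → b = true) {γ : SL(2, ℤ)}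
    (hγ : γ ∈ Gamma 3) :
    IsVertF A 2 ϖ (muF hζ hN) ((inftyVal (twoCoord hζ hA hN hg hC) hC).comap
      ((flEquiv (γ * repThree r) : flN N (constK A 2) ≃+* flN N (constK A 2)) :
        flN N (constK A 2) →+* flN N (constK A 2))) := by
  set hz := twoCoord hζ hA hN hg hC
  have hγc : flAct γ (coordB A 2 (muF hζ hN) b) = coordB A 2 (muF hζ hN) b :=
    galLvl_coord b hC hz (flEquiv_mem_galLvl_three hγ)
  obtain ⟨a, ha, -, -, htr⟩ := exists_coord_series hζ hA hN hg hC b r hr
  refine (isVertF_iff b _).2 ⟨val_comap_lt.2 ?_, fun P hP => val_comap_eq.2 ?_⟩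
  · show (inftyVal hz hC).valuation (flAct (γ * repThree r) (phiB A 2 _ b (Polynomial.C ϖ))) < 1
    rw [phiB_C, flAct_cF]
    exact (isVertF_inftyVal hz hC).1
  · show (inftyVal hz hC).valuation (flAct (γ * repThree r) (phiB A 2 (muF hζ hN) b P)) = 1
    have e : serO A 2 (P.eval₂ HahnSeries.C a) =
        ser (flAct (γ * repThree r) (phiB A 2 (muF hζ hN) b P)) := by
      rw [flAct_mul, galLvl_phiB b hC hz (flEquiv_mem_galLvl_three hγ) P |> fun t =>
        (show flAct γ (phiB A 2 (muF hζ hN) b P) = phiB A 2 (muF hζ hN) b P from t)]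
      simp only [phiB, coe_eval₂RingHom]
      rw [hom_eval₂, hom_eval₂, hom_eval₂, ha]
      congr 1
      exact RingHom.ext fun c => by
        simp only [RingHom.comp_apply, RingHom.coe_coe, flAct_cF, ser_cF, serO_C]
    obtain ⟨hmem, e'⟩ := exists_inftyRes_of_int hz hC e
    refine (val_eq_iff_inftyRes hz hC ⟨_, hmem⟩).2 ?_
    rw [e', hom_eval₂, show (redO A 2).comp HahnSeries.C =
      (HahnSeries.C : IsLocalRing.ResidueField A →+* _).comp (resO A 2) from
        RingHom.ext fun c => redO_C c, ← eval₂_map]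
    refine htr _ fun h0 => ?_
    obtain ⟨i, hi⟩ := hP
    exact resO_ne_of_isUnit hi (by
      simpa using congrArg (fun p : (IsLocalRing.ResidueField A)[X] => p.coeff i) h0)

/-- The chart lies in the place of a cusp. -/
theorem mem_place_cusp (b : Bool) (r : Fin 4) (hr : r = 0 → b = true) {γ : SL(2, ℤ)}
    (hγ : γ ∈ Gamma 3) {x : flN N (constK A 2)}
    (hx : x ∈ chartF A 2 (coordB A 2 (muF hζ hN) b)) :
    flAct (γ * repThree r) x ∈ inftyPlace (twoCoord hζ hA hN hg hC) hC := by
  set hz := twoCoord hζ hA hN hg hC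
  set ψ : flN N (constK A 2) →+* flN N (constK A 2) :=
    ((flEquiv (γ * repThree r) : flN N (constK A 2) ≃+* flN N (constK A 2)) :
      flN N (constK A 2) →+* flN N (constK A 2))
  have hgen : ∀ Q, ψ (phiB A 2 (muF hζ hN) b Q) ∈ inftyPlace hz hC := fun Q => by
    obtain ⟨a, ha, ha0, -, -⟩ := exists_coord_series hζ hA hN hg hC b r hr
    have hw : ψ (coordB A 2 (muF hζ hN) b) ∈ inftyPlace hz hC := by
      show flAct (γ * repThree r) _ ∈ _
      rw [flAct_mul, show flAct γ (coordB A 2 (muF hζ hN) b) = coordB A 2 (muF hζ hN) b from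
        galLvl_coord b hC hz (flEquiv_mem_galLvl_three hγ)]
      exact mem_place_of_int hz hC ⟨a, ha⟩ (by
        rw [← ha]; intro i hi; simp [serO, ha0 i hi])
    simp only [phiB, coe_eval₂RingHom]
    rw [eval₂_eq_sum_range, map_sum]
    refine sum_mem fun i _ => ?_
    rw [map_mul, map_pow]
    refine mul_mem ?_ (pow_mem hw i)
    show flAct (γ * repThree r) (cF A 2 N _) ∈ _
    rw [flAct_cF]
    exact mem_place_of_int hz hC (by rw [ser_cF]; exact intS_C _) (by rw [ser_cF]; exact ordGE_C _)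
  obtain ⟨P, hP, he⟩ := (mem_chart_iff b x).1 hx
  let φ := (ψ.comp (phiB A 2 (muF hζ hN) b)).codRestrict (inftyPlace hz hC).toSubring hgen
  have hint : IsIntegral (inftyPlace hz hC) (ψ x) := ⟨P.map φ, hP.map _, by
    rw [eval₂_map]
    have h := congrArg ψ he
    rw [hom_eval₂, map_zero] at h
    exact h⟩
  obtain ⟨y, hy⟩ := IsIntegrallyClosed.isIntegral_iff.1 hint
  show ψ x ∈ _
  exact hy ▸ y.2

omit hA hg hC in
/-- The cusp of a point. -/
theorem exists_cusp_value {p : Pt A 2 (muF hζ hN)} (hp : p.2.IsMaximal)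
    (hcl : clF hζ hN p.1 ∈ ptSet p) : ∃ r : Fin 4, (r = 0 → p.1 = true) ∧
      coordB A 2 (muF hζ hN) p.1 - cF A 2 N (cuspC hζ hN p.1 r) ∈ ptSet p := by
  obtain ⟨b, P⟩ := p
  obtain ⟨hm, hmP⟩ := mem_ptSet.1 hcl
  have hw := mem_chartF_self (A := A) (coordB A 2 (muF hζ hN) b)
  have hmem : ∀ c, coordB A 2 (muF hζ hN) b - cF A 2 N c ∈
      chartF A 2 (coordB A 2 (muF hζ hN) b) := fun c => sub_mem hw (cF_mem_chartB c _)
  have key : (⟨coordB A 2 (muF hζ hN) b, hw⟩ : chartF A 2 (coordB A 2 (muF hζ hN) b)) ^ 3 - 1 ∈ P →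
      ∃ r : Fin 4, r ≠ 0 ∧
        coordB A 2 (muF hζ hN) b - cF A 2 N (cuspC hζ hN b r) ∈ ptSet (⟨b, P⟩ : Pt A 2 (muF hζ hN)) := by
    intro h
    rw [show (⟨coordB A 2 (muF hζ hN) b, hw⟩ : chartF A 2 (coordB A 2 (muF hζ hN) b)) ^ 3 - 1 =
        ⟨_, hmem (omO hζ hN ^ 0)⟩ * ⟨_, hmem (omO hζ hN ^ 1)⟩ * ⟨_, hmem (omO hζ hN ^ 2)⟩ from
      chart_ext (by
        simp only [map_mul, map_sub, map_pow, map_one]
        simp only [Subring.subtype_apply]
        simpa only [map_pow] using mul_three_roots hζ hN (coordB A 2 (muF hζ hN) b))] at h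
    have hcases : ∃ i, i < 3 ∧ coordB A 2 (muF hζ hN) b - cF A 2 N (omO hζ hN ^ i) ∈
        ptSet (⟨b, P⟩ : Pt A 2 (muF hζ hN)) := by
      rcases hp.isPrime.mem_or_mem h with h | h
      · rcases hp.isPrime.mem_or_mem h with h | h
        · exact ⟨0, by norm_num, mem_ptSet.2 ⟨_, h⟩⟩
        · exact ⟨1, by norm_num, mem_ptSet.2 ⟨_, h⟩⟩
      · exact ⟨2, by norm_num, mem_ptSet.2 ⟨_, h⟩⟩
    obtain ⟨i, hi, hci⟩ := hcases
    cases b with
    | false =>
      obtain ⟨r, hr, hri⟩ := exists_cusp_index i hi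
      refine ⟨r, hr, ?_⟩
      simpa [cuspC, hr, hri] using hci
    | true =>
      obtain ⟨r, hr, hri⟩ := exists_cusp_index ((2 * i) % 3) (Nat.mod_lt _ (by norm_num))
      refine ⟨r, hr, ?_⟩
      have e : omO hζ hN ^ (2 * cuspExp r) = omO hζ hN ^ i := by
        rw [pow_eq_pow_mod _ (omO_cube hζ hN), hri, show 2 * (2 * i % 3) % 3 = i by omega]
      simpa [cuspC, hr, e] using hci
  cases b with
  | false =>
    obtain ⟨r, hr, h⟩ := key (by
      convert hmP using 1
      exact chart_ext (by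
        simp only [map_sub, map_pow, map_one]
        rfl))
    exact ⟨r, fun h0 => absurd h0 hr, h⟩
  | true =>
    have h1 : (1 : flN N (constK A 2)) - (muF hζ hN)⁻¹ ^ 3 ∈ chartF A 2 (muF hζ hN)⁻¹ :=
      sub_mem (one_mem _) (pow_mem hw 3)
    have e : (⟨_, hm⟩ : chartF A 2 (coordB A 2 (muF hζ hN) true)) =
        ⟨coordB A 2 (muF hζ hN) true, hw⟩ *
          -((⟨coordB A 2 (muF hζ hN) true, hw⟩ : chartF A 2 (coordB A 2 (muF hζ hN) true)) ^ 3 - 1) :=
      chart_ext (by
        simp only [map_mul, map_neg, map_sub, map_pow, map_one]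
        simp only [Subring.subtype_apply]
        simp [clF, coordB])
    rw [e] at hmP
    rcases hp.isPrime.mem_or_mem hmP with h | h
    · exact ⟨0, fun _ => rfl, by
        simpa [cuspC] using mem_ptSet.2 ⟨hw, h⟩⟩
    · obtain ⟨r, hr, h⟩ := key (neg_mem_iff.1 h)
      exact ⟨r, fun _ => rfl, h⟩

set_option maxHeartbeats 800000 in
/-- **A point over a cusp is the centre of a translate of the place at infinity.** -/
theorem exists_cusp {p : Pt A 2 (muF hζ hN)} (hp : IsPtF ϖ p)
    (hcl : clF hζ hN p.1 ∈ ptSet p) : ∃ γ ∈ Gamma 3, ∃ r : Fin 4, (r = 0 → p.1 = true) ∧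
      ∀ x : chartF A 2 (coordB A 2 (muF hζ hN) p.1), x ∈ p.2 ↔
        (inftyPlace (twoCoord hζ hA hN hg hC) hC).valuation
          (flAct (γ * repThree r) (x : flN N (constK A 2))) < 1 := by
  classical
  set hz := twoCoord hζ hA hN hg hC
  obtain ⟨r, hr, hval⟩ := exists_cusp_value hζ hN hp.1 hcl
  obtain ⟨hmv, hvP⟩ := mem_ptSet.1 hval
  let ψ : chartF A 2 (coordB A 2 (muF hζ hN) p.1) →+* inftyPlace hz hC :=
    (((flEquiv (repThree r) : flN N (constK A 2) ≃+* flN N (constK A 2)) :
      flN N (constK A 2) →+* flN N (constK A 2)).comp (Subring.subtype _)).codRestrict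
      (inftyPlace hz hC).toSubring fun x => by
        have h := mem_place_cusp hζ hA hN hg hC p.1 r hr (one_mem _) x.2
        rwa [one_mul] at h
  let I : Ideal (chartF A 2 (coordB A 2 (muF hζ hN) p.1)) :=
    (IsLocalRing.maximalIdeal (inftyPlace hz hC)).comap ψ
  have hI : I.IsPrime := Ideal.comap_isPrime _ _
  have memI : ∀ x, x ∈ I ↔ (inftyPlace hz hC).valuation
      (flAct (repThree r) ((x : chartF A 2 (coordB A 2 (muF hζ hN) p.1)) : flN N (constK A 2))) < 1 :=
    fun x => (inftyPlace hz hC).valuation_lt_one_iff _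
  have hIv : (⟨_, hmv⟩ : chartF A 2 (coordB A 2 (muF hζ hN) p.1)) ∈ I := by
    rw [memI]
    obtain ⟨a, ha, hne, ho⟩ := (lead_coord hζ hA hN hg hC p.1 r hr).exists_red
    obtain ⟨hmem, e⟩ := exists_inftyRes_of_int hz hC ha
    have hpl : flAct (repThree r) (coordB A 2 (muF hζ hN) p.1 -
        cF A 2 N (cuspC hζ hN p.1 r)) ∈ inftyPlace hz hC := by
      have h := mem_place_cusp hζ hA hN hg hC p.1 r hr (one_mem _) hmv
      rwa [one_mul] at h
    rw [val_inftyPlace_lt_iff hz hC hpl, e]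
    exact ((ordGE_iff_le_order hne).2 ho.ge) 0 (by have := g_pos' hN; omega)
  have hIϖ : toChart A 2 (muF hζ hN) p.1 (Polynomial.C ϖ) ∈ I := by
    rw [memI, coe_toChart, phiB_C, flAct_cF]
    exact lt_place_of_lt hz hC (isVertF_inftyVal hz hC).1
  have hpϖ : toChart A 2 (muF hζ hN) p.1 (Polynomial.C ϖ) ∈ p.2 := by
    obtain ⟨x, hx, hxe⟩ := hp.2
    rwa [show toChart A 2 (muF hζ hN) p.1 (Polynomial.C ϖ) = x from
      Subtype.ext ((phiB_C p.1 ϖ).trans hxe.symm)]
  set c := cuspC hζ hN p.1 r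
  have hsame : ∀ J : Ideal (chartF A 2 (coordB A 2 (muF hζ hN) p.1)), J.IsPrime →
      (⟨_, hmv⟩ : chartF A 2 (coordB A 2 (muF hζ hN) p.1)) ∈ J →
      toChart A 2 (muF hζ hN) p.1 (Polynomial.C ϖ) ∈ J →
      ∀ Q, toChart A 2 (muF hζ hN) p.1 Q ∈ J ↔ resO A 2 (Q.eval c) = 0 := by
    intro J hJ hv hϖJ Q
    obtain ⟨R, hR⟩ := X_sub_C_dvd_sub_C_eval (p := Q) (a := c)
    have hX : toChart A 2 (muF hζ hN) p.1 (X - Polynomial.C c) ∈ J := by
      rwa [show toChart A 2 (muF hζ hN) p.1 (X - Polynomial.C c) = ⟨_, hmv⟩ from Subtype.ext (by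
        rw [coe_toChart, map_sub, phiB_X, phiB_C])]
    have h1 : toChart A 2 (muF hζ hN) p.1 (Q - Polynomial.C (Q.eval c)) ∈ J := by
      rw [hR, map_mul]; exact J.mul_mem_right _ hX
    rw [map_sub] at h1
    constructor
    · intro hQ
      by_contra hne
      have h2 := J.sub_mem hQ h1
      rw [sub_sub_cancel] at h2
      exact hJ.ne_top (J.eq_top_of_isUnit_mem h2
        (((isUnit_of_resT_ne hC hne).map Polynomial.C).map (toChart A 2 (muF hζ hN) p.1)))
    · intro h0
      obtain ⟨d, hd⟩ := (pi_dvd_iff hC).2 h0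
      have h2 : toChart A 2 (muF hζ hN) p.1 (Polynomial.C (Q.eval c)) ∈ J := by
        rw [hd, map_mul, map_mul]; exact J.mul_mem_right _ hϖJ
      have h3 := J.add_mem h1 h2
      rwa [sub_add_cancel] at h3
  obtain ⟨g₀, hg₀⟩ := exists_actB_eq p.1 hC hz hI hp.1 (Ideal.ext fun Q => by
    rw [Ideal.mem_comap, Ideal.mem_comap, hsame p.2 hp.1.isPrime hvP hpϖ Q, hsame I hI hIv hIϖ Q])
  obtain ⟨γ, hγ, he⟩ := exists_of_galLvl g₀.2
  refine ⟨γ, hγ, r, hr, fun x => ?_⟩
  rw [hg₀, Ideal.mem_comap, memI, coe_actB, he, flEquiv_apply, flAct_mul]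

end FA.Carayol

end
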