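import Fermat.Agent.Carayol.Two.Stab
import Fermat.Agent.Carayol.Two.Cusp
import Fermat.Agent.Carayol.Count.Local

/-!
# The parameter and the stabiliser at a cusp

At a cusp the root `r` of the coordinate has order `g`, a difference of two abscissae gives a
parameter of order one, and the elements fixing the point are translations modulo `3 g` followed by
a permutation of the labels fixing one of them.
-/

set_option autoImplicit false
set_option linter.unusedSectionVars false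
set_option linter.style.haveILetI false
set_option linter.unusedSimpArgs false

noncomputable section

namespace FA.Carayol

open CongruenceSubgroup HahnSeries ModularCurve FA.Level FA.ModField FA.Mazur.Wp Polynomial
open scoped MatrixGroups

local notation "Qb" => AlgebraicClosure ℚ

theorem cuspExp_inj {r r' : Fin 4} (h0 : r ≠ 0) (h0' : r' ≠ 0) (h : cuspExp r = cuspExp r') :
    r = r' := by
  fin_cases r <;> fin_cases r' <;> simp_all [cuspExp]

theorem VecEq.trans' {n : ℕ} {u v w : ℤ × ℤ} (h : VecEq n u v) (h' : VecEq n v w) : VecEq n u w :=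
  ⟨by simpa using dvd_add h.1 h'.1, by simpa using dvd_add h.2 h'.2⟩

theorem VecEq.symm' {n : ℕ} {u v : ℤ × ℤ} (h : VecEq n u v) : VecEq n v u :=
  ⟨by simpa [neg_sub] using h.1.neg_right, by simpa [neg_sub] using h.2.neg_right⟩

section vec

variable {N g : ℕ} [NeZero N] (hN : N = 2 * (3 * g))
include hN

theorem apart_pA_pB : Apart N (pA g) (pB g 0) := by
  obtain ⟨h1, h2⟩ := apart_pB_pA hN (g := g) 0
  refine ⟨fun hd => h1 ?_, fun hd => h2 ?_⟩
  · exact ⟨by simpa using hd.1.neg_right, by simpa using hd.2.neg_right⟩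
  · rwa [add_comm] at hd

omit hN in
theorem third_pA (δ : SL(2, ℤ)) :
    ((2 * g : ℕ) : ℤ) ∣ (vmul (pA g) δ).1 ∧ ((2 * g : ℕ) : ℤ) ∣ (vmul (pA g) δ).2 := by
  simp [vmul, pA]

omit hN in
theorem third_pB (δ : SL(2, ℤ)) :
    ((2 * g : ℕ) : ℤ) ∣ (vmul (pB g 0) δ).1 ∧ ((2 * g : ℕ) : ℤ) ∣ (vmul (pB g 0) δ).2 := by
  simp [vmul, pB]

theorem goodVec_pA : GoodVec (3 * g) (pA g) := fun h => by
  have := g_pos' hN
  have h2 := Int.natCast_dvd_natCast.1 (by simpa [pA] using h.2 : ((3 * g : ℕ) : ℤ) ∣ ((2 * g : ℕ) : ℤ))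
  have := Nat.le_of_dvd (by omega) h2
  omega

theorem goodVec_pB : GoodVec (3 * g) (pB g 0) := fun h => by
  have := g_pos' hN
  have h2 := Int.natCast_dvd_natCast.1 (by simpa [pB] using h.1 : ((3 * g : ℕ) : ℤ) ∣ ((2 * g : ℕ) : ℤ))
  have := Nat.le_of_dvd (by omega) h2
  omega

/-- The pulled back vectors of order three at a translate of the same cusp. -/
theorem third_back {w : ℤ × ℤ} {γ γ' : SL(2, ℤ)} (hγ : γ ∈ Gamma 3) (hγ' : γ' ∈ Gamma 3)
    (s : SL(2, ℤ)) (h : ∀ δ, ((2 * g : ℕ) : ℤ) ∣ (vmul w δ).1 ∧ ((2 * g : ℕ) : ℤ) ∣ (vmul w δ).2) :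
    VecEq N (vmul (vmul w (γ * s)⁻¹) (γ' * s)) w := by
  obtain ⟨h1, h2⟩ := h (γ * s)⁻¹
  have e : vmul (vmul (vmul w (γ * s)⁻¹) γ) s = w := by
    rw [← vmul_mul, ← vmul_mul, inv_mul_cancel, vmul_one]
  rw [vmul_mul]
  have h' := ((vmul_third hN h1 h2 hγ').trans' (vmul_third hN h1 h2 hγ).symm').vmul s
  rwa [e] at h'

end vec

/-- A root of a series of order `2 g` in characteristic two has order `g`. -/
theorem order_sqrt_series {B k : Type*} [CommRing B] [Field k] (R : B →+* LaurentSeries k)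
    (h2 : R 2 = 0) {g : ℕ} (hg : 0 < g) {S W Cc C' : B} {t t' : k} (hCc : R Cc = HahnSeries.C t)
    (hC' : R C' = HahnSeries.C t') (hs : R (S ^ 2 - W) = 0) (hne : R (W - Cc) ≠ 0)
    (ho : (R (W - Cc)).order = ((2 * g : ℕ) : ℤ)) (hx : OrdGE 0 (R (S - C')))
    (hx0 : (R (S - C')).coeff 0 = 0) :
    R (S - C') ≠ 0 ∧ (R (S - C')).order = g := by
  have hx1 : OrdGE 1 (R (S - C')) := fun i hi => by
    rcases lt_or_eq_of_le (show i ≤ 0 by omega) with h | h
    · exact hx i h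
    · exact h ▸ hx0
  have hdec : R (S - C') ^ 2 = R (W - Cc) + HahnSeries.C (t + t' ^ 2) := by
    rw [← map_pow, show (S - C') ^ 2 = (S ^ 2 - W) + (W - Cc) + (Cc + C' ^ 2) - 2 * (S * C') by ring,
      map_sub, map_add, map_add, map_add, map_mul, map_pow, h2, hs, hCc, hC', map_add, map_pow,
      zero_mul, sub_zero, zero_add]
  have ht : t + t' ^ 2 = 0 := by
    have h := congrArg (fun T : LaurentSeries k => T.coeff 0) hdec
    simp only [HahnSeries.coeff_add, HahnSeries.C_apply, coeff_single_same] at h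
    rw [show (R (S - C') ^ 2).coeff 0 = 0 from (hx1.pow 2) 0 (by norm_num),
      ((ordGE_iff_le_order hne).2 ho.ge) 0 (by omega), zero_add] at h
    exact h.symm
  rw [ht, map_zero, add_zero] at hdec
  have hxne : R (S - C') ≠ 0 := fun h => hne (by rw [← hdec, h, zero_pow two_ne_zero])
  refine ⟨hxne, ?_⟩
  have h := congrArg HahnSeries.order hdec
  rw [ho, sq, HahnSeries.order_mul hxne hxne] at h
  push_cast at h
  omega

variable [Algebra Qb ℂ] {A : ValuationSubring Qb} {N g : ℕ} [NeZero N]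
  (hζ : ∀ b : ℤ, eta N b ∈ constK A 2) {ϖ : baseO A (constL A 2).toSubfield}
  (hA : A.LiesOverPrime 2) (hN : N = 2 * (3 * g)) (hg : ¬ 2 ∣ 3 * g)
  (hC : ConstHyp A (constL A 2).toSubfield ϖ)

/-- The ratio with denominators pulled back from a cusp. -/
def cuspRat (δ : SL(2, ℤ)) (u : ℤ × ℤ) (hu : IsVec N u) : rN N (constK A 2) :=
  ratHol (constK A 2) hζ hu ((isVec_pA hN).vmul δ⁻¹) ((isVec_pB hN 0).vmul δ⁻¹)
    ((apart_pA_pB hN).vmul δ⁻¹)

theorem rAct_cuspRat {δ : SL(2, ℤ)} {u : ℤ × ℤ} (hu : IsVec N u) {η : SL(2, ℤ)}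
    (hη : η ∈ Gamma 3) :
    rAct η (cuspRat hζ hN δ u hu) = cuspRat hζ hN δ (vmul u η) (hu.vmul η) := by
  rw [cuspRat, rAct_ratHol]
  exact ratHol_congr hζ _ _ _ _ _ _ _ _ ⟨by simp, by simp⟩
    (vmul_third hN (third_pA _).1 (third_pA _).2 hη) (vmul_third hN (third_pB _).1 (third_pB _).2 hη)

include hA hN hg hC

theorem intS_cuspRat (δ δ' : SL(2, ℤ)) {u : ℤ × ℤ} (hu : IsVec N u) (hug : GoodVec (3 * g) u) :
    rSer (rAct δ' (cuspRat hζ hN δ u hu)) ∈ intS A 2 := by
  rw [cuspRat, rSer_rAct_ratHol]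
  refine mul_mem (intS_xK_sub hζ hA hN hg hC (hug.vmul δ') (((goodVec_pB hN).vmul δ⁻¹).vmul δ')) ?_
  rw [← vmul_mul, ← vmul_mul]
  exact ((lead_diff_third hζ hA hN hg hC (third_pA _).1 (third_pA _).2 (third_pB _).1 (third_pB _).2
    ((isVec_pA hN).vmul _) ((isVec_pB hN 0).vmul _) ((apart_pA_pB hN).vmul _)).inv hC).mem_intS

theorem lead_den_cusp : LeadS A 2
    (xK (constK A 2) hζ (pA g) - xK (constK A 2) hζ (pB g 0)) 0 :=
  lead_toric_other hζ hA hN hg hC (goodVec_pA hN) (goodVec_pB hN) (dvd_zero _)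
    (fun hd => not_dvd_two_g hN (k := 1) (by norm_num) (by simpa [pB] using hd))

omit hA hg hC in
/-- At the translates of the cusp the denominators are the standard ones. -/
theorem rSer_cuspRat {γ γ' : SL(2, ℤ)} (hγ : γ ∈ Gamma 3) (hγ' : γ' ∈ Gamma 3) (s : SL(2, ℤ))
    {u : ℤ × ℤ} (hu : IsVec N u) :
    rSer (rAct (γ' * s) (cuspRat hζ hN (γ * s) u hu)) =
      (xK (constK A 2) hζ (vmul u (γ' * s)) - xK (constK A 2) hζ (pB g 0)) *
        (xK (constK A 2) hζ (pA g) - xK (constK A 2) hζ (pB g 0))⁻¹ := by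
  rw [cuspRat, rSer_rAct_ratHol]
  obtain ⟨hA1, hA2⟩ := third_back hN hγ hγ' s (third_pA (g := g))
  obtain ⟨hB1, hB2⟩ := third_back hN hγ hγ' s (third_pB (g := g))
  rw [xK_congr_dvd hζ (((isVec_pA hN).vmul _).vmul _) (isVec_pA hN) hA1 hA2,
    xK_congr_dvd hζ (((isVec_pB hN 0).vmul _).vmul _) (isVec_pB hN 0) hB1 hB2]

/-- The ratio has no pole at the translates of the cusp. -/
theorem ordGE_cuspRat {γ γ' : SL(2, ℤ)} (hγ : γ ∈ Gamma 3) (hγ' : γ' ∈ Gamma 3) (s : SL(2, ℤ))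
    {u : ℤ × ℤ} (hu : IsVec N u) :
    OrdGE 0 (rSer (rAct (γ' * s) (cuspRat hζ hN (γ * s) u hu))) := by
  rw [rSer_cuspRat hζ hN hγ hγ' s hu]
  have h : OrdGE 0 (xK (constK A 2) hζ (vmul u (γ' * s)) - xK (constK A 2) hζ (pB g 0)) :=
    fun i hi => by simp [coeff_xK_of_neg hζ _ hi]
  simpa using h.mul ((lead_den_cusp hζ hA hN hg hC).inv hC).ordGE

set_option maxHeartbeats 800000 in
/-- **An invariant multiplier, a unit at the cusp, moves functions regular there into the chart.** -/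
theorem exists_cusp_multiplier (b : Bool) (r : Fin 4) (hr : r = 0 → b = true)
    {f : rN N (constK A 2)} (hI : ∀ γ ∈ Gamma 3, ∀ r', rSer (rAct (γ * repThree r') f) ∈ intS A 2)
    (hreg : ∀ γ ∈ Gamma 3, OrdGE 0 (rSer (rAct (γ * repThree r) f))) :
    ∃ M : flN N (constK A 2), (∀ γ ∈ Gamma 3, flAct γ M = M) ∧
      LeadS A 2 (ser (flAct (repThree r) M)) 0 ∧
      toFl f * M ∈ chartF A 2 (coordB A 2 (muF hζ hN) b) := by
  have hg0 := g_pos' hN
  have hμ := muR_mem_finR hζ hA hN hg hC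
  have hw : ∀ r', r' = 0 → LeadS A 2 (ser (flAct (repThree r') (muF hζ hN)⁻¹)) ((2 * g : ℕ) : ℤ) :=
    fun r' h => by
      have := lead_coord hζ hA hN hg hC true r' (fun _ => rfl)
      simpa [cuspC, h, coordB] using this
  have hinvw : ∀ γ ∈ Gamma 3, flAct γ (muF hζ hN)⁻¹ = (muF hζ hN)⁻¹ := fun γ hγ => by
    rw [map_inv₀, flAct_muF hζ hN hγ]
  by_cases h0 : r = 0
  · subst h0
    have ha : aR hζ hN ∈ finR A N := sub_mem (pow_mem hμ 3) (one_mem _)
    have ha0 : LeadS A 2 (rSer (aR hζ hN)) (3 * -((2 * g : ℕ) : ℤ)) := by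
      have h := fun i (hi : i < 3) => lead_mu_rep hζ hA hN hg hC 0 hi
      simp only [repThree_zero, rAct_one, if_true] at h
      rw [aR_eq, map_mul, map_mul]
      have := ((h 0 (by norm_num)).mul (h 1 (by norm_num))).mul (h 2 (by norm_num))
      convert this using 1
      ring
    obtain ⟨k₀, hk₀⟩ := exists_mul_pow_finR hN (f := f) hI ha
      (fun γ hγ => aR_inv hζ hA hN hg hC hγ) fun r' hr' =>
        Or.inl ((lead_aR_finite hζ hA hN hg hC hr').ordGE.mono (by omega))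
    obtain ⟨-, h2⟩ := finR_mem_chart hζ hA hN hg hC (hk₀ k₀ le_rfl) (d := 3 * k₀) fun γ hγ => by
      rw [map_mul, map_pow, aR_inv hζ hA hN hg hC hγ, map_mul, map_pow]
      have h1 := hreg γ hγ
      rw [repThree_zero, mul_one] at h1
      refine (h1.mul (ha0.ordGE.pow k₀)).mono ?_
      push_cast
      nlinarith
    refine ⟨toFl (aR hζ hN) ^ k₀ * (muF hζ hN)⁻¹ ^ (3 * k₀), fun γ hγ => ?_, ?_, ?_⟩
    · rw [map_mul, map_pow, map_pow, hinvw γ hγ, flAct_toFl, aR_inv hζ hA hN hg hC hγ]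
    · rw [map_mul, map_pow, map_pow, map_mul, map_pow, map_pow, ser_flAct_toFl, repThree_zero,
        rAct_one]
      have h' := hw 0 rfl
      rw [repThree_zero] at h'
      convert (ha0.pow k₀).mul (h'.pow (3 * k₀)) using 1
      push_cast; ring
    · rw [hr rfl, ← mul_assoc, ← map_pow, ← map_mul]
      exact h2
  · set i := cuspExp r
    set j := (i + 1) % 3
    set l := (i + 2) % 3
    have hi : i < 3 := cuspExp_lt r
    have hj : j < 3 := Nat.mod_lt _ (by norm_num)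
    have hl : l < 3 := Nat.mod_lt _ (by norm_num)
    set e := (muR hN hζ - rC (omK hN hζ ^ j)) * (muR hN hζ - rC (omK hN hζ ^ l)) with he
    have hconst : ∀ n : ℕ, (rC (omK hN hζ ^ n) : rN N (constK A 2)) ∈ finR A N :=
      fun n γ hγ r' => by
        rw [rAct_rC, rSer_rC, ← baseK_omO hζ hN, ← map_pow]
        exact ⟨intS_C _, fun _ => ordGE_C _⟩
    have hef : e ∈ finR A N := mul_mem (sub_mem hμ (hconst j)) (sub_mem hμ (hconst l))
    have heinv : ∀ γ ∈ Gamma 3, rAct γ e = e := fun γ hγ => by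
      simp only [e, map_mul, map_sub, rAct_rC, rAct_muR hN hζ hγ]
    have hord : ∀ r', r' ≠ 0 → r' ≠ r → OrdGE 1 (rSer (rAct (repThree r') e)) := fun r' hr' hne => by
      have h := fun {n : ℕ} (hn : n < 3) => lead_mu_rep hζ hA hN hg hC r' hn
      simp only [hr', if_false] at h
      simp only [e, map_mul]
      have hc : cuspExp r' ≠ i := fun h1 => hne (cuspExp_inj hr' h0 h1)
      have hlt : cuspExp r' < 3 := cuspExp_lt r'
      refine ((h hj).ordGE.mul (h hl).ordGE).mono ?_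
      split_ifs <;> omega
    obtain ⟨k₀, hk₀⟩ := exists_mul_pow_finR hN (f := f) hI hef heinv fun r' hr' => by
      by_cases hne : r' = r
      · exact Or.inr fun γ hγ => hne ▸ hreg γ hγ
      · exact Or.inl (hord r' hr' hne)
    obtain ⟨d, hd⟩ := exists_bound_infty hN (A := A) (f * e ^ k₀)
    obtain ⟨h1, h2⟩ := finR_mem_chart hζ hA hN hg hC (hk₀ k₀ le_rfl) (hd d le_rfl)
    have hek : LeadS A 2 (ser (flAct (repThree r) (toFl e ^ k₀))) 0 := by
      rw [map_pow, map_pow, ser_flAct_toFl]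
      have h := fun {n : ℕ} (hn : n < 3) => lead_mu_rep hζ hA hN hg hC r hn
      simp only [h0, if_false] at h
      simp only [e, map_mul]
      have h' := ((h hj).mul (h hl)).pow k₀
      rw [if_neg (by omega), if_neg (by omega)] at h'
      simpa using h'
    cases b with
    | false =>
      refine ⟨toFl e ^ k₀, fun γ hγ => by rw [map_pow, flAct_toFl, heinv γ hγ], hek, ?_⟩
      rw [← map_pow, ← map_mul]
      exact h1
    | true =>
      refine ⟨toFl e ^ k₀ * (muF hζ hN)⁻¹ ^ d,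
        fun γ hγ => by rw [map_mul, map_pow, map_pow, hinvw γ hγ, flAct_toFl, heinv γ hγ], ?_, ?_⟩
      · have hc : LeadS A 2 (ser (flAct (repThree r) (muF hζ hN)⁻¹)) 0 := by
          have h := lead_coord hζ hA hN hg hC true r (fun _ => rfl)
          have hC0 : LeadS A 2 (HahnSeries.C (baseK A 2 (cuspC hζ hN true r))) 0 := leadS_C (by
            rw [cuspC, if_neg h0, map_pow]
            exact pow_ne_zero _ fun e0 => by
              have h1 := congrArg (resO A 2) (omO_cube hζ hN)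
              rw [map_pow, e0, map_one, zero_pow (by norm_num)] at h1
              exact zero_ne_one h1)
          have h' := hC0.add_higher h.mem_intS (h.ordGE.mono (by omega))
          rw [map_sub, map_sub, flAct_cF, ser_cF, add_sub_cancel] at h'
          exact h'
        rw [map_mul, map_mul, map_pow (flAct (repThree r)) (muF hζ hN)⁻¹, map_pow ser]
        simpa using hek.mul (hc.pow d)
      · rw [← mul_assoc, ← map_pow, ← map_mul]
        exact h2

set_option maxHeartbeats 800000 in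
/-- A parameter of order one. -/
theorem exists_par_cusp (b : Bool) (r : Fin 4) (hr : r = 0 → b = true) {γ : SL(2, ℤ)}
    (hγ : γ ∈ Gamma 3) : ∃ π : chartF A 2 (coordB A 2 (muF hζ hN) b),
      LeadS A 2 (ser (flAct (γ * repThree r) (π : flN N (constK A 2)))) 1 := by
  have hg0 := g_pos' hN
  set δ := γ * repThree r
  have hv1 : GoodVec (3 * g) ((1 : ℤ), (0 : ℤ)) := fun h => by
    have := Int.le_of_dvd one_pos h.1; omega
  have hv2 : GoodVec (3 * g) ((1 : ℤ), (2 : ℤ)) := fun h => by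
    have := Int.le_of_dvd one_pos h.1; omega
  have hu1 := hv1.vmul δ⁻¹
  have hu2 := hv2.vmul δ⁻¹
  set f := cuspRat hζ hN δ (vmul (1, 0) δ⁻¹) (hu1.isVec hN) -
    cuspRat hζ hN δ (vmul (1, 2) δ⁻¹) (hu2.isVec hN) with hf
  have hlead : LeadS A 2 (rSer (rAct δ f)) 1 := by
    have e1 : ∀ (u : ℤ × ℤ) (hu : IsVec N u), rSer (rAct δ (cuspRat hζ hN δ u hu)) =
        (xK (constK A 2) hζ (vmul u δ) - xK (constK A 2) hζ (pB g 0)) *
          (xK (constK A 2) hζ (pA g) - xK (constK A 2) hζ (pB g 0))⁻¹ :=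
      fun u hu => rSer_cuspRat hζ hN hγ hγ (repThree r) hu
    rw [hf, map_sub, map_sub, e1, e1, ← sub_mul, sub_sub_sub_cancel_right, ← vmul_mul, ← vmul_mul,
      inv_mul_cancel, vmul_one, vmul_one]
    have h := lead_other_other hζ hA hN hg hC hv1 hv2 (a := 1) (a' := 1) rfl rfl one_pos le_rfl
      (by omega) fun _ hd => by
        have := Int.le_of_dvd two_pos (by simpa using hd.neg_right)
        omega
    simpa using h.mul ((lead_den_cusp hζ hA hN hg hC).inv hC)
  obtain ⟨M, hMinv, hMlead, hM⟩ := exists_cusp_multiplier hζ hA hN hg hC b r hr (f := f)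
    (fun γ' hγ' r' => by
      rw [hf, map_sub, map_sub]
      exact sub_mem (intS_cuspRat hζ hA hN hg hC _ _ _ hu1) (intS_cuspRat hζ hA hN hg hC _ _ _ hu2))
    (fun γ' hγ' => by
      rw [hf, map_sub, map_sub]
      exact (ordGE_cuspRat hζ hA hN hg hC hγ hγ' _ _).sub (ordGE_cuspRat hζ hA hN hg hC hγ hγ' _ _))
  refine ⟨⟨_, hM⟩, ?_⟩
  show LeadS A 2 (ser (flAct δ (toFl f * M))) 1
  rw [map_mul, map_mul, ser_flAct_toFl, show flAct δ M = flAct (repThree r) M by
    show flAct (γ * repThree r) M = _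
    rw [flAct_mul, hMinv γ hγ]]
  simpa using hlead.mul hMlead

/-- The reduced series at a cusp. -/
def cuspRes (b : Bool) (r : Fin 4) (hr : r = 0 → b = true) (γ : SL(2, ℤ)) (hγ : γ ∈ Gamma 3) :
    chartF A 2 (coordB A 2 (muF hζ hN) b) →+* LaurentSeries (IsLocalRing.ResidueField A) :=
  (inftyRes (twoCoord hζ hA hN hg hC) hC).comp
    ((((flEquiv (γ * repThree r) : flN N (constK A 2) ≃+* flN N (constK A 2)) :
      flN N (constK A 2) →+* flN N (constK A 2)).comp (Subring.subtype _)).codRestrict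
      (inftyVal (twoCoord hζ hA hN hg hC) hC).toSubring fun y =>
        inftyPlace_le _ hC (mem_place_cusp hζ hA hN hg hC b r hr hγ y.2))

section res

variable (b : Bool) (r : Fin 4) (hr : r = 0 → b = true) {γ : SL(2, ℤ)} (hγ : γ ∈ Gamma 3)

theorem cuspRes_eq (y : chartF A 2 (coordB A 2 (muF hζ hN) b))
    (h : flAct (γ * repThree r) (y : flN N (constK A 2)) ∈ inftyVal (twoCoord hζ hA hN hg hC) hC) :
    cuspRes hζ hA hN hg hC b r hr γ hγ y = inftyRes _ hC ⟨_, h⟩ := rfl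

theorem cuspRes_cF (e : baseO A (constL A 2).toSubfield)
    (h : cF A 2 N e ∈ chartF A 2 (coordB A 2 (muF hζ hN) b)) :
    cuspRes hζ hA hN hg hC b r hr γ hγ ⟨_, h⟩ = HahnSeries.C (resO A 2 e) := by
  have he : flAct (γ * repThree r) (cF A 2 N e) = cF A 2 N e := flAct_cF _ _ e
  rw [cuspRes_eq hζ hA hN hg hC b r hr hγ ⟨_, h⟩ (by rw [he]; exact cF_mem_infty _ hC e)]
  simp only [he]
  exact inftyRes_cF _ hC e

theorem cuspRes_two : cuspRes hζ hA hN hg hC b r hr γ hγ 2 = 0 := by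
  have e : (2 : chartF A 2 (coordB A 2 (muF hζ hN) b)) =
      ⟨_, cF_mem_chartB (2 : baseO A (constL A 2).toSubfield) _⟩ := chart_ext (by
    rw [map_ofNat]
    exact (map_ofNat (cF A 2 N) 2).symm)
  rw [e, cuspRes_cF, resO_two hA, map_zero]

theorem ordGE_cuspRes (y : chartF A 2 (coordB A 2 (muF hζ hN) b)) :
    OrdGE 0 (cuspRes hζ hA hN hg hC b r hr γ hγ y) :=
  ((mem_inftyPlace _ hC).1 (mem_place_cusp hζ hA hN hg hC b r hr hγ y.2)).2

theorem coeff_cuspRes_eq_zero (y : chartF A 2 (coordB A 2 (muF hζ hN) b))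
    (h : (inftyPlace (twoCoord hζ hA hN hg hC) hC).valuation
      (flAct (γ * repThree r) (y : flN N (constK A 2))) < 1) :
    (cuspRes hζ hA hN hg hC b r hr γ hγ y).coeff 0 = 0 :=
  (val_inftyPlace_lt_iff _ hC (mem_place_cusp hζ hA hN hg hC b r hr hγ y.2)).1 h

theorem cuspRes_eq_zero (y : chartF A 2 (coordB A 2 (muF hζ hN) b))
    (h : (inftyVal (twoCoord hζ hA hN hg hC) hC).valuation
      (flAct (γ * repThree r) (y : flN N (constK A 2))) < 1) :
    cuspRes hζ hA hN hg hC b r hr γ hγ y = 0 :=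
  (val_lt_iff_inftyRes _ hC ⟨_, inftyPlace_le _ hC
    (mem_place_cusp hζ hA hN hg hC b r hr hγ y.2)⟩).1 h

theorem cuspRes_coord :
    cuspRes hζ hA hN hg hC b r hr γ hγ (⟨_, mem_chartF_self _⟩ - ⟨_, cF_mem_chartB
        (cuspC hζ hN b r) _⟩) ≠ 0 ∧
      (cuspRes hζ hA hN hg hC b r hr γ hγ (⟨_, mem_chartF_self _⟩ - ⟨_, cF_mem_chartB
        (cuspC hζ hN b r) _⟩)).order = ((2 * g : ℕ) : ℤ) := by
  have h := lead_coord hζ hA hN hg hC b r hr
  rw [show flAct (repThree r) (coordB A 2 (muF hζ hN) b - cF A 2 N (cuspC hζ hN b r)) =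
      flAct (γ * repThree r) (coordB A 2 (muF hζ hN) b - cF A 2 N (cuspC hζ hN b r)) by
    rw [flAct_mul, map_sub (flAct γ), show flAct γ (coordB A 2 (muF hζ hN) b) = _ from
      galLvl_coord b hC (twoCoord hζ hA hN hg hC) (flEquiv_mem_galLvl_three hγ), flAct_cF]] at h
  obtain ⟨h1, h2, h3⟩ := exists_inftyRes_of_lead (twoCoord hζ hA hN hg hC) hC h
  exact ⟨h2, h3⟩

/-- The order of a root of the coordinate. -/
theorem order_root {s : flN N (constK A 2)} (hs : s ∈ chartF A 2 (coordB A 2 (muF hζ hN) b))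
    (hsq : (inftyVal (twoCoord hζ hA hN hg hC) hC).valuation
      (flAct (γ * repThree r) (s ^ 2 - coordB A 2 (muF hζ hN) b)) < 1)
    (c' : baseO A (constL A 2).toSubfield)
    (hx : (inftyPlace (twoCoord hζ hA hN hg hC) hC).valuation
      (flAct (γ * repThree r) (s - cF A 2 N c')) < 1) :
    cuspRes hζ hA hN hg hC b r hr γ hγ (⟨s, hs⟩ - ⟨_, cF_mem_chartB c' _⟩) ≠ 0 ∧
      (cuspRes hζ hA hN hg hC b r hr γ hγ (⟨s, hs⟩ - ⟨_, cF_mem_chartB c' _⟩)).order = g := by
  have hg0 := g_pos' hN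
  obtain ⟨hne, ho⟩ := cuspRes_coord hζ hA hN hg hC b r hr hγ
  exact order_sqrt_series (cuspRes hζ hA hN hg hC b r hr γ hγ)
    (cuspRes_two hζ hA hN hg hC b r hr hγ) hg0
    (cuspRes_cF hζ hA hN hg hC b r hr hγ (cuspC hζ hN b r) (cF_mem_chartB _ _))
    (cuspRes_cF hζ hA hN hg hC b r hr hγ c' (cF_mem_chartB _ _))
    (cuspRes_eq_zero hζ hA hN hg hC b r hr hγ _ (by
      rw [AddSubgroupClass.coe_sub, SubmonoidClass.coe_pow]; exact hsq))
    hne ho (ordGE_cuspRes hζ hA hN hg hC b r hr hγ _)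
    (coeff_cuspRes_eq_zero hζ hA hN hg hC b r hr hγ _ (by
      rw [AddSubgroupClass.coe_sub]; exact hx))

set_option maxHeartbeats 400000 in
/-- Equal orders give equal valuations in the place of the cusp. -/
theorem val_cusp_pow {x y : chartF A 2 (coordB A 2 (muF hζ hN) b)}
    (hx : cuspRes hζ hA hN hg hC b r hr γ hγ x ≠ 0) (hy : cuspRes hζ hA hN hg hC b r hr γ hγ y ≠ 0)
    (n : ℕ) (ho : n • (cuspRes hζ hA hN hg hC b r hr γ hγ x).order =
      (cuspRes hζ hA hN hg hC b r hr γ hγ y).order) :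
    ((inftyPlace (twoCoord hζ hA hN hg hC) hC).comap
      ((flEquiv (γ * repThree r) : flN N (constK A 2) ≃+* flN N (constK A 2)) :
        flN N (constK A 2) →+* flN N (constK A 2))).valuation (x : flN N (constK A 2)) ^ n =
    ((inftyPlace (twoCoord hζ hA hN hg hC) hC).comap
      ((flEquiv (γ * repThree r) : flN N (constK A 2) ≃+* flN N (constK A 2)) :
        flN N (constK A 2) →+* flN N (constK A 2))).valuation (y : flN N (constK A 2)) := by
  have hxm := inftyPlace_le _ hC (mem_place_cusp hζ hA hN hg hC b r hr hγ x.2)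
  have hym := inftyPlace_le _ hC (mem_place_cusp hζ hA hN hg hC b r hr hγ y.2)
  rw [← map_pow]
  refine val_comap_congr (fun h0 => hy ?_) ?_
  · rw [show y = 0 from Subtype.ext h0, map_zero]
  · have hh := place_val_eq (twoCoord hζ hA hN hg hC) hC (x := ⟨_, hxm⟩ ^ n) (y := ⟨_, hym⟩)
      (by rw [map_pow]; exact pow_ne_zero _ hx) hy (by
        rw [map_pow, HahnSeries.order_pow]; exact ho)
    rw [SubmonoidClass.coe_pow] at hh
    rw [RingEquiv.coe_toRingHom, map_pow]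
    exact hh

end res

variable {p : Pt A 2 (muF hζ hN)} {γ : SL(2, ℤ)} {r : Fin 4}

set_option maxHeartbeats 400000 in
theorem brPar_cusp_mk (hγ : γ ∈ Gamma 3) (hr : r = 0 → p.1 = true)
    (hc : ∀ x : chartF A 2 (coordB A 2 (muF hζ hN) p.1), x ∈ p.2 ↔
      (inftyPlace (twoCoord hζ hA hN hg hC) hC).valuation
        (flAct (γ * repThree r) (x : flN N (constK A 2))) < 1)
    {s π : chartF A 2 (coordB A 2 (muF hζ hN) p.1)} {c' : baseO A (constL A 2).toSubfield}
    (hsq : ((inftyVal (twoCoord hζ hA hN hg hC) hC).comap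
      ((flEquiv (γ * repThree r) : flN N (constK A 2) ≃+* flN N (constK A 2)) :
        flN N (constK A 2) →+* flN N (constK A 2))).valuation
          ((s : flN N (constK A 2)) ^ 2 - coordB A 2 (muF hζ hN) p.1) < 1)
    (hx : s - ⟨_, cF_mem_chartB c' _⟩ ∈ p.2)
    (hxne : cuspRes hζ hA hN hg hC p.1 r hr γ hγ (s - ⟨_, cF_mem_chartB c' _⟩) ≠ 0)
    (hxo : (cuspRes hζ hA hN hg hC p.1 r hr γ hγ (s - ⟨_, cF_mem_chartB c' _⟩)).order = g)
    (hπne : cuspRes hζ hA hN hg hC p.1 r hr γ hγ π ≠ 0)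
    (hπo : (cuspRes hζ hA hN hg hC p.1 r hr γ hγ π).order = 1) :
    BrPar A 2 (muF hζ hN) p ((inftyVal (twoCoord hζ hA hN hg hC) hC).comap
      ((flEquiv (γ * repThree r) : flN N (constK A 2) ≃+* flN N (constK A 2)) :
        flN N (constK A 2) →+* flN N (constK A 2))) g s π c'
      ((inftyPlace (twoCoord hζ hA hN hg hC) hC).comap
      ((flEquiv (γ * repThree r) : flN N (constK A 2) ≃+* flN N (constK A 2)) :
        flN N (constK A 2) →+* flN N (constK A 2))) where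
  frob := hsq
  le := SetLike.le_def.2 fun {_} hy =>
    ValuationSubring.mem_comap.2 (inftyPlace_le _ hC (ValuationSubring.mem_comap.1 hy))
  mem := fun y hy => mem_place_cusp hζ hA hN hg hC p.1 r hr hγ hy
  centre := fun y => val_comap_lt.trans (hc y).symm
  par_mem := (hc π).2 ((val_inftyPlace_lt_iff _ hC
    (mem_place_cusp hζ hA hN hg hC p.1 r hr hγ π.2)).2
      (((ordGE_iff_le_order hπne).2 hπo.ge) 0 one_pos))
  par_unit := val_comap_eq.2 ((val_eq_iff_inftyRes _ hC ⟨_, inftyPlace_le _ hC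
    (mem_place_cusp hζ hA hN hg hC p.1 r hr hγ π.2)⟩).2 hπne)
  rho := by
    have h := val_comap_lt.2 ((hc _).1 hx)
    rw [AddSubgroupClass.coe_sub] at h
    exact h
  order := by
    have h := val_cusp_pow hζ hA hN hg hC p.1 r hr hγ hπne hxne g (by rw [hπo, hxo]; simp)
    rw [AddSubgroupClass.coe_sub] at h
    exact h

set_option maxHeartbeats 800000 in
/-- **The data of a branch at a cusp.** -/
theorem exists_brPar_cusp (hp : IsPtF ϖ p) (hγ : γ ∈ Gamma 3) (hr : r = 0 → p.1 = true)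
    (hc : ∀ x : chartF A 2 (coordB A 2 (muF hζ hN) p.1), x ∈ p.2 ↔
      (inftyPlace (twoCoord hζ hA hN hg hC) hC).valuation
        (flAct (γ * repThree r) (x : flN N (constK A 2))) < 1) :
    ∃ W ∈ vertsAt A 2 ϖ (muF hζ hN) p, ∃ s π c' V, BrPar A 2 (muF hζ hN) p W g s π c' V := by
  have hW := isVertF_cusp hζ hA hN hg hC p.1 r hr hγ
  refine ⟨_, ⟨hW, fun x hx => (hc x).2 (lt_place_of_lt _ hC (val_comap_lt.1 hx))⟩, ?_⟩
  obtain ⟨s, hs, hsq⟩ := exists_sqrt hζ hA hN hg hC hW p.1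
  obtain ⟨c', hc'⟩ := exists_const_sub_mem p.1 hC hp.1 (toChart_pi_mem hC hp) ⟨s, hs⟩
  have hx : (⟨s, hs⟩ - ⟨_, cF_mem_chartB c' _⟩ : chartF A 2 (coordB A 2 (muF hζ hN) p.1)) ∈ p.2 := by
    rwa [show toChart A 2 (muF hζ hN) p.1 (Polynomial.C c') = ⟨_, cF_mem_chartB c' _⟩ from
      Subtype.ext (phiB_C p.1 c')] at hc'
  have hxv : (inftyPlace (twoCoord hζ hA hN hg hC) hC).valuation
      (flAct (γ * repThree r) (s - cF A 2 N c')) < 1 := by
    have h := (hc _).1 hx
    rwa [AddSubgroupClass.coe_sub] at h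
  obtain ⟨hxne, hxo⟩ := order_root hζ hA hN hg hC p.1 r hr hγ hs (val_comap_lt.1 hsq) c' hxv
  obtain ⟨π, hπ⟩ := exists_par_cusp hζ hA hN hg hC p.1 r hr hγ
  obtain ⟨hπW, hπne, hπo⟩ := exists_inftyRes_of_lead (twoCoord hζ hA hN hg hC) hC hπ
  rw [← cuspRes_eq hζ hA hN hg hC p.1 r hr hγ π hπW] at hπne hπo
  refine ⟨⟨s, hs⟩, π, c', (inftyPlace (twoCoord hζ hA hN hg hC) hC).comap
    ((flEquiv (γ * repThree r) : flN N (constK A 2) ≃+* flN N (constK A 2)) :
      flN N (constK A 2) →+* flN N (constK A 2)), ?_⟩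
  refine brPar_cusp_mk hζ hA hN hg hC hγ hr hc hsq hx hxne hxo hπne hπo

end FA.Carayol

end
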