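import Fermat.Agent.Carayol.Two.CuspPar

/-!
# The stabiliser of a cusp

An element fixing a cusp is, conjugated to infinity, a translation by a multiple of three modulo
`3 g`; with the label it leaves at most `2 g` elements.
-/

set_option autoImplicit false
set_option linter.unusedSectionVars false
set_option linter.style.haveILetI false

noncomputable section

namespace FA.Carayol

open CongruenceSubgroup HahnSeries ModularCurve FA.Level FA.ModField FA.Mazur.Wp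
open scoped MatrixGroups

local notation "Qb" => AlgebraicClosure ℚ

/-- Equal reductions modulo `n`. -/
theorem mul_inv_mem_gamma_of_eq {n : ℕ} {a b : SL(2, ℤ)}
    (h : ∀ i j, ((a i j : ℤ) : ZMod n) = ((b i j : ℤ) : ZMod n)) : a * b⁻¹ ∈ Gamma n := by
  rw [Gamma, MonoidHom.mem_ker, map_mul, map_inv, mul_inv_eq_one]
  ext i j
  exact h i j

variable [Algebra Qb ℂ] {A : ValuationSubring Qb} {N g : ℕ} [NeZero N]
  (hζ : ∀ b : ℤ, eta N b ∈ constK A 2) {ϖ : baseO A (constL A 2).toSubfield}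
  (hA : A.LiesOverPrime 2) (hN : N = 2 * (3 * g)) (hg : ¬ 2 ∣ 3 * g)
  (hC : ConstHyp A (constL A 2).toSubfield ϖ)
include hA hN hg hC

variable {p : Pt A 2 (muF hζ hN)} {γ : SL(2, ℤ)} {r : Fin 4}

set_option maxHeartbeats 800000 in
/-- The toric abscissa `(0, 2)` keeps its residue. -/
theorem not_lead_of_stab (hp : IsPtF ϖ p) (hγ : γ ∈ Gamma 3) (hr : r = 0 → p.1 = true)
    (hc : ∀ x : chartF A 2 (coordB A 2 (muF hζ hN) p.1), x ∈ p.2 ↔
      (inftyPlace (twoCoord hζ hA hN hg hC) hC).valuation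
        (flAct (γ * repThree r) (x : flN N (constK A 2))) < 1)
    {σ : SL(2, ℤ)} (hσ : σ ∈ Gamma 3)
    (hst : flEquiv σ ∈ stabSet (galLvl A 2 3) (ptSet p)) :
    ¬ LeadS A 2 (xK (constK A 2) hζ
      (vmul ((0 : ℤ), (2 : ℤ)) ((γ * repThree r)⁻¹ * σ * (γ * repThree r))) -
        xK (constK A 2) hζ ((0 : ℤ), (2 : ℤ))) 0 := by
  intro hlead
  have hg0 := g_pos' hN
  set hz := twoCoord hζ hA hN hg hC
  set δ := γ * repThree r
  have hv : GoodVec (3 * g) ((0 : ℤ), (2 : ℤ)) := fun h => by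
    have := Int.le_of_dvd two_pos h.2
    omega
  have hu := hv.vmul δ⁻¹
  set f := cuspRat hζ hN δ (vmul (0, 2) δ⁻¹) (hu.isVec hN) with hf
  obtain ⟨M, hMinv, hMlead, hM⟩ := exists_cusp_multiplier hζ hA hN hg hC p.1 r hr (f := f)
    (fun γ' hγ' r' => intS_cuspRat hζ hA hN hg hC _ _ _ hu)
    (fun γ' hγ' => ordGE_cuspRat hζ hA hN hg hC hγ hγ' _ _)
  obtain ⟨y, hy, hmy⟩ := fixesPt_of_stab hC hz hp hst ⟨_, hM⟩
  have hlt := (hc _).1 hmy
  have e1 : ∀ (u : ℤ × ℤ) (hu : IsVec N u), rSer (rAct δ (cuspRat hζ hN δ u hu)) =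
      (xK (constK A 2) hζ (vmul u δ) - xK (constK A 2) hζ (pB g 0)) *
        (xK (constK A 2) hζ (pA g) - xK (constK A 2) hζ (pB g 0))⁻¹ :=
    fun u hu => rSer_cuspRat hζ hN hγ hγ (repThree r) hu
  have hser : LeadS A 2 (ser (flAct δ ((y - ⟨_, hM⟩ :
      chartF A 2 (coordB A 2 (muF hζ hN) p.1)) : flN N (constK A 2)))) 0 := by
    rw [AddSubgroupClass.coe_sub, hy, flEquiv_apply, map_mul, flAct_toFl, hMinv σ hσ, ← sub_mul,
      ← map_sub, map_mul, map_mul, ser_flAct_toFl, show flAct δ M = flAct (repThree r) M by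
        show flAct (γ * repThree r) M = _
        rw [flAct_mul, hMinv γ hγ],
      hf, rAct_cuspRat hζ hN _ hσ, map_sub, map_sub, e1, e1, ← sub_mul, sub_sub_sub_cancel_right]
    have h2 : vmul (vmul ((0 : ℤ), (2 : ℤ)) δ⁻¹) δ = (0, 2) := by
      rw [← vmul_mul, inv_mul_cancel, vmul_one]
    have h1 : vmul (vmul (vmul ((0 : ℤ), (2 : ℤ)) δ⁻¹) σ) δ = vmul (0, 2) (δ⁻¹ * σ * δ) := by
      rw [vmul_mul _ (δ⁻¹ * σ) δ, vmul_mul _ δ⁻¹ σ]
    rw [h1, h2]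
    simpa using (hlead.mul ((lead_den_cusp hζ hA hN hg hC).inv hC)).mul hMlead
  obtain ⟨hmem, hne, ho⟩ := exists_inftyRes_of_lead hz hC hser
  exact hlt.ne (val_inftyPlace_eq_one hz hC hne ho)

/-- **An element fixing a cusp is a translation modulo `3 g`.** -/
theorem exists_translation_of_stab (hp : IsPtF ϖ p) (hγ : γ ∈ Gamma 3) (hr : r = 0 → p.1 = true)
    (hc : ∀ x : chartF A 2 (coordB A 2 (muF hζ hN) p.1), x ∈ p.2 ↔
      (inftyPlace (twoCoord hζ hA hN hg hC) hC).valuation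
        (flAct (γ * repThree r) (x : flN N (constK A 2))) < 1)
    {σ : SL(2, ℤ)} (hσ : σ ∈ Gamma 3)
    (hst : flEquiv σ ∈ stabSet (galLvl A 2 3) (ptSet p)) :
    ∃ j : Fin g, (γ * repThree r)⁻¹ * σ * (γ * repThree r) * (upU (3 * (j : ℤ)))⁻¹ ∈
      Gamma (3 * g) := by
  have hg0 := g_pos' hN
  set δ := γ * repThree r
  set η := δ⁻¹ * σ * δ with hη
  have hη3 : η ∈ Gamma 3 := by
    have := (Gamma_normal 3).conj_mem _ hσ δ⁻¹
    rwa [inv_inv] at this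
  have hnl := not_lead_of_stab hζ hA hN hg hC hp hγ hr hc hσ hst
  rw [show vmul ((0 : ℤ), (2 : ℤ)) η = (2 * η 1 0, 2 * η 1 1) by simp [vmul]] at hnl
  have hv : GoodVec (3 * g) ((0 : ℤ), (2 : ℤ)) := fun h => by
    have := Int.le_of_dvd two_pos h.2
    omega
  have hw : GoodVec (3 * g) (2 * η 1 0, 2 * η 1 1) := by
    have := hv.vmul η
    rwa [show vmul ((0 : ℤ), (2 : ℤ)) η = (2 * η 1 0, 2 * η 1 1) by simp [vmul]] at this
  have hN0 : (N : ℤ) = 2 * ((3 * g : ℕ) : ℤ) := by rw [hN]; push_cast; ring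
  by_cases hc10 : ¬ (N : ℤ) ∣ 2 * η 1 0
  · have h := (lead_toric_other hζ hA hN hg hC hv hw (dvd_zero _) hc10).neg
    rw [neg_sub] at h
    exact absurd h hnl
  rw [not_not] at hc10
  have hco : IsCoprime ((3 * g : ℕ) : ℤ) 2 :=
    (Int.isCoprime_iff_gcd_eq_one.2 (Nat.Coprime.symm ((Nat.Prime.coprime_iff_not_dvd
      Nat.prime_two).2 hg)))
  have hd : ((3 * g : ℕ) : ℤ) ∣ η 1 1 - 1 ∨ ((3 * g : ℕ) : ℤ) ∣ η 1 1 + 1 := by
    by_contra hno
    rw [not_or] at hno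
    refine hnl (lead_toric_toric hζ hA hN hg hC hw hv hc10 (dvd_zero _) (fun h => hno.1 ?_)
      fun h => hno.2 ?_)
    · have h' : ((3 * g : ℕ) : ℤ) ∣ 2 * η 1 1 - 2 := h
      exact hco.dvd_of_dvd_mul_left (by rwa [mul_sub, mul_one])
    · have h' : ((3 * g : ℕ) : ℤ) ∣ 2 * η 1 1 + 2 := h
      exact hco.dvd_of_dvd_mul_left (by rwa [mul_add, mul_one])
  have hg3 := Gamma_mem.1 hη3
  have z3 : ∀ x : ℤ, (x : ZMod 3) = 0 → (3 : ℤ) ∣ x :=
    fun x hx => (ZMod.intCast_zmod_eq_zero_iff_dvd _ 3).1 hx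
  have hd1 : ((3 * g : ℕ) : ℤ) ∣ η 1 1 - 1 := hd.resolve_right fun h => by
    have h1 : (3 : ℤ) ∣ η 1 1 + 1 := (Dvd.intro (g : ℤ) (by push_cast; ring)).trans h
    have h2 := z3 (η 1 1 - 1) (by push_cast; rw [hg3.2.2.2, sub_self])
    omega
  have hc1 : ((3 * g : ℕ) : ℤ) ∣ η 1 0 := hco.dvd_of_dvd_mul_left
    ((Dvd.intro_left 2 hN0.symm).trans hc10)
  obtain ⟨e, he⟩ := z3 (η 0 1) hg3.2.1
  set j := (e % (g : ℤ)).toNat
  have hj' : (j : ℤ) = e % (g : ℤ) := Int.toNat_of_nonneg (Int.emod_nonneg _ (by omega))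
  have hjlt : j < g := by
    have := Int.emod_lt_of_pos e (show (0 : ℤ) < (g : ℤ) by omega)
    omega
  refine ⟨⟨j, hjlt⟩, mul_inv_mem_gamma_of_eq fun i k => ?_⟩
  have hdet := Matrix.SpecialLinearGroup.det_coe η
  rw [Matrix.det_fin_two] at hdet
  have hb : ((η 0 1 : ℤ) : ZMod (3 * g)) = ((3 * (j : ℤ) : ℤ) : ZMod (3 * g)) := by
    refine ((ZMod.intCast_eq_intCast_iff_dvd_sub _ _ _).2 ?_).symm
    obtain ⟨t, ht⟩ : (g : ℤ) ∣ e - j := by rw [hj']; exact Int.dvd_self_sub_emod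
    exact ⟨t, by rw [he]; push_cast; linear_combination 3 * ht⟩
  rw [← ZMod.intCast_zmod_eq_zero_iff_dvd] at hc1 hd1
  push_cast at hd1
  rw [sub_eq_zero] at hd1
  have ha : ((η 0 0 : ℤ) : ZMod (3 * g)) = 1 := by
    have h := congrArg (fun x : ℤ => (x : ZMod (3 * g))) hdet
    simp only [Int.cast_sub, Int.cast_mul, Int.cast_one, hc1, hd1, mul_zero, mul_one, sub_zero] at h
    exact h
  fin_cases i <;> fin_cases k <;> simp [upU, ha, hc1, hd1] <;> simpa using hb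

/-- **A cusp is fixed by at most `2 g` elements.** -/
theorem card_stab_cusp (hp : IsPtF ϖ p) (hγ : γ ∈ Gamma 3) (hr : r = 0 → p.1 = true)
    (hc : ∀ x : chartF A 2 (coordB A 2 (muF hζ hN) p.1), x ∈ p.2 ↔
      (inftyPlace (twoCoord hζ hA hN hg hC) hC).valuation
        (flAct (γ * repThree r) (x : flN N (constK A 2))) < 1)
    (hss : ¬ SsPt hζ hN p) :
    Nat.card ↥(stabSet (galLvl A 2 3) (ptSet p)) ≤ g * 2 := by
  classical
  obtain ⟨l, hl, -⟩ := existsUnique_phiL hζ hA hN hg hC hp hss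
  have hdata : ∀ e : ↥(stabSet (galLvl (N := N) A 2 3) (ptSet p)), ∃ (σ : SL(2, ℤ)) (j : Fin g),
      σ ∈ Gamma 3 ∧ (e : flN N (constK A 2) ≃+* flN N (constK A 2)) = flEquiv σ ∧
      (γ * repThree r)⁻¹ * σ * (γ * repThree r) * (upU (3 * (j : ℤ)))⁻¹ ∈ Gamma (3 * g) := by
    intro e
    obtain ⟨σ, hσ, he⟩ := exists_of_galLvl e.2.1
    obtain ⟨j, hj⟩ := exists_translation_of_stab hζ hA hN hg hC hp hγ hr hc hσ (he ▸ e.2)
    exact ⟨σ, j, hσ, he, hj⟩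
  choose σ j hσ he hj using hdata
  have hle := Nat.card_le_card_of_injective
    (β := Fin g × {τ : Equiv.Perm (Option (ZMod 2)) // τ l = l})
    (fun e => (j e, ⟨permF hζ hN ⟨e.1, e.2.1⟩,
      permF_label hζ hA hN hg hC hp hss ⟨e.1, e.2.1⟩ e.2 hl⟩)) fun e₁ e₂ h => ?_
  · rwa [Nat.card_prod, Nat.card_fin,
      show Nat.card {τ : Equiv.Perm (Option (ZMod 2)) // τ l = l} = 2 from
        Nat.card_eq_fintype_card.trans (card_perm_fix l)] at hle
  · rw [Prod.ext_iff] at h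
    obtain ⟨hj12, hperm⟩ := h
    have hperm' : permF hζ hN ⟨e₁.1, e₁.2.1⟩ = permF hζ hN ⟨e₂.1, e₂.2.1⟩ :=
      congrArg Subtype.val hperm
    refine Subtype.ext ((he e₁).trans (Eq.trans ?_ (he e₂).symm))
    refine flEquiv_eq_of_perm hζ hN hg ?_ fun l' => ?_
    · have h1 := hj e₁
      rw [show j e₁ = j e₂ from hj12] at h1
      have h2 := mul_mem h1 (inv_mem (hj e₂))
      have h3 := (Gamma_normal (3 * g)).conj_mem _ h2 (γ * repThree r)
      generalize γ * repThree r = δ at h3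
      generalize upU (3 * ((j e₂ : ℕ) : ℤ)) = u at h3
      rwa [show δ * (δ⁻¹ * σ e₁ * δ * u⁻¹ * (δ⁻¹ * σ e₂ * δ * u⁻¹)⁻¹) * δ⁻¹ =
        σ e₁ * (σ e₂)⁻¹ by group] at h3
    · rw [← flEquiv_apply, ← flEquiv_apply, ← he, ← he,
        Fl_permF hζ hN ⟨e₁.1, e₁.2.1⟩, Fl_permF hζ hN ⟨e₂.1, e₂.2.1⟩, hperm']

end FA.Carayol

end
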