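import Fermat.Agent.Carayol.Two.Action

/-!
# The coordinate at the four cusps of `Γ(3)`

`μ` has a pole of order `2 g` at infinity; at each other cusp one of `μ - 1`, `μ - ω`, `μ - ω²`
vanishes to order `2 g` and the other two are units, all with unit leading coefficients.
-/

set_option autoImplicit false
set_option linter.unusedSectionVars false
set_option linter.style.haveILetI false

noncomputable section

namespace FA.Carayol

open UpperHalfPlane hiding I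
open CongruenceSubgroup HahnSeries ModularCurve FA.Level FA.ModField FA.Mazur.Wp
open scoped MatrixGroups

local notation "Qb" => AlgebraicClosure ℚ

/-- The four cusps of `Γ(3)`. -/
def repThree : Fin 4 → SL(2, ℤ) :=
  ![1, ModularGroup.S, ModularGroup.T * ModularGroup.S,
    ModularGroup.T * ModularGroup.T * ModularGroup.S]

/-- The exponent of the value of `μ` at a finite cusp. -/
def cuspExp : Fin 4 → ℕ := ![0, 0, 2, 1]

variable [Algebra Qb ℂ] {A : ValuationSubring Qb} {N g : ℕ} [NeZero N]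
  (hζ : ∀ b : ℤ, eta N b ∈ constK A 2) {ϖ : baseO A (constL A 2).toSubfield}
  (hA : A.LiesOverPrime 2) (hN : N = 2 * (3 * g)) (hg : ¬ 2 ∣ 3 * g)
  (hC : ConstHyp A (constL A 2).toSubfield ϖ)

/-- `ω` as an integral constant. -/
def omO : baseO A (constL A 2).toSubfield := etaT A hζ (omExp hN hζ)

theorem baseK_omO : baseK A 2 (omO hζ hN) = omK hN hζ := baseK_etaT A hζ _

theorem omO_root : omO hζ hN ^ 2 + omO hζ hN + 1 = 0 := baseK_injective (by
  rw [map_add, map_add, map_pow, map_one, map_zero, baseK_omO]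
  exact omK_root hN hζ)

theorem omO_cube : omO hζ hN ^ 3 = 1 := by
  linear_combination (omO hζ hN - 1) * omO_root hζ hN

/-- The order of a difference of points of order three. -/
def ordDiff (N g : ℕ) (v w : ℤ × ℤ) : ℤ :=
  if (N : ℤ) ∣ v.1 ∨ (N : ℤ) ∣ w.1 then 0 else ((2 * g : ℕ) : ℤ)

include hA hN hg hC

theorem resO_omO_ne_one : resO A 2 (omO hζ hN) ≠ 1 :=
  resO_etaT_ne_one hζ hA hN hg (not_dvd_omExp hN hζ)

theorem resO_omO_pow_inj {i j : ℕ} (hi : i < 3) (hj : j < 3)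
    (h : resO A 2 (omO hζ hN ^ i) = resO A 2 (omO hζ hN ^ j)) : i = j := by
  rw [map_pow, map_pow] at h
  set e := resO A 2 (omO hζ hN)
  have h1 : e ≠ 1 := resO_omO_ne_one hζ hA hN hg hC
  have h3 : e ^ 3 = 1 := by rw [← map_pow, omO_cube, map_one]
  have h0 : e ≠ 0 := fun h0 => by rw [h0] at h3; simp at h3
  have h2 : e ^ 2 ≠ 1 := fun h2 => h1 (by rw [pow_succ, h2, one_mul] at h3; exact h3)
  have h12 : e ≠ e ^ 2 := fun h12 => h1
    (mul_left_cancel₀ h0 (by rw [← sq, ← h12, mul_one]))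
  interval_cases i <;> interval_cases j <;> simp only [pow_zero, pow_one] at h <;>
    first
      | rfl
      | exact absurd h h1
      | exact absurd h.symm h1
      | exact absurd h h2
      | exact absurd h.symm h2
      | exact absurd h h12
      | exact absurd h.symm h12

theorem lead_one_sub_om : LeadS A 2 (HahnSeries.C (1 - omK hN hζ)) 0 := by
  rw [← baseK_omO hζ hN, ← map_one (baseK A 2), ← map_sub]
  refine leadS_C ?_
  rw [map_sub, map_one, sub_ne_zero]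
  exact (resO_omO_ne_one hζ hA hN hg hC).symm

theorem lead_diff_third {v w : ℤ × ℤ} (hv1 : ((2 * g : ℕ) : ℤ) ∣ v.1)
    (hv2 : ((2 * g : ℕ) : ℤ) ∣ v.2) (hw1 : ((2 * g : ℕ) : ℤ) ∣ w.1)
    (hw2 : ((2 * g : ℕ) : ℤ) ∣ w.2) (hv : IsVec N v) (hw : IsVec N w) (hvw : Apart N v w) :
    LeadS A 2 (xK (constK A 2) hζ v - xK (constK A 2) hζ w) (ordDiff N g v w) := by
  have ev := evenVec_of_two_g hN hv1 hv2
  have ew := evenVec_of_two_g hN hw1 hw2
  unfold ordDiff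
  split_ifs with h
  · rcases h with h | h
    · exact lead_even_toric hζ hA hN hg hC ev ew hv hw hvw h
    · rw [← neg_sub]
      exact (lead_even_toric hζ hA hN hg hC ew ev hw hv
        ⟨by rw [← neg_sub]; exact isVec_neg_vec hvw.1, by rw [add_comm]; exact hvw.2⟩ h).neg
  · rw [not_or] at h
    exact lead_thirds hζ hA hN hg hC ev ew hv hw hvw h.1 h.2 hv1 hw1

/-- The leading term of a ratio of points of order three. -/
theorem lead_ratio_third (γ : SL(2, ℤ)) {v a b : ℤ × ℤ} (hv1 : ((2 * g : ℕ) : ℤ) ∣ v.1)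
    (hv2 : ((2 * g : ℕ) : ℤ) ∣ v.2) (ha1 : ((2 * g : ℕ) : ℤ) ∣ a.1)
    (ha2 : ((2 * g : ℕ) : ℤ) ∣ a.2) (hb1 : ((2 * g : ℕ) : ℤ) ∣ b.1)
    (hb2 : ((2 * g : ℕ) : ℤ) ∣ b.2) (hv : IsVec N v) (ha : IsVec N a) (hb : IsVec N b)
    (hvb : Apart N v b) (hab : Apart N a b) :
    LeadS A 2 (rSer (rAct γ (ratHol (constK A 2) hζ hv ha hb hab)))
      (ordDiff N g (vmul v γ) (vmul b γ) + -ordDiff N g (vmul a γ) (vmul b γ)) := by
  rw [rSer_rAct_ratHol]
  have d : ∀ {u : ℤ × ℤ} (δ : SL(2, ℤ)), ((2 * g : ℕ) : ℤ) ∣ u.1 → ((2 * g : ℕ) : ℤ) ∣ u.2 →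
      ((2 * g : ℕ) : ℤ) ∣ (vmul u δ).1 ∧ ((2 * g : ℕ) : ℤ) ∣ (vmul u δ).2 := fun δ h1 h2 =>
    ⟨dvd_add (h1.mul_right _) (h2.mul_right _), dvd_add (h1.mul_right _) (h2.mul_right _)⟩
  exact (lead_diff_third hζ hA hN hg hC (d γ hv1 hv2).1 (d γ hv1 hv2).2 (d γ hb1 hb2).1
    (d γ hb1 hb2).2 (hv.vmul γ) (hb.vmul γ) (hvb.vmul γ)).mul
    ((lead_diff_third hζ hA hN hg hC (d γ ha1 ha2).1 (d γ ha1 ha2).2 (d γ hb1 hb2).1
    (d γ hb1 hb2).2 (ha.vmul γ) (hb.vmul γ) (hab.vmul γ)).inv hC)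

/-- The three ratios at a translate. -/
theorem lead_mu_factors (γ : SL(2, ℤ)) :
    LeadS A 2 (rSer (rAct γ (muR hN hζ - rC (omK hN hζ ^ 0))))
      (ordDiff N g (vmul (pA g) γ) (vmul (pB g 1) γ) +
        -ordDiff N g (vmul (pB g 0) γ) (vmul (pB g 1) γ)) ∧
    LeadS A 2 (rSer (rAct γ (muR hN hζ - rC (omK hN hζ ^ 1))))
      (ordDiff N g (vmul (pA g) γ) (vmul (pB g 0) γ) +
        -ordDiff N g (vmul (pB g 1) γ) (vmul (pB g 0) γ)) ∧
    LeadS A 2 (rSer (rAct γ (muR hN hζ - rC (omK hN hζ ^ 2))))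
      ((ordDiff N g (vmul (pB g 0) γ) (vmul (pA g) γ) +
          -ordDiff N g (vmul (pB g 2) γ) (vmul (pA g) γ)) +
        (ordDiff N g (vmul (pA g) γ) (vmul (pB g 1) γ) +
          -ordDiff N g (vmul (pB g 0) γ) (vmul (pB g 1) γ))) := by
  have aAB : ∀ i, Apart N (pA g) (pB g i) := fun i =>
    ⟨by rw [← neg_sub]; exact isVec_neg_vec (apart_pB_pA hN i).1,
      by rw [add_comm]; exact (apart_pB_pA hN i).2⟩
  have eA1 : ((2 * g : ℕ) : ℤ) ∣ (pA g).1 := dvd_zero _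
  have eA2 : ((2 * g : ℕ) : ℤ) ∣ (pA g).2 := dvd_rfl
  have eB1 : ∀ i, ((2 * g : ℕ) : ℤ) ∣ (pB g i).1 := fun _ => dvd_rfl
  have eB2 : ∀ i, ((2 * g : ℕ) : ℤ) ∣ (pB g i).2 := fun _ => dvd_mul_right _ _
  have hc := lead_one_sub_om hζ hA hN hg hC
  refine ⟨?_, ?_, ?_⟩
  · rw [pow_zero, map_one, muR_sub_one, map_neg, map_mul, rAct_rC, map_neg, map_mul, rSer_rC,
      ← zero_add (ordDiff N g _ _ + _)]
    exact (hc.mul (lead_ratio_third hζ hA hN hg hC γ eA1 eA2 (eB1 0) (eB2 0) (eB1 1) (eB2 1)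
      _ _ _ (aAB 1) _)).neg
  · rw [pow_one, muR_sub_om, map_mul, rAct_rC, map_mul, rSer_rC,
      ← zero_add (ordDiff N g _ _ + _)]
    exact hc.mul (lead_ratio_third hζ hA hN hg hC γ eA1 eA2 (eB1 1) (eB2 1) (eB1 0) (eB2 0)
      _ _ _ (aAB 0) _)
  · rw [muR_sub_om2, map_mul, rAct_rC, map_mul (rAct γ), map_neg, map_mul, map_mul, rSer_rC, map_neg,
      ← zero_add ((ordDiff N g _ _ + _) + (ordDiff N g _ _ + _))]
    exact hc.mul ((lead_ratio_third hζ hA hN hg hC γ (eB1 0) (eB2 0) (eB1 2) (eB2 2) eA1 eA2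
      _ _ _ (apart_pB_pA hN 0) _).mul (lead_ratio_third hζ hA hN hg hC γ eA1 eA2 (eB1 0) (eB2 0)
      (eB1 1) (eB2 1) _ _ _ (aAB 1) _).neg)

/-- **The table of orders.** -/
theorem lead_mu_rep (r : Fin 4) {i : ℕ} (hi : i < 3) :
    LeadS A 2 (rSer (rAct (repThree r) (muR hN hζ - rC (omK hN hζ ^ i))))
      (if r = 0 then -((2 * g : ℕ) : ℤ) else if i = cuspExp r then ((2 * g : ℕ) : ℤ) else 0) := by
  obtain ⟨h0, h1, h2⟩ := lead_mu_factors hζ hA hN hg hC (repThree r)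
  have t : ∀ k : ℤ, ¬ (3 : ℤ) ∣ k → ¬ (N : ℤ) ∣ ((2 * g : ℕ) : ℤ) * k := fun k hk =>
    not_dvd_two_g hN hk
  have n1 : ¬ (N : ℤ) ∣ 2 * (g : ℤ) := by simpa using t 1 (by norm_num)
  have n2 : ¬ (N : ℤ) ∣ 2 * (g : ℤ) * 2 := by simpa using t 2 (by norm_num)
  have n2' : ¬ (N : ℤ) ∣ 2 * (g : ℤ) + 2 * g := by
    rwa [show 2 * (g : ℤ) + 2 * g = 2 * g * 2 by ring]
  have d3 : (N : ℤ) ∣ 2 * (g : ℤ) + 2 * g * 2 := ⟨1, by rw [hN]; push_cast; ring⟩
  have e3 : (N : ℤ) ∣ 2 * (g : ℤ) * 2 + 2 * g := ⟨1, by rw [hN]; push_cast; ring⟩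
  have n4' : ¬ (N : ℤ) ∣ 2 * (g : ℤ) * 2 + 2 * g * 2 := by
    rw [show 2 * (g : ℤ) * 2 + 2 * g * 2 = 2 * g * 4 by ring]
    simpa using t 4 (by norm_num)
  have hd0 : (N : ℤ) ∣ 0 := dvd_zero _
  obtain rfl | rfl | rfl | rfl : r = 0 ∨ r = 1 ∨ r = 2 ∨ r = 3 := by omega
  all_goals interval_cases i
  all_goals first
    | refine (congrArg (LeadS A 2 _) ?_).mp h0
    | refine (congrArg (LeadS A 2 _) ?_).mp h1
    | refine (congrArg (LeadS A 2 _) ?_).mp h2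
  all_goals simp [ordDiff, repThree, cuspExp, vmul, pA, pB, Matrix.SpecialLinearGroup.coe_mul,
    ModularGroup.coe_S, ModularGroup.coe_T, Matrix.mul_apply, Fin.sum_univ_two, n1, n2,
    n2', d3, e3, n4', hd0]

end FA.Carayol

end
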