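import Fermat.Agent.Carayol.Two.Level3
import Fermat.Agent.Carayol.Curve.Field
import Fermat.Agent.Mazur.Moduli.CurveLine

/-!
# The coordinate `μ` of level three and the labels `F_v`

`N = 2 (3 g)`. `A = (0, 2 g)`, `B_i = (2 g, 2 g i)`; `μ - 1`, `μ - ω`, `μ - ω²` are products of
ratios of differences of abscissae, `F_v (F_v - 3 μ)² = 4 (μ³ - 1)` for `v` of order two.
-/

set_option autoImplicit false
set_option linter.unusedSectionVars false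
set_option linter.style.haveILetI false

noncomputable section

namespace FA.Carayol

open UpperHalfPlane hiding I
open CongruenceSubgroup FA.Level FA.ModField FA.Mazur.Wp
open scoped MatrixGroups

/-- The toric point of order three. -/
def pA (g : ℕ) : ℤ × ℤ := (0, ((2 * g : ℕ) : ℤ))

/-- The other points of order three. -/
def pB (g : ℕ) (i : ℤ) : ℤ × ℤ := (((2 * g : ℕ) : ℤ), ((2 * g : ℕ) : ℤ) * i)

/-- Points of order two. -/
def IsHalfPt (N g : ℕ) (v : ℤ × ℤ) : Prop :=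
  ((3 * g : ℕ) : ℤ) ∣ v.1 ∧ ((3 * g : ℕ) : ℤ) ∣ v.2 ∧ IsVec N v

theorem IsHalfPt.vmul {N g : ℕ} {v : ℤ × ℤ} (h : IsHalfPt N g v) (γ : SL(2, ℤ)) :
    IsHalfPt N g (vmul v γ) :=
  ⟨dvd_add (h.1.mul_right _) (h.2.1.mul_right _), dvd_add (h.1.mul_right _) (h.2.1.mul_right _),
    h.2.2.vmul γ⟩

variable {N g : ℕ} [NeZero N] (hN : N = 2 * (3 * g))
include hN

theorem g_pos' : 0 < g := Nat.pos_of_ne_zero fun h0 => NeZero.ne N (by subst h0; simpa using hN)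

theorem not_dvd_two_g {k : ℤ} (hk : ¬ (3 : ℤ) ∣ k) : ¬ (N : ℤ) ∣ ((2 * g : ℕ) : ℤ) * k :=
  fun hd => hk (Int.dvd_of_mul_dvd_mul_left
    (Int.natCast_ne_zero.2 (Nat.mul_ne_zero two_ne_zero (g_pos' hN).ne'))
    (show ((2 * g : ℕ) : ℤ) * 3 ∣ ((2 * g : ℕ) : ℤ) * k by
      convert hd using 1; rw [hN]; push_cast; ring))

theorem isVec_pA : IsVec N (pA g) := fun hd =>
  not_dvd_two_g hN (k := 1) (by norm_num) (by simpa [pA] using hd.2)

theorem isVec_pB (i : ℤ) : IsVec N (pB g i) := fun hd =>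
  not_dvd_two_g hN (k := 1) (by norm_num) (by simpa [pB] using hd.1)

theorem apart_pB_pA (i : ℤ) : Apart N (pB g i) (pA g) :=
  ⟨fun hd => not_dvd_two_g hN (k := 1) (by norm_num) (by simpa [pA, pB] using hd.1),
    fun hd => not_dvd_two_g hN (k := 1) (by norm_num) (by simpa [pA, pB] using hd.1)⟩

theorem apart_pB {i j : ℤ} (hij : ¬ (3 : ℤ) ∣ i - j) : Apart N (pB g i) (pB g j) :=
  ⟨fun hd => not_dvd_two_g hN hij (by simpa [pB, mul_sub] using hd.2),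
    fun hd => not_dvd_two_g hN (k := 2) (by norm_num) (by simpa [pB, mul_two] using hd.1)⟩

theorem IsHalfPt.apart_third {v w : ℤ × ℤ} (hv : IsHalfPt N g v) (hw1 : ((2 * g : ℕ) : ℤ) ∣ w.1)
    (hw2 : ((2 * g : ℕ) : ℤ) ∣ w.2) : Apart N v w := by
  have key : ∀ x y : ℤ, ((3 * g : ℕ) : ℤ) ∣ x → ((2 * g : ℕ) : ℤ) ∣ y → (N : ℤ) ∣ x + y →
      (N : ℤ) ∣ x := by
    rintro x y ⟨a, rfl⟩ ⟨b, rfl⟩ hd
    have h2 : (N : ℤ) ∣ 3 * (((2 * g : ℕ) : ℤ) * b) := ⟨b, by rw [hN]; push_cast; ring⟩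
    have h3 : (N : ℤ) ∣ 2 * (((3 * g : ℕ) : ℤ) * a) := ⟨a, by rw [hN]; push_cast; ring⟩
    have := dvd_sub (dvd_sub (hd.mul_left 3) h2) h3
    rwa [show 3 * (((3 * g : ℕ) : ℤ) * a + ((2 * g : ℕ) : ℤ) * b) - 3 * (((2 * g : ℕ) : ℤ) * b) -
      2 * (((3 * g : ℕ) : ℤ) * a) = ((3 * g : ℕ) : ℤ) * a by ring] at this
  constructor
  · intro hd
    refine hv.2.2 ⟨key _ (-w.1) hv.1 (dvd_neg.2 hw1) ?_, key _ (-w.2) hv.2.1 (dvd_neg.2 hw2) ?_⟩
    · simpa [sub_eq_add_neg] using hd.1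
    · simpa [sub_eq_add_neg] using hd.2
  · exact fun hd => hv.2.2 ⟨key _ _ hv.1 hw1 hd.1, key _ _ hv.2.1 hw2 hd.2⟩

theorem IsHalfPt.apart_pA {v : ℤ × ℤ} (hv : IsHalfPt N g v) : Apart N v (pA g) :=
  hv.apart_third hN (dvd_zero _) dvd_rfl

/-! ### At a point of the upper half plane -/

omit hN in
theorem ratFun_wpAt (v a b : ℤ × ℤ) (τ : ℍ) :
    ratFun N v a b τ = (wpAt N τ v - wpAt N τ b) / (wpAt N τ a - wpAt N τ b) := by
  simp only [ratFun, wpAt, xVal]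
  rw [← sub_div, ← sub_div, div_div_div_cancel_right₀ (pow_ne_zero 2 tpi_ne_zero)]

theorem flex_third {w : ℤ × ℤ} (hw : IsVec N w) (h1 : ((2 * g : ℕ) : ℤ) ∣ w.1)
    (h2 : ((2 * g : ℕ) : ℤ) ∣ w.2) (τ : ℍ) : wqAt N τ w ≠ 0 ∧
      (6 * wpAt N τ w ^ 2 - (latPair τ).g₂ / 2) ^ 2 = 12 * wpAt N τ w * wqAt N τ w ^ 2 := by
  haveI := FA.Mazur.Moduli.isElliptic_latPair τ
  refine flex_wp _ (notMem_of_isVec τ hw) ?_
  rw [← zPt_add, ← zPt_add, zPt_mem_iff]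
  obtain ⟨a, ha⟩ := h1
  obtain ⟨b, hb⟩ := h2
  exact ⟨⟨a, by simp only [Prod.fst_add]; rw [ha, hN]; push_cast; ring⟩,
    ⟨b, by simp only [Prod.snd_add]; rw [hb, hN]; push_cast; ring⟩⟩

/-- The facts on the three differences and on a point of order two. -/
theorem thirds_at (τ : ℍ) : ∃ P R Q : ℂ,
    (wpAt N τ (pB g 0) - wpAt N τ (pA g)) + (wpAt N τ (pB g 1) - wpAt N τ (pA g)) +
        (wpAt N τ (pB g 2) - wpAt N τ (pA g)) = -(4 * P) ∧
    (wpAt N τ (pB g 0) - wpAt N τ (pA g)) * (wpAt N τ (pB g 1) - wpAt N τ (pA g)) +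
      (wpAt N τ (pB g 0) - wpAt N τ (pA g)) * (wpAt N τ (pB g 2) - wpAt N τ (pA g)) +
        (wpAt N τ (pB g 1) - wpAt N τ (pA g)) * (wpAt N τ (pB g 2) - wpAt N τ (pA g)) = R ∧
    (wpAt N τ (pB g 0) - wpAt N τ (pA g)) * (wpAt N τ (pB g 1) - wpAt N τ (pA g)) *
        (wpAt N τ (pB g 2) - wpAt N τ (pA g)) = -Q ∧
    R ^ 2 = 12 * P * Q ∧
    ∀ v, IsHalfPt N g v → 4 * (wpAt N τ v - wpAt N τ (pA g)) ^ 3 +
      12 * P * (wpAt N τ v - wpAt N τ (pA g)) ^ 2 + 2 * R * (wpAt N τ v - wpAt N τ (pA g)) + Q = 0 := by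
  set P := wpAt N τ (pA g)
  set R := 6 * P ^ 2 - (latPair τ).g₂ / 2
  set Q := wqAt N τ (pA g) ^ 2
  obtain ⟨-, hfA⟩ := flex_third hN (isVec_pA hN) (dvd_zero _) dvd_rfl τ
  change R ^ 2 = 12 * P * Q at hfA
  have hQ : Q = 4 * P ^ 3 - (latPair τ).g₂ * P - (latPair τ).g₃ :=
    (latPair τ).derivWeierstrassP_sq _ (notMem_of_isVec τ (isVec_pA hN))
  have hroot : ∀ i : ℤ, (wpAt N τ (pB g i) - P) ^ 3 + 4 * P * (wpAt N τ (pB g i) - P) ^ 2 +
      R * (wpAt N τ (pB g i) - P) + Q = 0 := fun i => by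
    obtain ⟨-, hf⟩ := flex_third hN (isVec_pB hN i) dvd_rfl (dvd_mul_right _ _) τ
    have hq : wqAt N τ (pB g i) ^ 2 = 4 * wpAt N τ (pB g i) ^ 3 -
        (latPair τ).g₂ * wpAt N τ (pB g i) - (latPair τ).g₃ :=
      (latPair τ).derivWeierstrassP_sq _ (notMem_of_isVec τ (isVec_pB hN i))
    refine thirds_root (by norm_num) hfA
      (sub_ne_zero.2 (wpAt_ne τ (isVec_pB hN i) (isVec_pA hN) (apart_pB_pA hN i))) ?_
    rw [hq] at hf
    rw [hQ]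
    linear_combination hf
  have ne : ∀ i j : ℤ, ¬ (3 : ℤ) ∣ i - j → wpAt N τ (pB g i) - P ≠ wpAt N τ (pB g j) - P :=
    fun i j hij e => wpAt_ne τ (isVec_pB hN i) (isVec_pB hN j) (apart_pB hN hij) (sub_left_inj.1 e)
  obtain ⟨hs, hp, hq⟩ := thirds_vieta (ne 0 1 (by norm_num)) (ne 0 2 (by norm_num))
    (ne 1 2 (by norm_num)) (hroot 0) (hroot 1) (hroot 2)
  refine ⟨P, R, Q, hs, hp, hq, hfA, fun v hv => ?_⟩
  have h0 : wqAt N τ v = 0 := by
    refine wqAt_two τ ?_ ?_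
    · obtain ⟨a, ha⟩ := hv.1
      exact ⟨a, by rw [ha, hN]; push_cast; ring⟩
    · obtain ⟨a, ha⟩ := hv.2.1
      exact ⟨a, by rw [ha, hN]; push_cast; ring⟩
  have hv' : wqAt N τ v ^ 2 = 4 * wpAt N τ v ^ 3 - (latPair τ).g₂ * wpAt N τ v - (latPair τ).g₃ :=
    (latPair τ).derivWeierstrassP_sq _ (notMem_of_isVec τ hv.2.2)
  rw [h0] at hv'
  rw [hQ]
  linear_combination -hv'

variable {K : Subfield ℂ} (hζ : ∀ b : ℤ, eta N b ∈ K)

/-! ### The root of unity -/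

theorem eta_third_root {j : ℤ} (hj : ¬ (3 : ℤ) ∣ j) :
    eta N (((2 * g : ℕ) : ℤ) * j) ^ 2 + eta N (((2 * g : ℕ) : ℤ) * j) + 1 = 0 := by
  set e := eta N (((2 * g : ℕ) : ℤ) * j)
  have h3 : e ^ 3 = 1 := by
    simp only [e, eta, ← Complex.exp_nat_mul, tpi]
    refine Complex.exp_eq_one_iff.mpr ⟨j, ?_⟩
    have : (g : ℂ) ≠ 0 := Nat.cast_ne_zero.2 (g_pos' hN).ne'
    rw [hN]
    push_cast
    field_simp
  have h1 : e ≠ 1 := fun he => by
    rw [show e = eta N (((2 * g : ℕ) : ℤ) * j) from rfl, eta] at he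
    obtain ⟨n, hn⟩ := Complex.exp_eq_one_iff.1 he
    rw [tpi, div_eq_iff (Nat.cast_ne_zero.2 (NeZero.ne N))] at hn
    refine not_dvd_two_g hN hj ⟨n, ?_⟩
    have h := mul_left_cancel₀ Complex.two_pi_I_ne_zero
      (show 2 * Real.pi * Complex.I * (((((2 * g : ℕ) : ℤ) * j : ℤ)) : ℂ) =
        2 * Real.pi * Complex.I * (((N : ℤ) * n : ℤ) : ℂ) by push_cast at hn ⊢; linear_combination hn)
    exact_mod_cast h
  refine mul_left_cancel₀ (sub_ne_zero.2 h1) ?_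
  linear_combination h3

/-- The linear form in the reciprocals for a given root of unity. -/
def orientFun (j : ℤ) (τ : ℍ) : ℂ :=
  (wpAt N τ (pB g 1) - wpAt N τ (pA g)) * (wpAt N τ (pB g 2) - wpAt N τ (pA g)) +
    eta N (((2 * g : ℕ) : ℤ) * j) *
      ((wpAt N τ (pB g 0) - wpAt N τ (pA g)) * (wpAt N τ (pB g 2) - wpAt N τ (pA g))) +
    eta N (((2 * g : ℕ) : ℤ) * j) ^ 2 *
      ((wpAt N τ (pB g 0) - wpAt N τ (pA g)) * (wpAt N τ (pB g 1) - wpAt N τ (pA g)))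

/-- The form divided by the product of two differences, as a function of level `N`. -/
def orientR (j : ℤ) : rN N K :=
  1 + rC (⟨eta N (((2 * g : ℕ) : ℤ) * j), hζ _⟩ : K) *
      ratHol K hζ (isVec_pB hN 0) (isVec_pB hN 1) (isVec_pA hN) (apart_pB_pA hN 1) +
    rC ((⟨eta N (((2 * g : ℕ) : ℤ) * j), hζ _⟩ : K) ^ 2) *
      ratHol K hζ (isVec_pB hN 0) (isVec_pB hN 2) (isVec_pA hN) (apart_pB_pA hN 2)

omit hN in
theorem rEv_rC (τ : ℍ) (c : K) : rEv τ (rC (N := N) c) = (c : ℂ) := rfl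

omit hN in
theorem rEv_ratHol {v a b : ℤ × ℤ} (hv : IsVec N v) (ha : IsVec N a) (hb : IsVec N b)
    (hab : Apart N a b) (τ : ℍ) : rEv τ (ratHol K hζ hv ha hb hab) =
      (wpAt N τ v - wpAt N τ b) / (wpAt N τ a - wpAt N τ b) :=
  ratFun_wpAt v a b τ

theorem rEv_orientR (j : ℤ) (τ : ℍ) : rEv τ (orientR hN hζ j) *
    ((wpAt N τ (pB g 1) - wpAt N τ (pA g)) * (wpAt N τ (pB g 2) - wpAt N τ (pA g))) =
      orientFun (N := N) (g := g) j τ := by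
  have h1 := sub_ne_zero.2 (wpAt_ne τ (isVec_pB hN 1) (isVec_pA hN) (apart_pB_pA hN 1))
  have h2 := sub_ne_zero.2 (wpAt_ne τ (isVec_pB hN 2) (isVec_pA hN) (apart_pB_pA hN 2))
  simp only [orientR, map_add, map_mul, map_one, rEv_rC, rEv_ratHol, orientFun, SubmonoidClass.coe_pow]
  field_simp

include hζ in
/-- One of the two orientations holds. -/
theorem exists_orient : ∃ j : ℤ, ¬ (3 : ℤ) ∣ j ∧ ∀ τ, orientFun (N := N) (g := g) j τ = 0 := by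
  have hprod : orientR hN hζ 1 * orientR hN hζ 2 = 0 := rN_ext fun τ => by
    have h1 := sub_ne_zero.2 (wpAt_ne τ (isVec_pB hN 1) (isVec_pA hN) (apart_pB_pA hN 1))
    have h2 := sub_ne_zero.2 (wpAt_ne τ (isVec_pB hN 2) (isVec_pA hN) (apart_pB_pA hN 2))
    refine mul_right_cancel₀ (pow_ne_zero 2 (mul_ne_zero h1 h2)) ?_
    rw [map_mul, map_zero, zero_mul, sq, ← mul_mul_mul_comm, rEv_orientR, rEv_orientR]
    obtain ⟨P, R, Q, hs, hp, hq, hR, -⟩ := thirds_at hN τ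
    have he : eta N (((2 * g : ℕ) : ℤ) * 2) = eta N (((2 * g : ℕ) : ℤ) * 1) ^ 2 := by
      rw [eta, eta, ← Complex.exp_nat_mul]
      congr 1
      push_cast
      ring
    have hroot := eta_third_root hN (j := 1) (by norm_num)
    have := thirds_orient hroot hR hs hp hq
    simp only [orientFun, he]
    set e := eta N (((2 * g : ℕ) : ℤ) * 1)
    linear_combination this + (e ^ 2 - e) *
      ((wpAt N τ (pB g 0) - wpAt N τ (pA g)) * (wpAt N τ (pB g 1) - wpAt N τ (pA g))) *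
      ((wpAt N τ (pB g 1) - wpAt N τ (pA g)) * (wpAt N τ (pB g 2) - wpAt N τ (pA g)) +
        e * ((wpAt N τ (pB g 0) - wpAt N τ (pA g)) * (wpAt N τ (pB g 2) - wpAt N τ (pA g))) +
        e ^ 2 * ((wpAt N τ (pB g 0) - wpAt N τ (pA g)) * (wpAt N τ (pB g 1) - wpAt N τ (pA g)))) *
      hroot
  rcases mul_eq_zero.1 hprod with h | h
  · exact ⟨1, by norm_num, fun τ => by rw [← rEv_orientR hN hζ, h, map_zero, zero_mul]⟩
  · exact ⟨2, by norm_num, fun τ => by rw [← rEv_orientR hN hζ, h, map_zero, zero_mul]⟩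

/-- The exponent of the root of unity. -/
def omExp : ℤ := ((2 * g : ℕ) : ℤ) * (exists_orient hN hζ).choose

/-- The root of unity of order three. -/
def omK : K := ⟨eta N (omExp hN hζ), hζ _⟩

theorem omK_root : omK hN hζ ^ 2 + omK hN hζ + 1 = 0 :=
  Subtype.ext (eta_third_root hN (exists_orient hN hζ).choose_spec.1)

theorem not_dvd_omExp : ¬ ((3 * g : ℕ) : ℤ) ∣ omExp hN hζ := fun hd => by
  obtain ⟨k, hk⟩ := hd
  refine (exists_orient hN hζ).choose_spec.1 ?_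
  have hg : (g : ℤ) ≠ 0 := Int.natCast_ne_zero.2 (g_pos' hN).ne'
  have h : 2 * (exists_orient hN hζ).choose = 3 * k := by
    apply mul_left_cancel₀ hg
    rw [omExp] at hk
    push_cast at hk
    linear_combination hk
  omega

/-! ### The functions -/

/-- The coordinate. -/
def muR : rN N K := 1 - rC (1 - omK hN hζ) *
  ratHol K hζ (isVec_pA hN) (isVec_pB hN 0) (isVec_pB hN 1) (apart_pB hN (by norm_num))

/-- The ratio in the label. -/
def fR (v : ℤ × ℤ) (hv : IsHalfPt N g v) : rN N K :=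
  (muR hN hζ - 1) * ratHol K hζ (isVec_pB hN 0) hv.2.2 (isVec_pA hN) (hv.apart_pA hN)

theorem rEv_muR (τ : ℍ) : rEv τ (muR hN hζ) = 1 + (1 - (omK hN hζ : ℂ)) *
    ((wpAt N τ (pB g 1) - wpAt N τ (pA g)) /
      ((wpAt N τ (pB g 0) - wpAt N τ (pA g)) - (wpAt N τ (pB g 1) - wpAt N τ (pA g)))) := by
  simp only [muR, map_sub, map_mul, map_one, rEv_rC, rEv_ratHol]
  rw [sub_sub_sub_cancel_right]
  ring

omit hN in
theorem rEv_neg_one (τ : ℍ) : rEv τ (-1 : rN N K) = -1 := by simp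

/-- `μ - 1`. -/
theorem muR_sub_one : muR hN hζ - 1 = -(rC (1 - omK hN hζ) *
    ratHol K hζ (isVec_pA hN) (isVec_pB hN 0) (isVec_pB hN 1) (apart_pB hN (by norm_num))) := by
  rw [muR]; ring

/-- `μ - ω`. -/
theorem muR_sub_om : muR hN hζ - rC (omK hN hζ) = rC (1 - omK hN hζ) *
    ratHol K hζ (isVec_pA hN) (isVec_pB hN 1) (isVec_pB hN 0) (apart_pB hN (by norm_num)) :=
  rN_ext fun τ => by
    have h := sub_ne_zero.2 (wpAt_ne τ (isVec_pB hN 0) (isVec_pB hN 1) (apart_pB hN (by norm_num)))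
    rw [map_sub, map_mul, rEv_muR, rEv_rC, rEv_rC, rEv_ratHol, AddSubgroupClass.coe_sub,
      OneMemClass.coe_one, sub_sub_sub_cancel_right, ← neg_sub (wpAt N τ (pB g 0)) (wpAt N τ (pB g 1))]
    field_simp
    ring

theorem isHalfPt_base : IsHalfPt N g (((3 * g : ℕ) : ℤ), 0) := by
  refine ⟨dvd_rfl, dvd_zero _, fun hd => ?_⟩
  have hg := g_pos' hN
  have h := Int.le_of_dvd (by omega) hd.1
  omega

theorem level3_at (τ : ℍ) {v : ℤ × ℤ} (hv : IsHalfPt N g v) {x0 x1 x2 x : ℂ}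
    (e0 : x0 = wpAt N τ (pB g 0) - wpAt N τ (pA g)) (e1 : x1 = wpAt N τ (pB g 1) - wpAt N τ (pA g))
    (e2 : x2 = wpAt N τ (pB g 2) - wpAt N τ (pA g)) (e : x = wpAt N τ v - wpAt N τ (pA g)) :
    rEv τ (muR hN hζ) - (omK hN hζ : ℂ) ^ 2 =
        (1 - (omK hN hζ : ℂ)) * (x0 * x1 / (x2 * (x0 - x1))) ∧
      rEv τ (fR hN hζ v hv) * (rEv τ (fR hN hζ v hv) - 3 * rEv τ (muR hN hζ)) ^ 2 =
        4 * (rEv τ (muR hN hζ) ^ 3 - 1) := by
  obtain ⟨P, R, Q, hs, hp, hq, -, hall⟩ := thirds_at hN τ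
  have hx := hall v hv
  have hE := (exists_orient hN hζ).choose_spec.2 τ
  rw [← e] at hx
  simp only [orientFun] at hE
  rw [← e0, ← e1, ← e2] at hs hp hq hE
  have h0 : x0 ≠ 0 := e0 ▸ sub_ne_zero.2 (wpAt_ne τ (isVec_pB hN 0) (isVec_pA hN) (apart_pB_pA hN 0))
  have h1 : x1 ≠ 0 := e1 ▸ sub_ne_zero.2 (wpAt_ne τ (isVec_pB hN 1) (isVec_pA hN) (apart_pB_pA hN 1))
  have h2 : x2 ≠ 0 := e2 ▸ sub_ne_zero.2 (wpAt_ne τ (isVec_pB hN 2) (isVec_pA hN) (apart_pB_pA hN 2))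
  have hne : x ≠ 0 := e ▸ sub_ne_zero.2 (wpAt_ne τ hv.2.2 (isVec_pA hN) (hv.apart_pA hN))
  have h01 : x0 ≠ x1 := by
    rw [e0, e1]
    exact fun h => wpAt_ne τ (isVec_pB hN 0) (isVec_pB hN 1) (apart_pB hN (by norm_num)) (sub_left_inj.1 h)
  have hμ := rEv_muR hN hζ τ
  rw [← e0, ← e1] at hμ
  have hF : rEv τ (fR hN hζ v hv) = (rEv τ (muR hN hζ) - 1) * (x0 / x) := by
    rw [fR, map_mul, map_sub, map_one, rEv_ratHol, e0, e]
  exact (level3_identities (by norm_num) (congrArg Subtype.val (omK_root hN hζ)) h0 h1 h2 hne h01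
    hs hp hq hE hx hμ hF).2

/-- `μ - ω²`. -/
theorem muR_sub_om2 : muR hN hζ - rC (omK hN hζ ^ 2) = rC (1 - omK hN hζ) *
    (ratHol K hζ (isVec_pB hN 0) (isVec_pB hN 2) (isVec_pA hN) (apart_pB_pA hN 2) *
      -ratHol K hζ (isVec_pA hN) (isVec_pB hN 0) (isVec_pB hN 1) (apart_pB hN (by norm_num))) :=
  rN_ext fun τ => by
    obtain ⟨h, -⟩ := level3_at hN hζ τ (isHalfPt_base hN) rfl rfl rfl rfl
    rw [map_sub, rEv_rC, SubmonoidClass.coe_pow, h, map_mul, map_mul, map_neg, rEv_rC, rEv_ratHol,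
      rEv_ratHol, AddSubgroupClass.coe_sub, OneMemClass.coe_one, sub_sub_sub_cancel_right,
      ← div_div, neg_div', neg_sub]
    ring

/-- **The cubic of the labels.** -/
theorem fR_cubic {v : ℤ × ℤ} (hv : IsHalfPt N g v) :
    fR hN hζ v hv * (fR hN hζ v hv - 3 * muR hN hζ) ^ 2 = 4 * (muR hN hζ ^ 3 - 1) :=
  rN_ext fun τ => by
    simp only [map_mul, map_pow, map_sub, map_one, map_ofNat]
    exact (level3_at hN hζ τ hv rfl rfl rfl rfl).2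

end FA.Carayol

end
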