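import Fermat.Agent.Carayol.Two.Expand
import Mathlib.NumberTheory.ModularForms.NormTrace

/-!
# Invariants of `Γ(3)` regular at the three finite cusps are polynomials in `μ`
-/

set_option autoImplicit false
set_option linter.unusedSectionVars false
set_option linter.style.haveILetI false

noncomputable section

namespace FA.Carayol

open UpperHalfPlane hiding I
open CongruenceSubgroup HahnSeries ModularCurve FA.Level FA.ModField FA.Mazur.Wp Polynomial
open scoped MatrixGroups Topology ModularForm Manifold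

local notation "Qb" => AlgebraicClosure ℚ

theorem exists_coset_three (δ : SL(2, ℤ)) : ∃ (γ : SL(2, ℤ)) (r : Fin 4) (k : ℕ),
    γ ∈ Gamma 3 ∧ (δ = γ * repThree r * ModularGroup.T ^ k ∨
      -δ = γ * repThree r * ModularGroup.T ^ k) := by
  let π : SL(2, ℤ) →* Matrix.SpecialLinearGroup (Fin 2) (ZMod 3) :=
    Matrix.SpecialLinearGroup.map (Int.castRingHom (ZMod 3))
  have key : ∀ x : Matrix.SpecialLinearGroup (Fin 2) (ZMod 3), ∃ (r : Fin 4) (k : Fin 3),
      x = π (repThree r * ModularGroup.T ^ (k : ℕ)) ∨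
      x = π (-1 * (repThree r * ModularGroup.T ^ (k : ℕ))) := by decide +kernel
  obtain ⟨r, k, hk | hk⟩ := key (π δ)
  · refine ⟨δ * (repThree r * ModularGroup.T ^ (k : ℕ))⁻¹, r, k, ?_, Or.inl (by group)⟩
    rw [Gamma_mem']
    show π _ = 1
    rw [map_mul, map_inv, ← hk, mul_inv_cancel]
  · refine ⟨-δ * (repThree r * ModularGroup.T ^ (k : ℕ))⁻¹, r, k, ?_, Or.inr (by group)⟩
    rw [Gamma_mem']
    show π _ = 1
    rw [← neg_one_mul δ, map_mul, map_mul, hk, ← map_mul, ← map_mul, ← mul_assoc (-1 : SL(2, ℤ)),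
      show (-1 : SL(2, ℤ)) * -1 = 1 by simp, one_mul, mul_inv_cancel, map_one]

section general

variable {N g : ℕ} [NeZero N] (hN : N = 2 * (3 * g)) {K : Subfield ℂ}

/-- An invariant bounded at the four cusps is constant. -/
theorem eq_rC_of_ordGE_three {f : rN N K} (hinv : ∀ γ ∈ Gamma 3, rAct γ f = f)
    (hb : ∀ r, OrdGE 0 (rSer (rAct (repThree r) f))) : ∃ c : K, f = rC c := by
  set F : ℍ → ℂ := ((f : holSub) : ℍ → ℂ)
  have hF : ∀ γ ∈ Gamma 3, ∀ z, F (γ • z) = F z := fun γ hγ z =>
    congrFun (congrArg (fun x : rN N K => ((x : holSub) : ℍ → ℂ)) (hinv γ hγ)) z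
  have hbd : ∀ δ : SL(2, ℤ), IsBoundedAtImInfty fun z => F (δ • z) := fun δ => by
    obtain ⟨γ, r, k, hγ, hd⟩ := exists_coset_three δ
    have e : ∀ z : ℍ, δ • z = γ • (repThree r • (ModularGroup.T ^ k • z)) := fun z => by
      rw [← mul_smul, ← mul_smul]
      rcases hd with hd | hd
      · rw [← hd]
      · rw [← hd, ModularGroup.SL_neg_smul]
    have h1 : IsBoundedAtImInfty fun z => F (repThree r • z) :=
      ordGE_tendsto (rSer_spec (rAct (repThree r) f)) (hb r)
    rw [UpperHalfPlane.isBoundedAtImInfty_iff] at h1 ⊢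
    obtain ⟨B, A, hA⟩ := h1
    refine ⟨B, A, fun z hz => ?_⟩
    rw [e, hF γ hγ]
    refine hA _ ?_
    rwa [← zpow_natCast, ← UpperHalfPlane.coe_im, ModularGroup.coe_T_zpow_smul_eq, Complex.add_im,
      Complex.intCast_im, add_zero]
  let mf : ModularForm ((Gamma 3).map (Matrix.SpecialLinearGroup.mapGL ℝ)) 0 :=
    { toFun := F
      slash_action_eq' := by
        rintro _ ⟨γ, hγ, rfl⟩
        funext τ
        show (F ∣[(0 : ℤ)] γ) τ = F τ
        rw [ModularForm.SL_slash_apply, hF γ hγ τ]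
        simp
      holo' := (f : holSub).2
      bdd_at_cusps' := fun hc => by
        rw [Subgroup.IsArithmetic.isCusp_iff_isCusp_SL2Z] at hc
        refine (OnePoint.isBoundedAt_iff_forall_SL2Z hc).mpr fun δ _ => ?_
        have hfun : F ∣[(0 : ℤ)] δ = fun w => F (δ • w) := by
          funext w; simp [ModularForm.SL_slash_apply]
        rw [hfun]
        exact hbd δ }
  obtain ⟨c, hc⟩ := ModularForm.eq_const_of_weight_zero mf
  have hc' : F = fun _ => c := hc
  have hS := rSer_spec f
  rw [HasKExp, show ((f : holSub) : ℍ → ℂ) = fun _ => c from hc'] at hS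
  have he := congrArg (fun s : LaurentSeries ℂ => s.coeff 0)
    (HasExp.unique (covers_qp N) hS (hasExp_C c))
  simp only [coeffMap_coeff, HahnSeries.C_apply, coeff_single_same] at he
  refine ⟨(rSer f).coeff 0, rN_ext fun z => ?_⟩
  show F z = (((rSer f).coeff 0 : K) : ℂ)
  rw [hc']
  exact he.symm

include hN

/-- The series of an invariant at a cusp only involves multiples of `2 g`. -/
theorem dvd_of_coeff_ne_three {f : rN N K} (hinv : ∀ γ ∈ Gamma 3, rAct γ f = f) (r : SL(2, ℤ))
    {i : ℤ} (hi : (rSer (rAct r f)).coeff i ≠ 0) : ((2 * g : ℕ) : ℤ) ∣ i := by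
  set F := rAct r f
  have hper : ∀ z, ((F : holSub) : ℍ → ℂ) (ModularGroup.T ^ 3 • z) = ((F : holSub) : ℍ → ℂ) z := by
    intro z
    have hγ : r * ModularGroup.T ^ 3 * r⁻¹ ∈ Gamma 3 :=
      (Gamma_normal 3).conj_mem _ (by
        rw [Gamma_mem, ← zpow_natCast, ModularGroup.coe_T_zpow]; simp; decide) r
    have h1 := congrFun (congrArg (fun x : rN N K => ((x : holSub) : ℍ → ℂ))
      (hinv _ hγ)) (r • z)
    show ((f : holSub) : ℍ → ℂ) (r • ModularGroup.T ^ 3 • z) = ((f : holSub) : ℍ → ℂ) (r • z)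
    refine Eq.trans ?_ h1
    show _ = ((f : holSub) : ℍ → ℂ) ((r * ModularGroup.T ^ 3 * r⁻¹) • r • z)
    rw [← mul_smul, ← mul_smul, inv_mul_cancel_right]
  have hS : HasExp (qp N) ((F : holSub) : ℍ → ℂ) (coeffMap K.subtype (rSer F)) := rSer_spec F
  have h' := hS.comp (U := qp N) (fun z => ModularGroup.T ^ 3 • z) 1 (zetaN N ^ 3) fun z => by
    rw [pow_one, Units.val_pow_eq_pow_val, show (ModularGroup.T : SL(2, ℤ)) ^ 3 =
      ModularGroup.T * (ModularGroup.T * ModularGroup.T) by rw [pow_succ', pow_two], mul_smul, mul_smul, qp_T_smul,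
      qp_T_smul, qp_T_smul]
    ring
  rw [qExpand_one_apply, show ((F : holSub) : ℍ → ℂ) ∘ (fun z => ModularGroup.T ^ 3 • z) =
    ((F : holSub) : ℍ → ℂ) from funext hper] at h'
  have heq := congrArg (fun s : LaurentSeries ℂ => s.coeff i) (hS.unique (covers_qp N) h')
  simp only [twist_coeff, coeffMap_coeff] at heq
  have h0 : K.subtype ((rSer F).coeff i) ≠ 0 := (map_ne_zero K.subtype).2 hi
  have h2 : (((zetaN N ^ 3) ^ i : ℂˣ) : ℂ) = 1 :=
    mul_right_cancel₀ h0 (heq.symm.trans (one_mul _).symm)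
  rw [Units.val_zpow_eq_zpow_val, Units.val_pow_eq_pow_val, ← zpow_natCast, ← zpow_mul,
    (zetaN_prim N).zpow_eq_one_iff_dvd] at h2
  obtain ⟨m, hm⟩ := h2
  refine ⟨m, mul_left_cancel₀ (show (3 : ℤ) ≠ 0 by norm_num) ?_⟩
  rw [hN] at hm
  push_cast at hm ⊢
  linear_combination hm

end general

variable [Algebra Qb ℂ] {A : ValuationSubring Qb} {N g : ℕ} [NeZero N]
  (hζ : ∀ b : ℤ, eta N b ∈ constK A 2) {ϖ : baseO A (constL A 2).toSubfield}
  (hA : A.LiesOverPrime 2) (hN : N = 2 * (3 * g)) (hg : ¬ 2 ∣ 3 * g)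
  (hC : ConstHyp A (constL A 2).toSubfield ϖ)
include hA hN hg hC

theorem ordGE_mu_finite {r : Fin 4} (hr : r ≠ 0) :
    OrdGE 0 (rSer (rAct (repThree r) (muR hN hζ))) := by
  have h := (lead_mu_rep hζ hA hN hg hC r (i := 0) (by norm_num)).ordGE
  rw [if_neg hr, pow_zero, map_one, map_sub, map_one, map_sub, map_one] at h
  have h' := (h.mono (m := 0) (by split_ifs <;> omega)).add ordGE_one
  rwa [sub_add_cancel] at h'

theorem lead_mu_infty : LeadS A 2 (rSer (muR hN hζ)) (-((2 * g : ℕ) : ℤ)) := by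
  have h := lead_mu_rep hζ hA hN hg hC 0 (i := 0) (by norm_num)
  rw [if_pos rfl, pow_zero, map_one, map_sub, map_one, map_sub, map_one,
    show repThree 0 = 1 from rfl, rAct_one] at h
  have hpos := g_pos' hN
  have h' := h.add_higher (T := 1) (one_mem _) (ordGE_one.mono (by omega))
  rwa [sub_add_cancel] at h'

/-- **Invariants regular at the finite cusps are polynomials in `μ`.** -/
theorem exists_poly_three (d : ℕ) : ∀ f : rN N (constK A 2), (∀ γ ∈ Gamma 3, rAct γ f = f) →
    (∀ r, r ≠ 0 → OrdGE 0 (rSer (rAct (repThree r) f))) →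
    OrdGE (-((d * (2 * g) : ℕ) : ℤ)) (rSer f) →
    ∃ P : (constK A 2)[X], P.natDegree ≤ d ∧ f = P.eval₂ rC (muR hN hζ) := by
  induction d with
  | zero =>
    intro f hinv hfin hinf
    obtain ⟨c, hc⟩ := eq_rC_of_ordGE_three hinv fun r => by
      rcases eq_or_ne r 0 with rfl | hr
      · rw [show repThree 0 = 1 from rfl, rAct_one]; simpa using hinf
      · exact hfin r hr
    exact ⟨C c, by simp, by rw [eval₂_C, hc]⟩
  | succ d ih =>
    intro f hinv hfin hinf
    set M := muR hN hζ
    set k : ℤ := -(((d + 1) * (2 * g) : ℕ) : ℤ)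
    have hM : LeadS A 2 (rSer (M ^ (d + 1))) k := by
      rw [map_pow]
      refine (congrArg (LeadS A 2 _) ?_).mp ((lead_mu_infty hζ hA hN hg hC).pow (d + 1))
      simp only [k]; push_cast; ring
    set c := (rSer f).coeff k / (rSer (M ^ (d + 1))).coeff k
    set f' := f - rC c * M ^ (d + 1)
    have hinv' : ∀ γ ∈ Gamma 3, rAct γ f' = f' := fun γ hγ => by
      simp only [f', M, map_sub, map_mul, map_pow, rAct_rC, hinv γ hγ, rAct_muR hN hζ hγ]
    obtain ⟨P, hPd, hP⟩ := ih f' hinv' (fun r hr => by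
      simp only [f', map_sub, map_mul, map_pow, rAct_rC, rSer_rC]
      refine (hfin r hr).sub ?_
      simpa using (ordGE_C c).mul
        (((ordGE_mu_finite hζ hA hN hg hC hr).pow (d + 1)).mono (by simp))) (by
      intro i hi
      simp only [f', map_sub, map_mul, rSer_rC]
      rw [HahnSeries.coeff_sub, HahnSeries.C_apply, coeff_single_zero_mul]
      rcases lt_trichotomy i k with hik | hik | hik
      · rw [hinf i hik, hM.ordGE i hik, mul_zero, sub_zero]
      · rw [hik, div_mul_cancel₀ _ hM.coeff_ne, sub_self]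
      · have hz : ∀ F : rN N (constK A 2), (∀ γ ∈ Gamma 3, rAct γ F = F) →
            (rSer F).coeff i = 0 := fun F hF => by
          by_contra hne
          obtain ⟨j, hj⟩ := dvd_of_coeff_ne_three hN hF 1 (i := i) (by rwa [rAct_one])
          have hpos : (0 : ℤ) < ((2 * g : ℕ) : ℤ) := by have := g_pos' hN; omega
          rw [hj] at hik hi
          simp only [k, Nat.cast_mul, Nat.cast_add, Nat.cast_one] at hik hi hpos
          push_cast at hik hi hpos
          have e1 : -((d : ℤ) + 1) < j := by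
            by_contra hc
            push Not at hc
            nlinarith
          have e2 : j < -(d : ℤ) := by
            by_contra hc
            push Not at hc
            nlinarith
          omega
        rw [hz f hinv, hz _ fun γ hγ => by rw [map_pow, rAct_muR hN hζ hγ], mul_zero, sub_zero])
    refine ⟨P + C c * X ^ (d + 1), (natDegree_add_le _ _).trans (max_le (hPd.trans (Nat.le_succ d))
      (natDegree_C_mul_X_pow_le c (d + 1))), ?_⟩
    rw [eval₂_add, ← hP, eval₂_mul, eval₂_C, eval₂_pow, eval₂_X]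
    simp [f', M]

end FA.Carayol

end
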