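import Fermat.Agent.Carayol.Two.Coord
import Fermat.Agent.Carayol.Count.Chart
import Fermat.Agent.Carayol.Group.Lines

/-!
# The three functions of level two

`Fl l` is `fR` at the point of order two on the line `l`: the roots of `F (F - 3 μ)² = 4 (μ³ - 1)`;
`Sl l = 2 a / (3 μ - Fl l)` with `a = μ³ - 1` are those of `S³ - 3 μ a S + 2 a²`. On a component
exactly one of them is small, and the other two give a square root of the coordinate.
-/

set_option autoImplicit false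
set_option linter.unusedSectionVars false
set_option linter.style.haveILetI false

noncomputable section

namespace FA.Carayol

open UpperHalfPlane hiding I
open CongruenceSubgroup ModularCurve FA.Level FA.ModField FA.Mazur.Wp Polynomial
open scoped MatrixGroups

local notation "Qb" => AlgebraicClosure ℚ

/-- The point of order two on a line. -/
def vecL (g : ℕ) : Option (ZMod 2) → ℤ × ℤ
  | none => (0, ((3 * g : ℕ) : ℤ))
  | some t => (((3 * g : ℕ) : ℤ), ((3 * g : ℕ) : ℤ) * (t.val : ℤ))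

theorem optTwo_cases (l : Option (ZMod 2)) : l = none ∨ l = some 0 ∨ l = some 1 := by
  revert l; decide

theorem optTwo_others (i : Option (ZMod 2)) : ∃ j k, i ≠ j ∧ i ≠ k ∧ j ≠ k ∧
    ∀ l, l = i ∨ l = j ∨ l = k := by
  revert i; decide

section half

variable {N g : ℕ} [NeZero N] (hN : N = 2 * (3 * g))
include hN

theorem isHalf_vecL (l : Option (ZMod 2)) : IsHalfPt N g (vecL g l) := by
  have hg0 := g_pos' hN
  have hnd : ¬ (N : ℤ) ∣ ((3 * g : ℕ) : ℤ) := fun h => by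
    have := Int.le_of_dvd (by omega) h; omega
  rcases optTwo_cases l with rfl | rfl | rfl
  · exact ⟨dvd_zero _, dvd_rfl, fun h => hnd (by simpa [vecL] using h.2)⟩
  · exact ⟨dvd_rfl, dvd_mul_right _ _, fun h => hnd (by simpa [vecL] using h.1)⟩
  · exact ⟨dvd_rfl, dvd_mul_right _ _, fun h => hnd (by simpa [vecL] using h.1)⟩

theorem apart_vecL {l l' : Option (ZMod 2)} (h : l ≠ l') : Apart N (vecL g l) (vecL g l') := by
  have hg0 := g_pos' hN
  have hnd : ¬ (N : ℤ) ∣ ((3 * g : ℕ) : ℤ) := fun h => by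
    have := Int.le_of_dvd (by omega) h; omega
  have hnd' : ¬ (N : ℤ) ∣ -((3 * g : ℕ) : ℤ) := fun h => hnd (dvd_neg.1 h)
  rcases optTwo_cases l with rfl | rfl | rfl <;> rcases optTwo_cases l' with rfl | rfl | rfl
  all_goals
    first
    | exact absurd rfl h
    | constructor <;>
      · rintro ⟨h1, h2⟩
        simp only [vecL, Prod.fst_sub, Prod.snd_sub, Prod.fst_add, Prod.snd_add, ZMod.val_zero,
          ZMod.val_one, Nat.cast_zero, Nat.cast_one, mul_zero, mul_one, sub_zero, zero_sub,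
          add_zero, zero_add] at h1 h2
        first
          | exact hnd h1 | exact hnd' h1 | exact hnd h2 | exact hnd' h2

end half

variable [Algebra Qb ℂ] {A : ValuationSubring Qb} {N g : ℕ} [NeZero N]
  (hζ : ∀ b : ℤ, eta N b ∈ constK A 2) {ϖ : baseO A (constL A 2).toSubfield}
  (hA : A.LiesOverPrime 2) (hN : N = 2 * (3 * g)) (hg : ¬ 2 ∣ 3 * g)
  (hC : ConstHyp A (constL A 2).toSubfield ϖ)

/-- The function of level two of a line. -/
def Fl (l : Option (ZMod 2)) : flN N (constK A 2) :=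
  toFl (fR hN hζ (vecL g l) (isHalf_vecL hN l))

/-- `μ³ - 1`. -/
def aF : flN N (constK A 2) := muF hζ hN ^ 3 - 1

/-- The small root in the finite chart. -/
def Sl (l : Option (ZMod 2)) : flN N (constK A 2) :=
  2 * aF hζ hN / (3 * muF hζ hN - Fl hζ hN l)

/-- `Sl` in the chart at infinity. -/
def Ul (l : Option (ZMod 2)) : flN N (constK A 2) := Sl hζ hN l * (muF hζ hN)⁻¹ ^ 2

/-- The label in the two charts. -/
def phiL (b : Bool) (l : Option (ZMod 2)) : flN N (constK A 2) :=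
  Fl hζ hN l * (bif b then (muF hζ hN)⁻¹ else 1)

theorem Fl_cubic (l : Option (ZMod 2)) :
    Fl hζ hN l * (Fl hζ hN l - 3 * muF hζ hN) ^ 2 = 4 * aF hζ hN := by
  have h := congrArg (toFl (N := N) (K := constK A 2)) (fR_cubic hN hζ (isHalf_vecL hN l))
  simpa [Fl, aF, muF, map_mul, map_sub, map_pow, map_ofNat] using h

theorem Fl_injective : Function.Injective (Fl hζ hN) := fun l l' h => by
  by_contra hne
  have h1 := congrArg (rEv UpperHalfPlane.I) (toFl_injective h)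
  simp only [fR, map_mul, rEv_ratHol] at h1
  have hm : rEv UpperHalfPlane.I (muR hN hζ - 1) ≠ 0 := by
    rw [muR_sub_one, map_neg, map_mul, rEv_rC, rEv_ratHol, neg_ne_zero]
    refine mul_ne_zero ?_ (div_ne_zero
      (sub_ne_zero.2 (wpAt_ne _ (isVec_pA hN) (isVec_pB hN 1) ?_))
      (sub_ne_zero.2 (wpAt_ne _ (isVec_pB hN 0) (isVec_pB hN 1) (apart_pB hN (by norm_num)))))
    · intro h0
      have h3 : (3 : constK A 2) = 0 := by
        have := omK_root hN hζ
        rw [← show (1 : constK A 2) = omK hN hζ from Subtype.ext (sub_eq_zero.1 h0)] at this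
        linear_combination this
      norm_num at h3
    · obtain ⟨x, y⟩ := apart_pB_pA hN (g := g) 1
      refine ⟨fun hd => x ?_, fun hd => y ?_⟩
      · exact ⟨by simpa using hd.1.neg_right, by simpa using hd.2.neg_right⟩
      · rwa [add_comm] at hd
  have h2 := mul_left_cancel₀ hm h1
  have hA0 := fun l => sub_ne_zero.2 (wpAt_ne UpperHalfPlane.I (isHalf_vecL hN l).2.2 (isVec_pA hN)
    ((isHalf_vecL hN l).apart_pA hN))
  have hB : wpAt N UpperHalfPlane.I (pB g 0) - wpAt N UpperHalfPlane.I (pA g) ≠ 0 :=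
    sub_ne_zero.2 (wpAt_ne _ (isVec_pB hN 0) (isVec_pA hN) (apart_pB_pA hN 0))
  rw [div_eq_div_iff (hA0 l) (hA0 l')] at h2
  exact wpAt_ne _ (isHalf_vecL hN l').2.2 (isHalf_vecL hN l).2.2 (apart_vecL hN (Ne.symm hne))
    (by linear_combination mul_left_cancel₀ hB h2)

variable {i j k : Option (ZMod 2)} (hij : i ≠ j) (hik : i ≠ k) (hjk : j ≠ k)

include hij hik hjk in
/-- The symmetric functions. -/
theorem Fl_vieta : Fl hζ hN i + Fl hζ hN j + Fl hζ hN k = 6 * muF hζ hN ∧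
    Fl hζ hN i * Fl hζ hN j + Fl hζ hN i * Fl hζ hN k + Fl hζ hN j * Fl hζ hN k =
      9 * muF hζ hN ^ 2 ∧
    Fl hζ hN i * Fl hζ hN j * Fl hζ hN k = 4 * aF hζ hN := by
  have ei := Fl_cubic hζ hN i
  have ej := Fl_cubic hζ hN j
  have ek := Fl_cubic hζ hN k
  have nij := sub_ne_zero.2 ((Fl_injective hζ hN).ne hij)
  have nik := sub_ne_zero.2 ((Fl_injective hζ hN).ne hik)
  have njk := sub_ne_zero.2 ((Fl_injective hζ hN).ne hjk)
  set x := Fl hζ hN i; set y := Fl hζ hN j; set z := Fl hζ hN k; set m := muF hζ hN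
  have qij : x ^ 2 + x * y + y ^ 2 - 6 * m * (x + y) + 9 * m ^ 2 = 0 :=
    mul_left_cancel₀ nij (by linear_combination ei - ej)
  have qik : x ^ 2 + x * z + z ^ 2 - 6 * m * (x + z) + 9 * m ^ 2 = 0 :=
    mul_left_cancel₀ nik (by linear_combination ei - ek)
  have hs : x + y + z - 6 * m = 0 := mul_left_cancel₀ njk (by linear_combination qij - qik)
  refine ⟨by linear_combination hs, by linear_combination -qij + (x + y) * hs, ?_⟩
  linear_combination ei + x * y * hs - x * qij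

theorem aF_ne_zero (hC' : aR hζ hN ≠ 0) : aF hζ hN ≠ 0 := by
  have : toFl (aR hζ hN) = aF hζ hN := by simp [aR, aF, muF]
  rw [← this]
  exact (map_ne_zero_iff _ toFl_injective).2 hC'

include hA hN hg hC

theorem aF_ne : aF hζ hN ≠ 0 := aF_ne_zero hζ hN (aR_ne_zero hζ hA hN hg hC)

theorem muF_ne : muF hζ hN ≠ 0 := z_ne_zero hC (twoCoord hζ hA hN hg hC)

theorem den_Sl_ne (l : Option (ZMod 2)) : 3 * muF hζ hN - Fl hζ hN l ≠ 0 := fun h => by
  have e := Fl_cubic hζ hN l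
  rw [← sub_eq_zero.1 h, sub_self, zero_pow two_ne_zero, mul_zero] at e
  refine mul_ne_zero ?_ (aF_ne hζ hA hN hg hC) e.symm
  rw [← map_ofNat ((toFl (N := N) (K := constK A 2)).comp rC) 4]
  exact (_root_.map_ne_zero _).2 (by norm_num)

theorem Fl_eq (l : Option (ZMod 2)) : Fl hζ hN l * aF hζ hN = Sl hζ hN l ^ 2 := by
  rw [Sl, div_pow, eq_div_iff (pow_ne_zero 2 (den_Sl_ne hζ hA hN hg hC l))]
  linear_combination aF hζ hN * Fl_cubic hζ hN l

theorem Sl_cubic (l : Option (ZMod 2)) : Sl hζ hN l ^ 3 - 3 * muF hζ hN * aF hζ hN * Sl hζ hN l +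
    2 * aF hζ hN ^ 2 = 0 := by
  have h : Sl hζ hN l * (3 * muF hζ hN - Fl hζ hN l) = 2 * aF hζ hN :=
    div_mul_cancel₀ _ (den_Sl_ne hζ hA hN hg hC l)
  linear_combination -(aF hζ hN) * h - Sl hζ hN l * Fl_eq hζ hA hN hg hC l

theorem Sl_injective : Function.Injective (Sl hζ hN) := fun l l' h => Fl_injective hζ hN
  (mul_right_cancel₀ (aF_ne hζ hA hN hg hC)
    (by rw [Fl_eq hζ hA hN hg hC, Fl_eq hζ hA hN hg hC, h]))

include hij hik hjk in
theorem Sl_vieta : Sl hζ hN i + Sl hζ hN j + Sl hζ hN k = 0 ∧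
    Sl hζ hN i * Sl hζ hN j + Sl hζ hN i * Sl hζ hN k + Sl hζ hN j * Sl hζ hN k =
      -(3 * muF hζ hN * aF hζ hN) ∧
    Sl hζ hN i * Sl hζ hN j * Sl hζ hN k = -(2 * aF hζ hN ^ 2) := by
  have inj := Sl_injective hζ hA hN hg hC
  have ei := Sl_cubic hζ hA hN hg hC i
  have ej := Sl_cubic hζ hA hN hg hC j
  have ek := Sl_cubic hζ hA hN hg hC k
  have nij := sub_ne_zero.2 (inj.ne hij)
  have nik := sub_ne_zero.2 (inj.ne hik)
  have njk := sub_ne_zero.2 (inj.ne hjk)
  set x := Sl hζ hN i; set y := Sl hζ hN j; set z := Sl hζ hN k; set m := muF hζ hN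
  set a := aF hζ hN
  have qij : x ^ 2 + x * y + y ^ 2 - 3 * m * a = 0 :=
    mul_left_cancel₀ nij (by linear_combination ei - ej)
  have qik : x ^ 2 + x * z + z ^ 2 - 3 * m * a = 0 :=
    mul_left_cancel₀ nik (by linear_combination ei - ek)
  have hs : x + y + z = 0 := mul_left_cancel₀ njk (by linear_combination qij - qik)
  refine ⟨hs, by linear_combination -qij + (x + y) * hs, ?_⟩
  linear_combination ei + x * y * hs - x * qij

theorem Ul_cubic (l : Option (ZMod 2)) : Ul hζ hN l ^ 3 -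
    3 * (1 - (muF hζ hN)⁻¹ ^ 3) * Ul hζ hN l + 2 * (1 - (muF hζ hN)⁻¹ ^ 3) ^ 2 = 0 := by
  have hμ := muF_ne hζ hA hN hg hC
  have e : 1 - (muF hζ hN)⁻¹ ^ 3 = aF hζ hN * (muF hζ hN)⁻¹ ^ 3 := by
    rw [aF]; field_simp
  have h1 : (muF hζ hN)⁻¹ * muF hζ hN = 1 := inv_mul_cancel₀ hμ
  rw [Ul, e]
  linear_combination (muF hζ hN)⁻¹ ^ 6 * Sl_cubic hζ hA hN hg hC l +
    3 * aF hζ hN * Sl hζ hN l * (muF hζ hN)⁻¹ ^ 5 * h1

/-! ### Integrality -/

omit hA hN hg hC

theorem coordB_mem (z : flN N (constK A 2)) (b : Bool) :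
    coordB A 2 z b ∈ chartF A 2 (coordB A 2 z b) :=
  ⟨X - Polynomial.C X, monic_X_sub_C _, by simp⟩

theorem mem_chartF_self (w : flN N (constK A 2)) : w ∈ chartF A 2 w :=
  ⟨X - Polynomial.C X, monic_X_sub_C _, by simp⟩

theorem cF_mem_chartF (c : baseO A (constL A 2).toSubfield) (w : flN N (constK A 2)) :
    cF A 2 N c ∈ chartF A 2 w :=
  ⟨X - Polynomial.C (Polynomial.C c), monic_X_sub_C _, by simp⟩

/-- The chart is integrally closed. -/
theorem mem_chartF_of_cubic {w x c₂ c₁ c₀ : flN N (constK A 2)} (h₂ : c₂ ∈ chartF A 2 w)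
    (h₁ : c₁ ∈ chartF A 2 w) (h₀ : c₀ ∈ chartF A 2 w)
    (h : x ^ 3 + c₂ * x ^ 2 + c₁ * x + c₀ = 0) : x ∈ chartF A 2 w := by
  letI : Algebra (baseO A (constL A 2).toSubfield)[X] (flN N (constK A 2)) :=
    (eval₂RingHom (cF A 2 N) w).toAlgebra
  set R' := integralClosure (baseO A (constL A 2).toSubfield)[X] (flN N (constK A 2))
  have hx : IsIntegral R' x := by
    refine ⟨X ^ 3 + Polynomial.C (⟨c₂, h₂⟩ : R') * X ^ 2 + Polynomial.C ⟨c₁, h₁⟩ * X +
      Polynomial.C ⟨c₀, h₀⟩, by monicity!, ?_⟩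
    simpa [eval₂_add, eval₂_mul, eval₂_pow, eval₂_X, eval₂_C] using h
  exact isIntegral_trans x hx

include hA hN hg hC

theorem Fl_mem (l : Option (ZMod 2)) : Fl hζ hN l ∈ chartF A 2 (muF hζ hN) := by
  have hμ := mem_chartF_self (A := A) (muF hζ hN)
  refine mem_chartF_of_cubic (c₂ := -(6 * muF hζ hN)) (c₁ := 9 * muF hζ hN ^ 2)
    (c₀ := -(4 * aF hζ hN)) (neg_mem (mul_mem (ofNat_mem _ 6) hμ))
    (mul_mem (ofNat_mem _ 9) (pow_mem hμ 2))
    (neg_mem (mul_mem (ofNat_mem _ 4) (sub_mem (pow_mem hμ 3) (one_mem _)))) ?_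
  linear_combination Fl_cubic hζ hN l

theorem phiL_mem (b : Bool) (l : Option (ZMod 2)) :
    phiL hζ hN b l ∈ chartF A 2 (coordB A 2 (muF hζ hN) b) := by
  cases b with
  | false => simpa [phiL, coordB] using Fl_mem hζ hA hN hg hC l
  | true =>
    have hw := mem_chartF_self (A := A) (muF hζ hN)⁻¹
    refine mem_chartF_of_cubic (c₂ := -6) (c₁ := 9) (c₀ := -(4 * (1 - (muF hζ hN)⁻¹ ^ 3)))
      (neg_mem (ofNat_mem _ 6)) (ofNat_mem _ 9)
      (neg_mem (mul_mem (ofNat_mem _ 4) (sub_mem (one_mem _) (pow_mem hw 3)))) ?_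
    have hμ := muF_ne hζ hA hN hg hC
    have h1 : (muF hζ hN)⁻¹ * muF hζ hN = 1 := inv_mul_cancel₀ hμ
    simp only [phiL, cond_true]
    have h3 := Fl_cubic hζ hN l
    rw [aF] at h3
    linear_combination (muF hζ hN)⁻¹ ^ 3 * h3 +
      (6 * (Fl hζ hN l) ^ 2 * (muF hζ hN)⁻¹ ^ 2 -
        9 * Fl hζ hN l * (muF hζ hN)⁻¹ * ((muF hζ hN)⁻¹ * muF hζ hN + 1) +
        4 * (((muF hζ hN)⁻¹ * muF hζ hN) ^ 2 + (muF hζ hN)⁻¹ * muF hζ hN + 1)) * h1

theorem Sl_mem (l : Option (ZMod 2)) : Sl hζ hN l ∈ chartF A 2 (muF hζ hN) := by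
  have hμ := mem_chartF_self (A := A) (muF hζ hN)
  have ha : aF hζ hN ∈ chartF A 2 (muF hζ hN) := sub_mem (pow_mem hμ 3) (one_mem _)
  refine mem_chartF_of_cubic (c₂ := 0) (c₁ := -(3 * muF hζ hN * aF hζ hN))
    (c₀ := 2 * aF hζ hN ^ 2) (zero_mem _) (neg_mem (mul_mem (mul_mem (ofNat_mem _ 3) hμ) ha))
    (mul_mem (ofNat_mem _ 2) (pow_mem ha 2)) ?_
  linear_combination Sl_cubic hζ hA hN hg hC l

theorem Ul_mem (l : Option (ZMod 2)) : Ul hζ hN l ∈ chartF A 2 (muF hζ hN)⁻¹ := by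
  have hw := mem_chartF_self (A := A) (muF hζ hN)⁻¹
  have hb : 1 - (muF hζ hN)⁻¹ ^ 3 ∈ chartF A 2 (muF hζ hN)⁻¹ :=
    sub_mem (one_mem _) (pow_mem hw 3)
  refine mem_chartF_of_cubic (c₂ := 0) (c₁ := -(3 * (1 - (muF hζ hN)⁻¹ ^ 3)))
    (c₀ := 2 * (1 - (muF hζ hN)⁻¹ ^ 3) ^ 2) (zero_mem _)
    (neg_mem (mul_mem (ofNat_mem _ 3) hb)) (mul_mem (ofNat_mem _ 2) (pow_mem hb 2)) ?_
  linear_combination Ul_cubic hζ hA hN hg hC l

/-! ### On a component -/

variable {W : ValuationSubring (flN N (constK A 2))} (hW : IsVertF A 2 ϖ (muF hζ hN) W)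
include hW

omit hg in
theorem val_two_lt : W.valuation (2 : flN N (constK A 2)) < 1 := by
  obtain ⟨c, hc⟩ := (pi_dvd_iff hC).2 (resO_two hA)
  rw [← map_ofNat (cF A 2 N) 2, hc, map_mul, map_mul]
  refine mul_lt_one_of_lt_of_le hW.1 ?_
  have h := mem_of_isVertF false hC hW (cF_mem_chartF c _)
  exact (W.valuation_le_one_iff _).2 h

theorem mem_vert_false {x : flN N (constK A 2)} (hx : x ∈ chartF A 2 (muF hζ hN)) : x ∈ W :=
  mem_of_isVertF false hC hW hx

theorem val_unit_mu_a : W.valuation (muF hζ hN) = 1 ∧ W.valuation (aF hζ hN) = 1 ∧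
    W.valuation (3 : flN N (constK A 2)) = 1 := by
  refine ⟨?_, ?_, ?_⟩
  · simpa using hW.2 X ⟨1, by simp⟩
  · have := hW.2 (X ^ 3 - 1) ⟨3, by simp [Polynomial.coeff_one]⟩
    simpa [aF] using this
  · have := hW.2 (Polynomial.C 3) ⟨0, by
      rw [Polynomial.coeff_C_zero]
      refine isUnit_of_resT_ne hC ?_
      rw [show (3 : baseO A (constL A 2).toSubfield) = 2 + 1 by norm_num, map_add, resO_two hA,
        zero_add, map_one]
      exact one_ne_zero⟩
    rw [eval₂_C, map_ofNat] at this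
    exact this

theorem val_Fl_iff (l : Option (ZMod 2)) :
    W.valuation (Fl hζ hN l) < 1 ↔ W.valuation (Sl hζ hN l) < 1 := by
  have h := congrArg W.valuation (Fl_eq hζ hA hN hg hC l)
  rw [map_mul, map_pow, (val_unit_mu_a hζ hA hN hg hC hW).2.1, mul_one] at h
  rw [h]
  exact pow_lt_one_iff_of_nonneg zero_le two_ne_zero

/-- **Exactly one label is small.** -/
theorem existsUnique_label : ∃! l, W.valuation (Fl hζ hN l) < 1 := by
  obtain ⟨hm, ha, h3⟩ := val_unit_mu_a hζ hA hN hg hC hW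
  have h2 := val_two_lt hζ hA hN hC hW
  have hle : ∀ l, W.valuation (Sl hζ hN l) ≤ 1 := fun l => (W.valuation_le_one_iff _).2
    (mem_vert_false hζ hA hN hg hC hW (Sl_mem hζ hA hN hg hC l))
  have hone : ∀ l l', l ≠ l' → W.valuation (Sl hζ hN l) < 1 → ¬ W.valuation (Sl hζ hN l') < 1 := by
    intro l l' hne h h'
    obtain ⟨k, hk⟩ :=
      (show ∀ a b : Option (ZMod 2), a ≠ b → ∃ k, a ≠ k ∧ b ≠ k by decide) l l' hne
    have e := congrArg W.valuation (Sl_vieta hζ hA hN hg hC hne hk.1 hk.2).2.1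
    rw [Valuation.map_neg, map_mul, map_mul, hm, ha, h3, one_mul, one_mul] at e
    refine (lt_irrefl (1 : W.ValueGroup)) ?_
    nth_rw 1 [← e]
    refine Valuation.map_add_lt _ (Valuation.map_add_lt _ ?_ ?_) ?_ <;> rw [map_mul]
    · exact mul_lt_one_of_lt_of_le h (hle _)
    · exact mul_lt_one_of_lt_of_le h (hle _)
    · exact mul_lt_one_of_lt_of_le h' (hle _)
  obtain ⟨l, hl⟩ : ∃ l, W.valuation (Sl hζ hN l) < 1 := by
    by_contra hno
    push Not at hno
    have hu := fun l => le_antisymm (hle l) (hno l)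
    obtain ⟨j, k, h1, h2', h3', -⟩ := optTwo_others none
    have e := congrArg W.valuation (Sl_vieta hζ hA hN hg hC h1 h2' h3').2.2
    rw [map_mul, map_mul, hu, hu, hu, one_mul, one_mul, Valuation.map_neg, map_mul, map_pow, ha,
      one_pow, mul_one] at e
    exact h2.ne e.symm
  refine ⟨l, (val_Fl_iff hζ hA hN hg hC hW l).2 hl, fun l' hl' => ?_⟩
  by_contra hne
  exact hone l l' (Ne.symm hne) hl ((val_Fl_iff hζ hA hN hg hC hW l').1 hl')

theorem val_phiL_iff (b : Bool) (l : Option (ZMod 2)) :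
    W.valuation (phiL hζ hN b l) < 1 ↔ W.valuation (Fl hζ hN l) < 1 := by
  cases b <;> simp [phiL, (val_unit_mu_a hζ hA hN hg hC hW).1]

/-- **A square root of the coordinate.** -/
theorem exists_sqrt (b : Bool) : ∃ r ∈ chartF A 2 (coordB A 2 (muF hζ hN) b),
    W.valuation (r ^ 2 - coordB A 2 (muF hζ hN) b) < 1 := by
  obtain ⟨i, hi, -⟩ := existsUnique_label hζ hA hN hg hC hW
  rw [val_Fl_iff hζ hA hN hg hC hW] at hi
  obtain ⟨j, k, hij, hik, hjk, -⟩ := optTwo_others i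
  obtain ⟨hs, hp, -⟩ := Sl_vieta hζ hA hN hg hC hij hik hjk
  have hk : Sl hζ hN k = -Sl hζ hN i - Sl hζ hN j := by linear_combination hs
  rw [hk] at hp
  have h2 := val_two_lt hζ hA hN hC hW
  cases b with
  | false =>
    have hμ := mem_chartF_self (A := A) (muF hζ hN)
    have hSi := Sl_mem hζ hA hN hg hC i
    have hSj := Sl_mem hζ hA hN hg hC j
    refine ⟨Sl hζ hN j + muF hζ hN ^ 2, add_mem hSj (pow_mem hμ 2), ?_⟩
    rw [show coordB A 2 (muF hζ hN) false = muF hζ hN from rfl,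
      show (Sl hζ hN j + muF hζ hN ^ 2) ^ 2 - muF hζ hN =
        2 * (2 * (muF hζ hN ^ 4 - muF hζ hN) + muF hζ hN ^ 2 * Sl hζ hN j) +
          Sl hζ hN i * (-(Sl hζ hN i + Sl hζ hN j)) by
        rw [aF] at hp; linear_combination -hp]
    refine Valuation.map_add_lt _ ?_ ?_ <;> rw [map_mul]
    · refine mul_lt_one_of_lt_of_le h2 ((W.valuation_le_one_iff _).2
        (mem_vert_false hζ hA hN hg hC hW (add_mem (mul_mem (ofNat_mem _ 2)
          (sub_mem (pow_mem hμ 4) hμ)) (mul_mem (pow_mem hμ 2) hSj))))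
    · exact mul_lt_one_of_lt_of_le hi ((W.valuation_le_one_iff _).2
        (mem_vert_false hζ hA hN hg hC hW (neg_mem (add_mem hSi hSj))))
  | true =>
    set w := (muF hζ hN)⁻¹
    have hw0 : w ≠ 0 := inv_ne_zero (muF_ne hζ hA hN hg hC)
    have hw := mem_chartF_self (A := A) w
    have hUi := Ul_mem hζ hA hN hg hC i
    have hUj := Ul_mem hζ hA hN hg hC j
    set U := Ul hζ hN j
    set x := (U - 1) * (U + 2) / w
    have hxw : x * w = (U - 1) * (U + 2) := div_mul_cancel₀ _ hw0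
    have hx2 : x ^ 2 = -(w * (3 * U - 4 + 2 * w ^ 3) * (U + 2)) := by
      refine mul_right_cancel₀ (pow_ne_zero 2 hw0) ?_
      linear_combination (x * w + (U - 1) * (U + 2)) * hxw + (U + 2) * Ul_cubic hζ hA hN hg hC j
    have hx : x ∈ chartF A 2 w := by
      refine mem_chartF_of_cubic (c₂ := 0) (c₁ := w * (3 * U - 4 + 2 * w ^ 3) * (U + 2)) (c₀ := 0)
        (zero_mem _) (mul_mem (mul_mem hw (add_mem (sub_mem (mul_mem (ofNat_mem _ 3) hUj)
          (ofNat_mem _ 4)) (mul_mem (ofNat_mem _ 2) (pow_mem hw 3)))) (add_mem hUj (ofNat_mem _ 2)))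
        (zero_mem _) ?_
      linear_combination x * hx2
    refine ⟨x + w ^ 2, add_mem hx (pow_mem hw 2), ?_⟩
    have h1 : w * muF hζ hN = 1 := inv_mul_cancel₀ (muF_ne hζ hA hN hg hC)
    have hUp : U ^ 2 + Ul hζ hN i ^ 2 + Ul hζ hN i * U = 3 * (1 - w ^ 3) := by
      rw [aF] at hp
      simp only [U, Ul]
      linear_combination -(w ^ 4) * hp +
        3 * ((w * muF hζ hN) ^ 3 + (w * muF hζ hN) ^ 2 + w * muF hζ hN + 1) * h1 -
        3 * w ^ 3 * h1
    rw [show coordB A 2 (muF hζ hN) true = w from rfl,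
      show (x + w ^ 2) ^ 2 - w = 2 * (-5 * w + 5 * w ^ 4 - w * (U - 4 + w ^ 3 * U + 2 * w ^ 3) +
          x * w ^ 2) + Ul hζ hN i * (3 * w * (Ul hζ hN i + U)) by
        linear_combination hx2 - 3 * w * hUp]
    have hUi' : W.valuation (Ul hζ hN i) < 1 := by
      rw [Ul, map_mul, map_pow, map_inv₀, (val_unit_mu_a hζ hA hN hg hC hW).1, inv_one, one_pow,
        mul_one]
      exact hi
    have hmem : ∀ y ∈ chartF A 2 w, W.valuation y ≤ 1 := fun y hy =>
      (W.valuation_le_one_iff _).2 (mem_of_isVertF true hC hW hy)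
    refine Valuation.map_add_lt _ ?_ ?_ <;> rw [map_mul]
    · refine mul_lt_one_of_lt_of_le h2 (hmem _ (add_mem (sub_mem (add_mem (mul_mem
        (neg_mem (ofNat_mem _ 5)) hw) (mul_mem (ofNat_mem _ 5) (pow_mem hw 4))) ?_)
        (mul_mem hx (pow_mem hw 2))))
      exact mul_mem hw (add_mem (add_mem (sub_mem hUj (ofNat_mem _ 4))
        (mul_mem (pow_mem hw 3) hUj)) (mul_mem (ofNat_mem _ 2) (pow_mem hw 3)))
    · exact mul_lt_one_of_lt_of_le hUi' (hmem _ (mul_mem (mul_mem (ofNat_mem _ 3) hw)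
        (add_mem hUi hUj)))

end FA.Carayol

end
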