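import Fermat.Agent.Carayol.Vert.Content
import Fermat.Agent.Carayol.Const.Main

/-!
# Integral series with a unit leading coefficient

`IntS S`: the coefficients are integral constants. `LeadS S k`: moreover they vanish below `k` and
the one at `k` has nonzero residue.
-/

set_option autoImplicit false
set_option linter.unusedSectionVars false
set_option linter.style.haveILetI false

noncomputable section

namespace FA.Carayol

open HahnSeries ModularCurve FA.Level FA.ModField FA.Mazur.Wp

local notation "Qb" => AlgebraicClosure ℚ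

variable [Algebra Qb ℂ] (A : ValuationSubring Qb) (q : ℕ)

/-- The series with integral coefficients. -/
def intS : Subring (LaurentSeries (constK A q)) := (serO A q).range

/-- Integral, zero below `k`, with a unit at `k`. -/
def LeadS (S : LaurentSeries (constK A q)) (k : ℤ) : Prop :=
  ∃ a, serO A q a = S ∧ OrdGE k a ∧ resO A q (a.coeff k) ≠ 0

variable {A q}

theorem intS_of_coeff {S : LaurentSeries (constK A q)}
    (h : ∀ i, ∃ c, baseK A q c = S.coeff i) : S ∈ intS A q := by
  choose f hf using h
  refine ⟨{ coeff := f, isPWO_support' := S.isPWO_support.mono fun i hi => ?_ },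
    HahnSeries.ext (funext fun i => ?_)⟩
  · rw [Function.mem_support] at hi
    rw [HahnSeries.mem_support, ← hf i]
    exact (map_ne_zero_iff _ baseK_injective).2 hi
  · simp only [serO, coeffMap_coeff]
    exact hf i

theorem intS_C (c : baseO A (constL A q).toSubfield) :
    HahnSeries.C (baseK A q c) ∈ intS A q := ⟨HahnSeries.C c, serO_C c⟩

theorem LeadS.mem_intS {S : LaurentSeries (constK A q)} {k : ℤ} (h : LeadS A q S k) :
    S ∈ intS A q := let ⟨a, ha, _⟩ := h; ⟨a, ha⟩

theorem LeadS.ordGE {S : LaurentSeries (constK A q)} {k : ℤ} (h : LeadS A q S k) : OrdGE k S := by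
  obtain ⟨a, rfl, ha, -⟩ := h
  intro i hi
  simp only [serO, coeffMap_coeff, ha i hi, map_zero]

theorem LeadS.coeff_ne {S : LaurentSeries (constK A q)} {k : ℤ} (h : LeadS A q S k) :
    S.coeff k ≠ 0 := by
  obtain ⟨a, rfl, -, hk⟩ := h
  simp only [serO, coeffMap_coeff]
  exact (map_ne_zero_iff _ baseK_injective).2 fun e => hk (by rw [e, map_zero])

theorem LeadS.ne_zero {S : LaurentSeries (constK A q)} {k : ℤ} (h : LeadS A q S k) : S ≠ 0 :=
  fun e => h.coeff_ne (by rw [e, coeff_zero])

theorem LeadS.order_eq {S : LaurentSeries (constK A q)} {k : ℤ} (h : LeadS A q S k) :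
    S.order = k :=
  le_antisymm (order_le_of_coeff_ne_zero h.coeff_ne) ((ordGE_iff_le_order h.ne_zero).1 h.ordGE)

theorem coeff_mul_lowest {R : Type*} [CommRing R] {a b : LaurentSeries R} {i j : ℤ}
    (ha : OrdGE i a) (hb : OrdGE j b) : (a * b).coeff (i + j) = a.coeff i * b.coeff j := by
  rw [coeff_mul]
  refine Finset.sum_eq_single (i, j) (fun p hp hne => ?_) fun hn => ?_
  · simp only [Finset.mem_antidiagonal, mem_support] at hp
    obtain ⟨h1, h2, h3⟩ := hp
    have e1 : i ≤ p.1 := not_lt.1 fun hl => h1 (ha _ hl)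
    have e2 : j ≤ p.2 := not_lt.1 fun hl => h2 (hb _ hl)
    exact absurd (Prod.ext (show p.1 = i by omega) (show p.2 = j by omega)) hne
  · simp only [Finset.mem_antidiagonal, mem_support, not_and, not_true_eq_false] at hn
    by_cases h1 : a.coeff i = 0
    · rw [h1, zero_mul]
    · by_cases h2 : b.coeff j = 0
      · rw [h2, mul_zero]
      · exact (hn h1 h2).elim

theorem LeadS.mul {S T : LaurentSeries (constK A q)} {i j : ℤ} (h : LeadS A q S i)
    (h' : LeadS A q T j) : LeadS A q (S * T) (i + j) := by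
  obtain ⟨a, rfl, ha, hi⟩ := h
  obtain ⟨b, rfl, hb, hj⟩ := h'
  refine ⟨a * b, map_mul _ _ _, ha.mul hb, ?_⟩
  rw [coeff_mul_lowest ha hb, map_mul]
  exact mul_ne_zero hi hj

theorem leadS_one : LeadS A q 1 0 := ⟨1, map_one _, ordGE_one, by simp⟩

theorem LeadS.pow {S : LaurentSeries (constK A q)} {i : ℤ} (h : LeadS A q S i) :
    ∀ n : ℕ, LeadS A q (S ^ n) (n * i)
  | 0 => by simpa using leadS_one
  | n + 1 => by
    rw [pow_succ, Nat.cast_succ, add_mul, one_mul]
    exact (h.pow n).mul h

theorem LeadS.prod {ι : Type*} {s : Finset ι} {S : ι → LaurentSeries (constK A q)} {k : ι → ℤ}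
    (h : ∀ x ∈ s, LeadS A q (S x) (k x)) : LeadS A q (∏ x ∈ s, S x) (∑ x ∈ s, k x) := by
  classical
  induction s using Finset.induction with
  | empty => simpa using leadS_one
  | insert x s hx ih =>
    rw [Finset.prod_insert hx, Finset.sum_insert hx]
    exact (h x (Finset.mem_insert_self x s)).mul (ih fun y hy => h y (Finset.mem_insert_of_mem hy))

theorem LeadS.neg {S : LaurentSeries (constK A q)} {i : ℤ} (h : LeadS A q S i) :
    LeadS A q (-S) i := by
  obtain ⟨a, rfl, ha, hi⟩ := h
  exact ⟨-a, map_neg _ _, ha.neg, by rw [coeff_neg, map_neg]; exact neg_ne_zero.2 hi⟩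

theorem LeadS.add_higher {S T : LaurentSeries (constK A q)} {i : ℤ} (h : LeadS A q S i)
    (hT : T ∈ intS A q) (hT' : OrdGE (i + 1) T) : LeadS A q (S + T) i := by
  obtain ⟨a, rfl, ha, hi⟩ := h
  obtain ⟨b, rfl⟩ := hT
  have hb : OrdGE (i + 1) b := fun j hj => baseK_injective (by
    have := hT' j hj
    simp only [serO, coeffMap_coeff] at this
    rw [this, map_zero])
  exact ⟨a + b, map_add _ _ _, ha.add (hb.mono (by omega)),
    by rwa [coeff_add, hb i (by omega), add_zero]⟩

/-- From the coefficients. -/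
theorem leadS_of_coeff {S : LaurentSeries (constK A q)} {k : ℤ} (hS : S ∈ intS A q)
    (h0 : OrdGE k S) {c : baseO A (constL A q).toSubfield} (hc : baseK A q c = S.coeff k)
    (hres : resO A q c ≠ 0) : LeadS A q S k := by
  obtain ⟨a, rfl⟩ := hS
  simp only [serO, coeffMap_coeff] at hc
  refine ⟨a, rfl, fun i hi => baseK_injective ?_, by rwa [← baseK_injective hc]⟩
  have := h0 i hi
  simp only [serO, coeffMap_coeff] at this
  rw [this, map_zero]

theorem leadS_C {c : baseO A (constL A q).toSubfield} (hc : resO A q c ≠ 0) :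
    LeadS A q (HahnSeries.C (baseK A q c)) 0 :=
  ⟨HahnSeries.C c, serO_C c, ordGE_C c, by simpa [HahnSeries.C_apply] using hc⟩

/-- The reduction has the same order. -/
theorem LeadS.exists_red {S : LaurentSeries (constK A q)} {k : ℤ} (h : LeadS A q S k) :
    ∃ a, serO A q a = S ∧ redO A q a ≠ 0 ∧ (redO A q a).order = k := by
  obtain ⟨a, ha, h1, h2⟩ := h
  have hne : (redO A q a).coeff k ≠ 0 := by simpa [redO] using h2
  have hne' : redO A q a ≠ 0 := fun e => hne (by rw [e, coeff_zero])
  exact ⟨a, ha, hne', le_antisymm (order_le_of_coeff_ne_zero hne)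
    ((ordGE_iff_le_order hne').1 fun i hi => by simp [redO, h1 i hi])⟩

variable {ϖ : baseO A (constL A q).toSubfield} (hC : ConstHyp A (constL A q).toSubfield ϖ)
include hC

/-- An integral constant with nonzero residue is a unit. -/
theorem isUnit_of_resT_ne {c : baseO A (constL A q).toSubfield} (hc : resO A q c ≠ 0) :
    IsUnit c := by
  haveI := hC.dvr
  by_contra h
  obtain ⟨d, rfl⟩ : ϖ ∣ c := by
    rw [← Ideal.mem_span_singleton,
      ← IsDiscreteValuationRing.irreducible_iff_uniformizer _ |>.1 hC.irreducible]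
    exact (IsLocalRing.mem_maximalIdeal _).2 h
  exact hc (by rw [map_mul, resO_pi hC, zero_mul])

theorem LeadS.inv {S : LaurentSeries (constK A q)} {k : ℤ} (h : LeadS A q S k) :
    LeadS A q S⁻¹ (-k) := by
  obtain ⟨a, rfl, ha, hk⟩ := h
  have hne : a.coeff k ≠ 0 := fun e => hk (by rw [e, map_zero])
  have hne' : a ≠ 0 := fun e => hne (by rw [e, coeff_zero])
  have ho : a.order = k :=
    le_antisymm (order_le_of_coeff_ne_zero hne) ((ordGE_iff_le_order hne').1 ha)
  have hu : IsUnit a := by
    rw [HahnSeries.isUnit_iff, HahnSeries.leadingCoeff_eq, ho]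
    exact isUnit_of_resT_ne hC hk
  obtain ⟨b, hb⟩ := hu.exists_right_inv
  have hb0 : b ≠ 0 := fun e => by simp [e] at hb
  have hob : b.order = -k := by
    have := order_mul hne' hb0
    rw [hb, order_one, ho] at this
    omega
  refine ⟨b, eq_inv_of_mul_eq_one_right (by rw [← map_mul, hb, map_one]), hob ▸ ordGE_order b, ?_⟩
  have h1 := coeff_mul_lowest ha (hob ▸ ordGE_order b : OrdGE (-k) b)
  rw [add_neg_cancel, hb, coeff_one, if_pos rfl] at h1
  intro e
  have h2 := congrArg (resO A q) h1
  rw [map_one, map_mul, e, mul_zero] at h2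
  exact one_ne_zero h2

/-- A constant whose series is integral is integral. -/
theorem exists_baseK_of_C_mem {c : constK A q} (h : HahnSeries.C c ∈ intS A q) :
    ∃ a, baseK A q a = c := by
  obtain ⟨a, ha⟩ := h
  refine ⟨a.coeff 0, ?_⟩
  have := congrArg (fun s : LaurentSeries (constK A q) => s.coeff 0) ha
  simpa [serO, HahnSeries.C_apply] using this

end FA.Carayol

end
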