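import Fermat.Agent.Carayol.Curve.Lattice

/-!
# Abscissae of points of order three relative to one of them, and the two-torsion

`A` of order three, `P = ℘ A`, `R = ℘'' A`, `Q = ℘' A ^ 2`. The differences `x` with the other
three satisfy `x³ + 4 P x² + R x + Q = 0`, those with the points of order two
`4 x³ + 12 P x² + 2 R x + Q = 0`.
-/

set_option autoImplicit false
set_option linter.unusedSectionVars false
set_option linter.style.haveILetI false

noncomputable section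

namespace FA.Carayol

open WeierstrassCurve FA.Mazur.Wp

/-- **A point of order three is a flex.** -/
theorem flex_wp (L : PeriodPair) [(latCurve L).IsElliptic] {z : ℂ} (hz : z ∉ L.lattice)
    (h3 : z + z + z ∈ L.lattice) :
    L.derivWeierstrassP z ≠ 0 ∧ (6 * L.weierstrassP z ^ 2 - L.g₂ / 2) ^ 2 =
      12 * L.weierstrassP z * L.derivWeierstrassP z ^ 2 := by
  classical
  have hnn : ¬ z + z ∈ L.lattice := fun h => hz (by simpa using sub_mem h3 h)
  have hne : unif L z ≠ -unif L z := fun e => hnn (by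
    rw [← unif_neg, unif_eq_unif_iff] at e
    simpa using e)
  have hsum : unif L z + unif L z = -unif L z := by
    rw [eq_neg_iff_add_eq_zero, ← unif_add, ← unif_add, unif_eq_zero_iff]
    exact h3
  rw [unif_of_notMem L hz, Affine.Point.neg_some] at hne hsum
  have hy : L.derivWeierstrassP z / 2 ≠
      (latCurve L).toAffine.negY (L.weierstrassP z) (L.derivWeierstrassP z / 2) := fun e => hne (by
    simp only [Affine.Point.some.injEq]
    exact ⟨trivial, e⟩)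
  have hw : L.derivWeierstrassP z ≠ 0 := fun h0 => hy (by
    simp [Affine.negY, latCurve, h0])
  rw [Affine.Point.add_self_of_Y_ne hy] at hsum
  simp only [Affine.Point.some.injEq] at hsum
  refine ⟨hw, ?_⟩
  have h1 := hsum.1
  rw [Affine.slope_of_Y_ne rfl hy] at h1
  simp only [Affine.addX, Affine.negY, latCurve, zero_mul, mul_zero, sub_zero, add_zero, sub_neg_eq_add, add_halves] at h1
  field_simp at h1
  linear_combination h1 / 4

section algebra

variable {k : Type*} [Field k] {P R Q : k}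

theorem thirds_root {x : k} (h12 : (12 : k) ≠ 0) (hR : R ^ 2 = 12 * P * Q) (hx : x ≠ 0)
    (h : (6 * x ^ 2 + 12 * P * x + R) ^ 2 =
      12 * (x + P) * (4 * x ^ 3 + 12 * P * x ^ 2 + 2 * R * x + Q)) :
    x ^ 3 + 4 * P * x ^ 2 + R * x + Q = 0 := by
  refine mul_left_cancel₀ (mul_ne_zero h12 hx) ?_
  rw [mul_zero]
  linear_combination -h + hR

theorem thirds_vieta {x0 x1 x2 : k} (h01 : x0 ≠ x1) (h02 : x0 ≠ x2) (h12 : x1 ≠ x2)
    (e0 : x0 ^ 3 + 4 * P * x0 ^ 2 + R * x0 + Q = 0) (e1 : x1 ^ 3 + 4 * P * x1 ^ 2 + R * x1 + Q = 0)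
    (e2 : x2 ^ 3 + 4 * P * x2 ^ 2 + R * x2 + Q = 0) :
    x0 + x1 + x2 = -(4 * P) ∧ x0 * x1 + x0 * x2 + x1 * x2 = R ∧ x0 * x1 * x2 = -Q := by
  have k1 : x0 ^ 2 + x0 * x1 + x1 ^ 2 + 4 * P * (x0 + x1) + R = 0 := by
    refine mul_left_cancel₀ (sub_ne_zero.2 h01) ?_
    rw [mul_zero]
    linear_combination e0 - e1
  have k2 : x0 ^ 2 + x0 * x2 + x2 ^ 2 + 4 * P * (x0 + x2) + R = 0 := by
    refine mul_left_cancel₀ (sub_ne_zero.2 h02) ?_
    rw [mul_zero]
    linear_combination e0 - e2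
  have k3 : x0 + x1 + x2 = -(4 * P) := by
    refine mul_left_cancel₀ (sub_ne_zero.2 h12) ?_
    linear_combination k1 - k2
  refine ⟨k3, ?_, ?_⟩
  · linear_combination -k1 + (x0 + x1) * k3
  · linear_combination e0 - x0 * k1 + x0 * x1 * k3

/-- One of the two linear forms in the reciprocals vanishes. -/
theorem thirds_orient {ω x0 x1 x2 : k} (hω : ω ^ 2 + ω + 1 = 0) (hR : R ^ 2 = 12 * P * Q)
    (hs : x0 + x1 + x2 = -(4 * P)) (hp : x0 * x1 + x0 * x2 + x1 * x2 = R)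
    (hq : x0 * x1 * x2 = -Q) :
    (x1 * x2 + ω * (x0 * x2) + ω ^ 2 * (x0 * x1)) *
      (x1 * x2 + ω ^ 2 * (x0 * x2) + ω * (x0 * x1)) = 0 := by
  linear_combination (x1 * x2 * (x0 * x1 + x0 * x2) + (x0 * x2) * (x0 * x1) * ω ^ 2 +
      ((x0 * x2) ^ 2 + (x0 * x1) ^ 2) * (ω - 1) + (x0 * x2) * (x0 * x1) * (1 - ω)) * hω + hR + (R + x0 * x1 + x0 * x2 + x1 * x2) * hp -
      3 * (x0 * x1 * x2) * hs + 12 * P * hq

/-- **The coordinate of level three and the cubic of the two-torsion.** -/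
theorem level3_identities {ω x0 x1 x2 x : k} (h3 : (3 : k) ≠ 0)
    (hω : ω ^ 2 + ω + 1 = 0) (n0 : x0 ≠ 0) (n1 : x1 ≠ 0) (n2 : x2 ≠ 0) (nx : x ≠ 0)
    (h01 : x0 ≠ x1)
    (hs : x0 + x1 + x2 = -(4 * P)) (hp : x0 * x1 + x0 * x2 + x1 * x2 = R)
    (hq : x0 * x1 * x2 = -Q)
    (hE : x1 * x2 + ω * (x0 * x2) + ω ^ 2 * (x0 * x1) = 0)
    (hx : 4 * x ^ 3 + 12 * P * x ^ 2 + 2 * R * x + Q = 0) {μ F : k}
    (hμ : μ = 1 + (1 - ω) * (x1 / (x0 - x1))) (hF : F = (μ - 1) * (x0 / x)) :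
    μ - ω = (1 - ω) * (x0 / (x0 - x1)) ∧
      μ - ω ^ 2 = (1 - ω) * (x0 * x1 / (x2 * (x0 - x1))) ∧
      F * (F - 3 * μ) ^ 2 = 4 * (μ ^ 3 - 1) := by
  obtain ⟨u0, rfl⟩ : ∃ u, x0 = u⁻¹ := ⟨x0⁻¹, (inv_inv x0).symm⟩
  obtain ⟨u1, rfl⟩ : ∃ u, x1 = u⁻¹ := ⟨x1⁻¹, (inv_inv x1).symm⟩
  obtain ⟨u2, rfl⟩ : ∃ u, x2 = u⁻¹ := ⟨x2⁻¹, (inv_inv x2).symm⟩
  have m0 : u0 ≠ 0 := fun e => n0 (by rw [e, inv_zero])
  have m1 : u1 ≠ 0 := fun e => n1 (by rw [e, inv_zero])
  have m2 : u2 ≠ 0 := fun e => n2 (by rw [e, inv_zero])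
  have hE' : u0 + ω * u1 + ω ^ 2 * u2 = 0 := by
    field_simp at hE
    linear_combination hE
  set s := (u0 + u1 + u2) / 3
  set t := (u0 + ω ^ 2 * u1 + ω * u2) / 3
  have e0 : u0 = s + t := by
    simp only [s, t]
    field_simp
    linear_combination hE' - (u1 + u2) * hω
  have e1 : u1 = s + ω * t := by
    simp only [s, t]
    field_simp
    linear_combination ω ^ 2 * hE' -
      (u0 + u1 * (2 * (ω - 1)) + u2 * (ω ^ 2 - ω + 1)) * hω
  have e2 : u2 = s + ω ^ 2 * t := by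
    simp only [s, t]
    field_simp
    linear_combination ω * hE' - (u0 + u1 * (ω ^ 2 - ω + 1) + u2 * (2 * (ω - 1))) * hω
  have ht : t ≠ 0 := fun e => h01 (by rw [e0, e1, e, mul_zero])
  have hd : u1 - u0 = (ω - 1) * t := by rw [e0, e1]; ring
  have hω1 : ω - 1 ≠ 0 := fun e => h3 (by linear_combination hω - (ω + 2) * e)
  have hdiff : u0⁻¹ - u1⁻¹ = (ω - 1) * t / (u0 * u1) := by
    rw [← hd]; field_simp
  have hμ' : μ = -(s / t) := by
    rw [hμ, hdiff]
    field_simp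
    linear_combination (ω - 1) * (-e0)
  have p1 : μ - ω = -(u1 / t) := by rw [hμ', e1]; field_simp; ring
  have p2 : μ - ω ^ 2 = -(u2 / t) := by rw [hμ', e2]; field_simp; ring
  refine ⟨?_, ?_, ?_⟩
  · rw [p1, hdiff]
    field_simp
    ring
  · rw [p2, hdiff]
    field_simp
    ring
  -- the cubic
  have hF' : F = -(1 / (t * x)) := by
    rw [hF, hμ']
    field_simp
    linear_combination -(-e0)
  have he2 : u0 * u1 + u0 * u2 + u1 * u2 = 3 * s ^ 2 := by
    rw [e0, e1, e2]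
    linear_combination (2 * s * t + ω * t ^ 2) * hω
  have he3 : u0 * u1 * u2 = s ^ 3 + t ^ 3 := by
    rw [e0, e1, e2]
    linear_combination (s ^ 2 * t + s * t ^ 2 * ω + t ^ 3 * (ω - 1)) * hω
  have he1 : u0 + u1 + u2 = 3 * s := by simp only [s]; field_simp
  have q3 : Q * (u0 * u1 * u2) = -1 := by
    field_simp at hq
    linear_combination hq
  have q2 : 4 * P * (u0 * u1 * u2) = -(u0 * u1 + u0 * u2 + u1 * u2) := by
    field_simp at hs
    linear_combination hs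
  have q1 : R * (u0 * u1 * u2) = u0 + u1 + u2 := by
    field_simp at hp
    linear_combination -hp
  rw [he1] at q1
  rw [he2] at q2
  rw [he3] at q1 q2 q3
  have hcub : (3 * s * x - 1) ^ 2 = 4 * (s ^ 3 + t ^ 3) * x ^ 3 := by
    linear_combination -(s ^ 3 + t ^ 3) * hx + 3 * x ^ 2 * q2 + 2 * x * q1 + q3
  rw [hF', hμ']
  field_simp
  linear_combination -hcub

end algebra

end FA.Carayol

end
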