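import Fermat.Agent.Carayol.Two.CuspStab
import Fermat.Agent.Carayol.Count.Export
import Fermat.Agent.Carayol.Count.Main

/-!
# The points at the prime two

One component passes through a point away from `μ = 0`; three pass through a point over `μ = 0`,
one for each label, and `Γ(3 g)` permutes them like the lines.
-/

set_option autoImplicit false
set_option linter.unusedSectionVars false
set_option linter.style.haveILetI false

noncomputable section

namespace FA.Carayol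

theorem optTwo_avoid : ∀ i i' l a b c : Option (ZMod 2),
    i ≠ i' → i ≠ l → i' ≠ l → a ≠ l → b ≠ l → a ≠ b → c ≠ a → c ≠ b → c = l := by decide

open CongruenceSubgroup ModularCurve FA.Level FA.Mazur.Wp Polynomial
open scoped MatrixGroups

local notation "Qb" => AlgebraicClosure ℚ

variable [Algebra Qb ℂ] {A : ValuationSubring Qb} {N g : ℕ} [NeZero N]
  (hζ : ∀ b : ℤ, eta N b ∈ constK A 2) {ϖ : baseO A (constL A 2).toSubfield}
  (hA : A.LiesOverPrime 2) (hN : N = 2 * (3 * g)) (hg : ¬ 2 ∣ 3 * g)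
  (hC : ConstHyp A (constL A 2).toSubfield ϖ) {p : Pt A 2 (muF hζ hN)}
include hA hN hg hC

/-- The stabiliser is finite. -/
theorem finite_stab_pt (p : Pt A 2 (muF hζ hN)) :
    Finite ↥(stabSet (galLvl A 2 3) (ptSet p)) := by
  haveI := finite_galLvl (A := A) (q := 2) (N := N) (ℓ := 3)
  exact Finite.of_injective (fun e => (⟨e.1, e.2.1⟩ : galLvl (N := N) A 2 3))
    fun a b h => Subtype.ext (congrArg Subtype.val h :)

theorem card_inf_le (p : Pt A 2 (muF hζ hN)) (W : ValuationSubring (flN N (constK A 2))) :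
    Nat.card ↥(stabSet (galLvl A 2 3) (ptSet p) ⊓ stabVal (galLvl A 2 3) W) ≤
      Nat.card ↥(stabSet (galLvl A 2 3) (ptSet p)) := by
  haveI := finite_stab_pt hζ hA hN hg hC p
  exact Nat.card_le_card_of_injective (Subgroup.inclusion inf_le_left)
    (Subgroup.inclusion_injective _)

/-- A parameter where the root of the coordinate is one. -/
theorem exists_brPar_one (hp : IsPtF ϖ p) {W : ValuationSubring (flN N (constK A 2))}
    (hW : IsVertF A 2 ϖ (muF hζ hN) W) (hT : Thru p W) :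
    ∃ r π c' V, BrPar A 2 (muF hζ hN) p W 1 r π c' V := by
  obtain ⟨r, hr, hsq⟩ := exists_sqrt hζ hA hN hg hC hW p.1
  obtain ⟨c', y, hy, hry⟩ := exists_cF_sub_mem hC hp ⟨r, hr⟩
  obtain ⟨V, hV, hB, hctr⟩ := exists_val_centred hC hp hW hT
  set π : chartF A 2 (coordB A 2 (muF hζ hN) p.1) := ⟨r, hr⟩ - y
  have hπ : (π : flN N (constK A 2)) = r - cF A 2 N c' := by
    rw [AddSubgroupClass.coe_sub, hy]
  have hle : ∀ x ∈ chartF A 2 (coordB A 2 (muF hζ hN) p.1), W.valuation x ≤ 1 := fun x hx =>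
    (W.valuation_le_one_iff _).2 (mem_of_isVertF p.1 hC hW hx)
  refine ⟨⟨r, hr⟩, π, c', V, hsq, hV, hB, hctr, hry, ?_, ?_, ?_⟩
  · refine le_antisymm (hle _ π.2) (not_lt.1 fun hlt => ?_)
    have h1 := ((isVertF_iff p.1 W).1 hW).2 (X - Polynomial.C (c' ^ 2)) ⟨1, by
      rw [Polynomial.coeff_sub, Polynomial.coeff_X_one, Polynomial.coeff_C_of_ne_zero one_ne_zero,
        sub_zero]
      exact isUnit_one⟩
    rw [map_sub, phiB_X, phiB_C, map_pow] at h1
    refine (Eq.not_lt h1) ?_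
    rw [show coordB A 2 (muF hζ hN) p.1 - cF A 2 N c' ^ 2 =
      (π : flN N (constK A 2)) * (r + cF A 2 N c') - (r ^ 2 - coordB A 2 (muF hζ hN) p.1) by
        rw [hπ]; ring]
    refine Valuation.map_sub_lt _ ?_ hsq
    rw [map_mul]
    exact mul_lt_one_of_lt_of_le hlt (hle _ (add_mem hr (cF_mem_chartB c' _)))
  · rw [← hπ]
    exact (hctr π).2 hry
  · rw [pow_one, hπ]

/-- Counting with a single component. -/
theorem single_of_bound (hp : IsPtF ϖ p) {e : ℕ} (he : 0 < e)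
    {W : ValuationSubring (flN N (constK A 2))} (hW : W ∈ vertsAt A 2 ϖ (muF hζ hN) p)
    (hB : ∃ r π c' V, BrPar A 2 (muF hζ hN) p W e r π c' V)
    (hcard : Nat.card ↥(stabSet (galLvl A 2 3) (ptSet p)) ≤ e * 2) :
    (vertsAt A 2 ϖ (muF hζ hN) p).Subsingleton ∧
      ∃ π ∈ p.2, W.valuation (π : flN N (constK A 2)) = 1 ∧ RegularAt A 2 (muF hζ hN) p W π := by
  have hz := twoCoord hζ hA hN hg hC
  obtain ⟨-, hcount⟩ := countHolds A 2 hA ϖ (muF hζ hN) 3 hC hz (vertHolds A 2 N ϖ hC 3 _ hz) p hp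
  obtain ⟨-, -, hn, hreg⟩ := hcount e he W hW hB
    ((card_inf_le hζ hA hN hg hC p W).trans hcard)
  obtain ⟨r, π, c', V, hBr⟩ := hB
  refine ⟨?_, π, hBr.par_mem, hBr.par_unit, hreg W hW r π c' V hBr⟩
  haveI := finite_stab_pt hζ hA hN hg hC p
  have hpos : 0 < Nat.card ↥(stabSet (galLvl A 2 3) (ptSet p)) := Nat.card_pos
  rw [← hn] at hpos hcard
  have h1 : Nat.card (vertsAt A 2 ϖ (muF hζ hN) p) = 1 := by
    rcases lt_trichotomy (Nat.card (vertsAt A 2 ϖ (muF hζ hN) p)) 1 with h | h | h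
    · simp [show Nat.card (vertsAt A 2 ϖ (muF hζ hN) p) = 0 by omega] at hpos
    · exact h
    · exact absurd hcard (by nlinarith)
  obtain ⟨hss, -⟩ := Nat.card_eq_one_iff_unique.1 h1
  exact (Set.subsingleton_coe _).1 hss

/-- A single component gives the local facts. -/
theorem ptLocal_of_single (hp : IsPtF ϖ p) {W : ValuationSubring (flN N (constK A 2))}
    (hW : W ∈ vertsAt A 2 ϖ (muF hζ hN) p) (hs : (vertsAt A 2 ϖ (muF hζ hN) p).Subsingleton)
    {π : chartF A 2 (coordB A 2 (muF hζ hN) p.1)} (hπ : π ∈ p.2)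
    (hπ1 : W.valuation (π : flN N (constK A 2)) = 1)
    (hreg : RegularAt A 2 (muF hζ hN) p W π) : PtLocal ϖ p := by
  have hz := twoCoord hζ hA hN hg hC
  refine localHolds A 2 ϖ (muF hζ hN) 3 hC hz (vertHolds A 2 N ϖ hC 3 _ hz) p hp ⟨W, hW⟩
    fun W' hW' => ?_
  obtain rfl := hs hW' hW
  exact ⟨⟨_, cF_mem_chartB ϖ _⟩, π, rfl, fun W'' hW'' hne => absurd (hs hW'' hW) hne,
    ⟨1, 1, 1, fun h => hp.1.ne_top ((Ideal.eq_top_iff_one _).2 h), by simp⟩, hπ, hπ1, hreg⟩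

/-- **Away from `μ = 0` one component passes through a point, regular there.** -/
theorem point_smooth (hp : IsPtF ϖ p) (hss : ¬ SsPt hζ hN p) :
    (vertsAt A 2 ϖ (muF hζ hN) p).Subsingleton ∧ PtLocal ϖ p := by
  obtain ⟨e, he, W, hW, hB, hcard⟩ : ∃ e, 0 < e ∧ ∃ W ∈ vertsAt A 2 ϖ (muF hζ hN) p,
      (∃ r π c' V, BrPar A 2 (muF hζ hN) p W e r π c' V) ∧
      Nat.card ↥(stabSet (galLvl A 2 3) (ptSet p)) ≤ e * 2 := by
    by_cases hcl : clF hζ hN p.1 ∈ ptSet p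
    · obtain ⟨γ, hγ, r, hr, hc⟩ := exists_cusp hζ hA hN hg hC hp hcl
      obtain ⟨W, hW, hB⟩ := exists_brPar_cusp hζ hA hN hg hC hp hγ hr hc
      exact ⟨g, g_pos' hN, W, hW, hB, card_stab_cusp hζ hA hN hg hC hp hγ hr hc hss⟩
    · have hz := twoCoord hζ hA hN hg hC
      obtain ⟨⟨W, hW⟩, -⟩ :=
        countHolds A 2 hA ϖ (muF hζ hN) 3 hC hz (vertHolds A 2 N ϖ hC 3 _ hz) p hp
      obtain ⟨l, hl, -⟩ := existsUnique_phiL hζ hA hN hg hC hp hss
      exact ⟨1, one_pos, W, hW, exists_brPar_one hζ hA hN hg hC hp hW.1 hW.2,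
        (card_stab_le_two hζ hA hN hg hC hp hcl _ le_rfl l
          fun e he => permF_label hζ hA hN hg hC hp hss e he hl).trans_eq (one_mul 2).symm⟩
  obtain ⟨hs, π, hπ, hπ1, hreg⟩ := single_of_bound hζ hA hN hg hC hp he hW hB hcard
  exact ⟨hs, ptLocal_of_single hζ hA hN hg hC hp hW hs hπ hπ1 hreg⟩

/-! ### Over `μ = 0` -/

/-- The label of a component after an automorphism. -/
theorem label_translate {W W' : ValuationSubring (flN N (constK A 2))} (e : galLvl (N := N) A 2 3)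
    (h : ∀ x, (e : flN N (constK A 2) ≃+* flN N (constK A 2)) x ∈ W' ↔ x ∈ W)
    {l : Option (ZMod 2)} (hl : W.valuation (Fl hζ hN l) < 1) :
    W'.valuation (Fl hζ hN (permF hζ hN e l)) < 1 := by
  rw [← Fl_permF]
  rw [← val_comap_galLvl (W := W') (e : flN N (constK A 2) ≃+* flN N (constK A 2))]
  rwa [show W'.comap ((e : flN N (constK A 2) ≃+* flN N (constK A 2)) :
    flN N (constK A 2) →+* flN N (constK A 2)) = W from SetLike.ext fun x => h x]

/-- The counting at a point over `μ = 0`. -/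
theorem count_ss (hp : IsPtF ϖ p) (hss : SsPt hζ hN p) {W : ValuationSubring (flN N (constK A 2))}
    (hW : W ∈ vertsAt A 2 ϖ (muF hζ hN) p) :
    Nat.card ↥(stabSet (galLvl A 2 3) (ptSet p) ⊓ stabVal (galLvl A 2 3) W) = 2 ∧
      (∀ W' ∈ vertsAt A 2 ϖ (muF hζ hN) p, ∃ e ∈ stabSet (galLvl A 2 3) (ptSet p),
        ∀ x, e x ∈ W' ↔ x ∈ W) ∧
      Nat.card (vertsAt A 2 ϖ (muF hζ hN) p) * 2 =
        Nat.card ↥(stabSet (galLvl A 2 3) (ptSet p)) ∧
      ∃ π ∈ p.2, W.valuation (π : flN N (constK A 2)) = 1 ∧ RegularAt A 2 (muF hζ hN) p W π := by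
  have hz := twoCoord hζ hA hN hg hC
  obtain ⟨l, hl, -⟩ := existsUnique_label hζ hA hN hg hC hW.1
  obtain ⟨-, hcount⟩ := countHolds A 2 hA ϖ (muF hζ hN) 3 hC hz (vertHolds A 2 N ϖ hC 3 _ hz) p hp
  have hB := exists_brPar_one hζ hA hN hg hC hp hW.1 hW.2
  obtain ⟨h1, h2, h3, h4⟩ := hcount 1 one_pos W hW hB
    ((card_stab_le_two hζ hA hN hg hC hp (clF_notMem_of_ss hζ hN hp.1 hss) _ inf_le_left l
      fun e he => permF_small hζ hA hN hg hC hW.1 e he.2 hl).trans_eq (one_mul 2).symm)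
  obtain ⟨r, π, c', V, hBr⟩ := hB
  exact ⟨(h1 W hW).trans (one_mul 2), h2, by simpa using h3, π, hBr.par_mem, hBr.par_unit,
    h4 W hW r π c' V hBr⟩

/-- At a point over `μ = 0` a component is determined by its label. -/
theorem label_injective_ss (hp : IsPtF ϖ p) (hss : SsPt hζ hN p)
    {W W' : ValuationSubring (flN N (constK A 2))} (hW : W ∈ vertsAt A 2 ϖ (muF hζ hN) p)
    (hW' : W' ∈ vertsAt A 2 ϖ (muF hζ hN) p) {l : Option (ZMod 2)}
    (hl : W.valuation (Fl hζ hN l) < 1) (hl' : W'.valuation (Fl hζ hN l) < 1) : W' = W := by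
  classical
  haveI := finite_stab_pt hζ hA hN hg hC p
  obtain ⟨hD, htr, -⟩ := count_ss hζ hA hN hg hC hp hss hW
  obtain ⟨e, he, hx⟩ := htr W' hW'
  have hσ : permF hζ hN ⟨e, he.1⟩ l = l := (existsUnique_label hζ hA hN hg hC hW'.1).unique
    (label_translate hζ hA hN hg hC ⟨e, he.1⟩ hx hl) hl'
  set D := stabSet (galLvl A 2 3) (ptSet p) ⊓ stabVal (galLvl A 2 3) W with hDdef
  haveI : Finite ↥D :=
    Finite.of_injective (Subgroup.inclusion inf_le_left) (Subgroup.inclusion_injective _)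
  let f : ↥D → {σ : Equiv.Perm (Option (ZMod 2)) // σ l = l} := fun d =>
    ⟨permF hζ hN ⟨d.1, d.2.1.1⟩, permF_small hζ hA hN hg hC hW.1 ⟨d.1, d.2.1.1⟩ d.2.2 hl⟩
  have hfi : Function.Injective f := fun d₁ d₂ h => Subtype.ext (congrArg Subtype.val
    (permF_inj_of_stab hζ hA hN hg hC hp (clF_notMem_of_ss hζ hN hp.1 hss)
      (e₁ := ⟨d₁.1, d₁.2.1.1⟩) (e₂ := ⟨d₂.1, d₂.2.1.1⟩) d₁.2.1 d₂.2.1 (congrArg Subtype.val h)) :)
  have hfs := (Function.Injective.bijective_of_nat_card_le hfi (by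
    rw [hD, Nat.card_eq_fintype_card, card_perm_fix])).2
  obtain ⟨d, hd⟩ := hfs ⟨_, hσ⟩
  have hde : (d : flN N (constK A 2) ≃+* flN N (constK A 2)) = e := congrArg Subtype.val
    (permF_inj_of_stab hζ hA hN hg hC hp (clF_notMem_of_ss hζ hN hp.1 hss)
      (e₁ := ⟨d.1, d.2.1.1⟩) (e₂ := ⟨e, he.1⟩) d.2.1 he (congrArg Subtype.val hd))
  refine SetLike.ext fun x => ?_
  have h1 := hx (e.symm x)
  have h2 := d.2.2.2 (e.symm x)
  rw [hde] at h2
  rw [e.apply_symm_apply] at h1 h2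
  exact h1.trans h2.symm

/-- The unit `2 / ϖ`. -/
theorem exists_two_unit (hϖ : A.valuation ((ϖ : Qb)) = A.valuation (2 : Qb)) :
    ∃ u, IsUnit u ∧ (2 : flN N (constK A 2)) = cF A 2 N ϖ * cF A 2 N u := by
  obtain ⟨u, hu⟩ := (pi_dvd_iff hC).2 (resO_two hA)
  refine ⟨u, isUnit_of_resT_ne hC fun h0 => ?_, by rw [← map_mul, ← hu, map_ofNat]⟩
  have h1 : A.valuation (u : Qb) < 1 := by
    have h : IsLocalRing.residue A ⟨u, u.2.1⟩ = 0 := h0
    rwa [IsLocalRing.residue_eq_zero_iff, A.valuation_lt_one_iff] at h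
  have e : A.valuation (2 : Qb) = A.valuation (ϖ : Qb) * A.valuation (u : Qb) := by
    rw [← map_mul]
    exact congrArg (fun x : baseO A (constL A 2).toSubfield => A.valuation (x : Qb)) hu
  rw [← hϖ, eq_comm] at e
  have hne : A.valuation (ϖ : Qb) ≠ 0 := (Valuation.ne_zero_iff _).2 fun h =>
    hC.irreducible.ne_zero (Subtype.ext h)
  exact h1.ne (mul_left_cancel₀ hne (e.trans (mul_one _).symm))

variable (hϖ : A.valuation ((ϖ : Qb)) = A.valuation (2 : Qb))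
include hϖ

/-- The product of the roots at a point over `μ = 0`. -/
theorem exists_prod_unit (hp : IsPtF ϖ p) (hss : SsPt hζ hN p) {i j k : Option (ZMod 2)}
    (hij : i ≠ j) (hik : i ≠ k) (hjk : j ≠ k) :
    ∃ c : chartF A 2 (coordB A 2 (muF hζ hN) p.1), c ∉ p.2 ∧
      Sl hζ hN i * (Sl hζ hN j * Sl hζ hN k) = cF A 2 N ϖ * c := by
  obtain ⟨u, hu, h2⟩ := exists_two_unit hA hN hg hC hϖ
  have hcl := clF_notMem_of_ss hζ hN hp.1 hss
  refine ⟨-(⟨_, cF_mem_chartB u _⟩ * ⟨_, clF_mem hζ hN p.1⟩ ^ 2), fun h => ?_, ?_⟩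
  · rcases hp.1.isPrime.mem_or_mem (neg_mem_iff.1 h) with h | h
    · refine hp.1.ne_top (Ideal.eq_top_of_isUnit_mem _ h ?_)
      obtain ⟨v, hv⟩ := hu.exists_right_inv
      exact IsUnit.of_mul_eq_one ⟨_, cF_mem_chartB v _⟩ (chart_ext (by
        rw [map_mul, map_one]
        exact ((map_mul (cF A 2 N) u v).symm.trans (by rw [hv, map_one]))))
    · exact hcl (mem_ptSet.2 ⟨clF_mem hζ hN p.1, hp.1.isPrime.mem_of_pow_mem _ h⟩)
  · rw [← mul_assoc, (Sl_vieta hζ hA hN hg hC hij hik hjk).2.2, h2]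
    push_cast
    rw [hss.1]
    simp only [clF, cond_false, aF]
    ring

/-- Over `μ = 0` there are at least two components. -/
theorem not_subsingleton_ss (hp : IsPtF ϖ p) (hss : SsPt hζ hN p) :
    ¬ (vertsAt A 2 ϖ (muF hζ hN) p).Subsingleton := by
  intro hs
  have hz := twoCoord hζ hA hN hg hC
  obtain ⟨⟨W, hW⟩, -⟩ := countHolds A 2 hA ϖ (muF hζ hN) 3 hC hz (vertHolds A 2 N ϖ hC 3 _ hz) p hp
  obtain ⟨-, -, -, π, hπ, hπ1, hreg⟩ := count_ss hζ hA hN hg hC hp hss hW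
  have hWi : ∀ i : vertsAt A 2 ϖ (muF hζ hN) p, i.1 = W := fun i => hs i.2 hW
  set S := surfPtOf hC hz hp ⟨W, hW⟩ (fun _ => ⟨_, cF_mem_chartB ϖ _⟩) (fun _ => π)
    (fun i => rfl) (fun i W' hW' hne => absurd ((hs hW' hW).trans (hWi i).symm) hne)
    (fun _ => ⟨1, 1, 1, fun h => hp.1.ne_top ((Ideal.eq_top_iff_one _).2 h), by simp⟩)
    (fun _ => hπ) (fun i => by rw [hWi]; exact hπ1) (fun i => by rw [hWi]; exact hreg)
  obtain ⟨l, hl, -⟩ := existsUnique_label hζ hA hN hg hC hW.1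
  obtain ⟨j, k, hlj, hlk, hjk, -⟩ := optTwo_others l
  obtain ⟨hmem, hSl⟩ := mem_ptSet.1 (Sl_mem_of_ss hζ hA hN hg hC hp hss l)
  obtain ⟨hjm, hSj⟩ := mem_ptSet.1 (Sl_mem_of_ss hζ hA hN hg hC hp hss j)
  obtain ⟨hkm, hSk⟩ := mem_ptSet.1 (Sl_mem_of_ss hζ hA hN hg hC hp hss k)
  obtain ⟨a, c, hc, hac⟩ := exists_mul_eq_of_small S ⟨W, hW⟩ (x := ⟨_, hmem⟩)
    ((val_Fl_iff hζ hA hN hg hC hW.1 l).1 hl)
  obtain ⟨d, hd, hprod⟩ := exists_prod_unit hζ hA hN hg hC hϖ hp hss hlj hlk hjk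
  have e : a * ⟨_, hjm⟩ * ⟨_, hkm⟩ = d * c := by
    refine chart_ext (mul_left_cancel₀ (cF_pi_ne_zero hC (N := N)) ?_)
    simp only [map_mul]
    simp only [Subring.subtype_apply]
    have h1 := congrArg (fun t : chartF A 2 (coordB A 2 (muF hζ hN) p.1) =>
      (t : flN N (constK A 2))) hac
    simp only [Subring.coe_mul] at h1
    rw [show ((S.t ⟨W, hW⟩ : chartF A 2 (coordB A 2 (muF hζ hN) p.1)) : flN N (constK A 2)) =
      cF A 2 N ϖ from rfl] at h1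
    linear_combination -(Sl hζ hN j * Sl hζ hN k) * h1 + (c : flN N (constK A 2)) * hprod
  have hmp : d * c ∈ p.2 := e ▸ p.2.mul_mem_right _ (p.2.mul_mem_left _ hSj)
  exact (hp.1.isPrime.mem_or_mem hmp).elim hd hc

/-- Over `μ = 0` the stabiliser is larger than two. -/
theorem two_lt_card_stab (hp : IsPtF ϖ p) (hss : SsPt hζ hN p) :
    2 < Nat.card ↥(stabSet (galLvl A 2 3) (ptSet p)) := by
  haveI := finite_stab_pt hζ hA hN hg hC p
  have hns := not_subsingleton_ss hζ hA hN hg hC hϖ hp hss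
  obtain ⟨W, hW, W', hW', hne⟩ := Set.not_subsingleton_iff.1 hns
  obtain ⟨-, -, hn, -⟩ := count_ss hζ hA hN hg hC hp hss hW
  have hpos : 0 < Nat.card ↥(stabSet (galLvl A 2 3) (ptSet p)) := Nat.card_pos
  have hfin : Finite (vertsAt A 2 ϖ (muF hζ hN) p) := Nat.finite_of_card_ne_zero fun h => by
    rw [h, zero_mul] at hn; omega
  have : 1 < Nat.card (vertsAt A 2 ϖ (muF hζ hN) p) :=
    Finite.one_lt_card_iff_nontrivial.2 ⟨⟨_, hW⟩, ⟨_, hW'⟩, fun h => hne (congrArg Subtype.val h)⟩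
  omega

/-- **Over `μ = 0` every label occurs.** -/
theorem exists_label_ss (hp : IsPtF ϖ p) (hss : SsPt hζ hN p) (l : Option (ZMod 2)) :
    ∃ W ∈ vertsAt A 2 ϖ (muF hζ hN) p, W.valuation (Fl hζ hN l) < 1 := by
  by_contra hno
  push Not at hno
  have hz := twoCoord hζ hA hN hg hC
  refine absurd (card_stab_le_two hζ hA hN hg hC hp (clF_notMem_of_ss hζ hN hp.1 hss) _ le_rfl l
    fun e he => ?_) (not_le.2 (two_lt_card_stab hζ hA hN hg hC hϖ hp hss))
  obtain ⟨W, hW, W', hW', hne⟩ :=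
    Set.not_subsingleton_iff.1 (not_subsingleton_ss hζ hA hN hg hC hϖ hp hss)
  obtain ⟨i, hi, -⟩ := existsUnique_label hζ hA hN hg hC hW.1
  obtain ⟨i', hi', -⟩ := existsUnique_label hζ hA hN hg hC hW'.1
  have hii : i ≠ i' := fun h =>
    hne (label_injective_ss hζ hA hN hg hC hp hss hW' hW hi' (h ▸ hi))
  have hl : ∀ W'' ∈ vertsAt A 2 ϖ (muF hζ hN) p, ∀ m, W''.valuation (Fl hζ hN m) < 1 → m ≠ l :=
    fun W'' h m hm hml => (hno W'' h).not_gt (hml ▸ hm)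
  have hmove : ∀ W'' ∈ vertsAt A 2 ϖ (muF hζ hN) p, ∀ m, W''.valuation (Fl hζ hN m) < 1 →
      permF hζ hN e m ≠ l := fun W'' h m hm => by
    have hinv : (e : flN N (constK A 2) ≃+* flN N (constK A 2))⁻¹ ∈
        stabSet (galLvl A 2 3) (ptSet p) := inv_mem he
    refine hl _ (comap_mem_vertsAt hC hz h hinv) _ (label_translate hζ hA hN hg hC e (fun x => ?_) hm)
    rw [ValuationSubring.mem_comap]
    exact iff_of_eq (congrArg (· ∈ W'') (RingEquiv.symm_apply_apply _ x))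
  have hinj := (permF hζ hN e).injective
  exact optTwo_avoid i i' l _ _ _ hii (hl W hW i hi) (hl W' hW' i' hi') (hmove W hW i hi)
    (hmove W' hW' i' hi') (hinj.ne hii) (hinj.ne (hl W hW i hi).symm)
    (hinj.ne (hl W' hW' i' hi').symm)

/-- All of `Γ(3 g)` fixes a point over `μ = 0`. -/
theorem gamma_mem_stab_ss (hp : IsPtF ϖ p) (hss : SsPt hζ hN p) {γ : SL(2, ℤ)}
    (hγ : γ ∈ Gamma (3 * g)) (hγ3 : γ ∈ Gamma 3) :
    (flEquiv γ : flN N (constK A 2) ≃+* flN N (constK A 2)) ∈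
      stabSet (galLvl A 2 3) (ptSet p) := by
  classical
  haveI := finite_stab_pt hζ hA hN hg hC p
  have hcl := clF_notMem_of_ss hζ hN hp.1 hss
  let f : ↥(stabSet (galLvl (N := N) A 2 3) (ptSet p)) → Equiv.Perm (Option (ZMod 2)) :=
    fun e => permF hζ hN ⟨e.1, e.2.1⟩
  have hfi : Function.Injective f := fun a b h => Subtype.ext (congrArg Subtype.val
    (permF_inj_of_stab hζ hA hN hg hC hp hcl (e₁ := ⟨a.1, a.2.1⟩) (e₂ := ⟨b.1, b.2.1⟩) a.2 b.2 h) :)
  have h6 : Nat.card (Equiv.Perm (Option (ZMod 2))) ≤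
      Nat.card ↥(stabSet (galLvl (N := N) A 2 3) (ptSet p)) := by
    rw [Nat.card_eq_fintype_card, card_perm_label]
    have hz := twoCoord hζ hA hN hg hC
    obtain ⟨⟨W, hW⟩, -⟩ :=
      countHolds A 2 hA ϖ (muF hζ hN) 3 hC hz (vertHolds A 2 N ϖ hC 3 _ hz) p hp
    obtain ⟨-, -, hn, -⟩ := count_ss hζ hA hN hg hC hp hss hW
    have hfin : Finite (vertsAt A 2 ϖ (muF hζ hN) p) := Nat.finite_of_card_ne_zero fun h => by
      have := Nat.card_pos (α := ↥(stabSet (galLvl (N := N) A 2 3) (ptSet p)))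
      rw [h, zero_mul] at hn; omega
    choose V hV hVl using exists_label_ss hζ hA hN hg hC hϖ hp hss
    have h3 := Nat.card_le_card_of_injective (β := ↥(vertsAt A 2 ϖ (muF hζ hN) p))
      (fun l => ⟨V l, hV l⟩)
      fun a b h => (existsUnique_label hζ hA hN hg hC (hV a).1).unique (hVl a)
        (by rw [show V a = V b from congrArg Subtype.val h]; exact hVl b)
    rw [Nat.card_eq_fintype_card, show Fintype.card (Option (ZMod 2)) = 3 by simp] at h3
    omega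
  obtain ⟨e, he⟩ :=
    (Function.Injective.bijective_of_nat_card_le hfi h6).2
      (permF hζ hN ⟨_, flEquiv_mem_galLvl_three hγ3⟩)
  obtain ⟨γ', hγ', hee⟩ := exists_of_galLvl e.2.1
  have hm := mul_mem hγ
    (inv_mem (mem_gamma_of_stab hζ hA hN hg hC hp hcl hγ' (hee ▸ e.2)))
  rw [flEquiv_eq_of_perm hζ hN hg hm fun l => ?_, ← hee]
  · exact e.2
  · rw [← flEquiv_apply, ← flEquiv_apply, ← hee, Fl_permF hζ hN ⟨_, flEquiv_mem_galLvl_three hγ3⟩,
      Fl_permF hζ hN ⟨e.1, e.2.1⟩]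
    exact congrArg (fun σ : Equiv.Perm _ => Fl hζ hN (σ l)) he.symm

/-- **The local facts over `μ = 0`.** -/
theorem ptLocal_ss (hp : IsPtF ϖ p) (hss : SsPt hζ hN p) : PtLocal ϖ p := by
  have hz := twoCoord hζ hA hN hg hC
  obtain ⟨hne, -⟩ := countHolds A 2 hA ϖ (muF hζ hN) 3 hC hz (vertHolds A 2 N ϖ hC 3 _ hz) p hp
  refine localHolds A 2 ϖ (muF hζ hN) 3 hC hz (vertHolds A 2 N ϖ hC 3 _ hz) p hp hne
    fun W hW => ?_
  obtain ⟨-, -, -, π, hπ, hπ1, hreg⟩ := count_ss hζ hA hN hg hC hp hss hW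
  obtain ⟨i, hi, hui⟩ := existsUnique_label hζ hA hN hg hC hW.1
  obtain ⟨j, k, hij, hik, hjk, hall⟩ := optTwo_others i
  obtain ⟨him, -⟩ := mem_ptSet.1 (Sl_mem_of_ss hζ hA hN hg hC hp hss i)
  obtain ⟨hjm, -⟩ := mem_ptSet.1 (Sl_mem_of_ss hζ hA hN hg hC hp hss j)
  obtain ⟨hkm, -⟩ := mem_ptSet.1 (Sl_mem_of_ss hζ hA hN hg hC hp hss k)
  obtain ⟨c, hc, hprod⟩ := exists_prod_unit hζ hA hN hg hC hϖ hp hss hij hik hjk
  have hbig : ∀ {V : ValuationSubring (flN N (constK A 2))}, IsVertF A 2 ϖ (muF hζ hN) V →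
      ∀ l, ¬ V.valuation (Fl hζ hN l) < 1 → V.valuation (Sl hζ hN l) = 1 := fun {V} hV l h =>
    le_antisymm ((V.valuation_le_one_iff _).2
        (mem_vert_false hζ hA hN hg hC hV (Sl_mem hζ hA hN hg hC l)))
      (not_lt.1 fun h' => h ((val_Fl_iff hζ hA hN hg hC hV l).2 h'))
  refine ⟨⟨_, him⟩, π, ?_, fun W' hW' hne => hbig hW'.1 i fun h =>
    hne (label_injective_ss hζ hA hN hg hC hp hss hW hW' hi h),
    ⟨1, ⟨_, hjm⟩ * ⟨_, hkm⟩, c, hc, by rw [pow_one]; exact hprod⟩, hπ, hπ1, hreg⟩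
  have h := congrArg W.valuation hprod
  have hc1 : W.valuation (c : flN N (constK A 2)) = 1 :=
    le_antisymm ((W.valuation_le_one_iff _).2 (mem_of_isVertF p.1 hC hW.1 c.2))
      (not_lt.1 fun h => hc (hW.2 c h))
  rw [map_mul, map_mul, map_mul, hbig hW.1 j fun h => hij (hui j h).symm,
    hbig hW.1 k fun h => hik (hui k h).symm, hc1, one_mul, mul_one, mul_one] at h
  exact h

omit hA hg hC hϖ in
theorem vecEq_up (t : ZMod 2) (k : ℤ) (hk : (k : ZMod 2) = t) (l : Option (ZMod 2)) :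
    VecEq N (vmul (vecL g l) (upU k)) (vecL g (upLine t l)) := by
  rcases l with _ | s
  · simp [VecEq, upLine, vecL, vmul, upU]
  · refine ⟨by simp [upLine, vecL, vmul, upU], ?_⟩
    have h2 : (2 : ℤ) ∣ k + (s.val : ℤ) - ((s + t).val : ℤ) := by
      rw [show (2 : ℤ) = ((2 : ℕ) : ℤ) from rfl, ← ZMod.intCast_zmod_eq_zero_iff_dvd]
      simp [hk, add_comm]
    obtain ⟨d, hd⟩ := h2
    refine ⟨d, ?_⟩
    simp [upLine, vecL, vmul, upU, hN, -ZMod.natCast_val]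
    linear_combination (3 * (g : ℤ)) * hd

omit hA hg hC hϖ in
theorem vecEq_low (t : ZMod 2) (k : ℤ) (hk : (k : ZMod 2) = t) (l : Option (ZMod 2)) :
    VecEq N (vmul (vecL g l) (lowU k)) (vecL g (lowLine t l)) := by
  have key : ∀ x : ℤ, (x : ZMod 2) = 0 → (N : ℤ) ∣ ((3 * g : ℕ) : ℤ) * x := fun x hx => by
    obtain ⟨d, rfl⟩ := (ZMod.intCast_zmod_eq_zero_iff_dvd _ 2).1 hx
    exact ⟨d, by rw [hN]; push_cast; ring⟩
  rcases (show ∀ t : ZMod 2, t = 0 ∨ t = 1 by decide) t with rfl | rfl <;>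
    rcases optTwo_cases l with rfl | rfl | rfl
  · exact ⟨by simpa [lowLine, upLine, swapLine, vecL, vmul, lowU] using key k hk,
      by simp [lowLine, upLine, swapLine, vecL, vmul, lowU]⟩
  · exact ⟨by simp [lowLine, upLine, swapLine, vecL, vmul, lowU],
      by simp [lowLine, upLine, swapLine, vecL, vmul, lowU]⟩
  · exact ⟨by simpa [lowLine, upLine, swapLine, vecL, vmul, lowU, ZMod.val_one] using key k hk,
      by simp [lowLine, upLine, swapLine, vecL, vmul, lowU, ZMod.val_one]⟩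
  · refine ⟨?_, by simp [lowLine, upLine, swapLine, vecL, vmul, lowU, ZMod.val_one]⟩
    have := key (k - 1) (by push_cast; rw [hk, sub_self])
    simpa [lowLine, upLine, swapLine, vecL, vmul, lowU, ZMod.val_one, mul_sub] using this
  · exact ⟨by simp [lowLine, upLine, swapLine, vecL, vmul, lowU],
      by simp [lowLine, upLine, swapLine, vecL, vmul, lowU]⟩
  · refine ⟨?_, by simp [lowLine, upLine, swapLine, vecL, vmul, lowU, ZMod.val_one,
      show (1 : ZMod 2) + 1 = 0 by decide]⟩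
    have := key (1 + k) (by push_cast; rw [hk]; decide)
    simpa [lowLine, upLine, swapLine, vecL, vmul, lowU, ZMod.val_one, mul_add,
      show (1 : ZMod 2) + 1 = 0 by decide] using this

omit hA hN hg hC hϖ in
/-- The component with a given label. -/
def compTwo (hN : N = 2 * (3 * g)) (ϖ : baseO A (constL A 2).toSubfield)
    (p : Pt A 2 (muF hζ hN)) (l : Option (ZMod 2)) : ValuationSubring (flN N (constK A 2)) :=
  Classical.epsilon fun W => W ∈ vertsAt A 2 ϖ (muF hζ hN) p ∧ W.valuation (Fl hζ hN l) < 1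

theorem compTwo_spec (hp : IsPtF ϖ p) (hss : SsPt hζ hN p) (l : Option (ZMod 2)) :
    compTwo hζ hN ϖ p l ∈ vertsAt A 2 ϖ (muF hζ hN) p ∧
      (compTwo hζ hN ϖ p l).valuation (Fl hζ hN l) < 1 :=
  Classical.epsilon_spec (p := fun W => W ∈ vertsAt A 2 ϖ (muF hζ hN) p ∧
      W.valuation (Fl hζ hN l) < 1)
    (exists_label_ss hζ hA hN hg hC hϖ hp hss l)

theorem eq_compTwo (hp : IsPtF ϖ p) (hss : SsPt hζ hN p)
    {V : ValuationSubring (flN N (constK A 2))} (hV : V ∈ vertsAt A 2 ϖ (muF hζ hN) p)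
    {l : Option (ZMod 2)} (hl : V.valuation (Fl hζ hN l) < 1) : V = compTwo hζ hN ϖ p l :=
  label_injective_ss hζ hA hN hg hC hp hss (compTwo_spec hζ hA hN hg hC hϖ hp hss l).1 hV
    (compTwo_spec hζ hA hN hg hC hϖ hp hss l).2 hl

/-- The action of `Γ(3 g)` on the components over `μ = 0`. -/
theorem compTwo_act (hp : IsPtF ϖ p) (hss : SsPt hζ hN p) {γ : SL(2, ℤ)}
    (hγ : γ ∈ Gamma (3 * g)) (hγ3 : γ ∈ Gamma 3) {l l' : Option (ZMod 2)}
    (h : VecEq N (vmul (vecL g l) γ) (vecL g l')) :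
    compTwo hζ hN ϖ p l' = (compTwo hζ hN ϖ p l).comap
      (((flEquiv γ : flN N (constK A 2) ≃+* flN N (constK A 2))⁻¹ :
        flN N (constK A 2) ≃+* flN N (constK A 2)) : flN N (constK A 2) →+* flN N (constK A 2)) := by
  have hz := twoCoord hζ hA hN hg hC
  obtain ⟨hW, hl⟩ := compTwo_spec hζ hA hN hg hC hϖ hp hss l
  refine (eq_compTwo hζ hA hN hg hC hϖ hp hss (comap_mem_vertsAt hC hz hW
    (inv_mem (gamma_mem_stab_ss hζ hA hN hg hC hϖ hp hss hγ hγ3))) ?_).symm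
  rw [val_comap_galLvl, ← flAct_Fl hζ hN hγ3 h, ← flEquiv_apply]
  rwa [show ((flEquiv γ : flN N (constK A 2) ≃+* flN N (constK A 2))⁻¹ :
    flN N (constK A 2) ≃+* flN N (constK A 2)) (flEquiv γ (Fl hζ hN l)) = Fl hζ hN l from
      RingEquiv.symm_apply_apply _ _]

omit hC hϖ hA in
theorem unip_mem_gamma {n : ℕ} {k : ℤ} (hk : (n : ℤ) ∣ k) :
    upU k ∈ Gamma n ∧ lowU k ∈ Gamma n := by
  have h := (ZMod.intCast_zmod_eq_zero_iff_dvd k n).2 hk
  constructor <;> rw [Gamma_mem] <;> simp [upU, lowU, h]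

omit hC hϖ hA in
theorem exists_shift (t : ZMod 2) :
    ∃ k : ℤ, ((3 * g : ℕ) : ℤ) ∣ k ∧ (3 : ℤ) ∣ k ∧ (k : ZMod 2) = t := by
  refine ⟨((3 * g : ℕ) : ℤ) * (t.val : ℤ), dvd_mul_right _ _,
    (Dvd.intro ((g : ℤ) * (t.val : ℤ)) (by push_cast; ring)), ?_⟩
  have h1 : ((3 * g : ℕ) : ZMod 2) = 1 :=
    (ZMod.natCast_eq_one_iff_odd).2 (Nat.not_even_iff_odd.1 fun h => hg (even_iff_two_dvd.1 h))
  rw [Int.cast_mul, Int.cast_natCast, Int.cast_natCast, h1, one_mul, ZMod.natCast_zmod_val]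

/-- The lines through the points over `μ = 0`. -/
theorem twoLineData : LineData ϖ (muF hζ hN) (3 * g) {p | IsPtF ϖ p ∧ SsPt hζ hN p}
    (compTwo hζ hN ϖ) where
  isPt _ hp := hp.1
  isVert p hp l := (compTwo_spec hζ hA hN hg hC hϖ hp.1 hp.2 l).1
  cover p hp V hV hT := by
    obtain ⟨l, hl, -⟩ := existsUnique_label hζ hA hN hg hC hV
    exact ⟨l, eq_compTwo hζ hA hN hg hC hϖ hp.1 hp.2 ⟨hV, hT⟩ hl⟩
  unique p hp hns V V' hV hV' hT hT' :=
    (point_smooth hζ hA hN hg hC hp fun h => hns ⟨hp, h⟩).1 ⟨hV, hT⟩ ⟨hV', hT'⟩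
  comp p hp p' hp' l l' h := by
    classical
    have hz := twoCoord hζ hA hN hg hC
    obtain ⟨hW, hl⟩ := compTwo_spec hζ hA hN hg hC hϖ hp.1 hp.2 l
    obtain ⟨hW', hl'⟩ := compTwo_spec hζ hA hN hg hC hϖ hp.1 hp.2 l'
    obtain ⟨-, htr, -⟩ := count_ss hζ hA hN hg hC hp.1 hp.2 hW
    obtain ⟨e, he, hx⟩ := htr _ hW'
    obtain ⟨γ, hγ3, rfl⟩ := exists_of_galLvl he.1
    have hγ := mem_gamma_of_stab hζ hA hN hg hC hp.1 (clF_notMem_of_ss hζ hN hp.1.1 hp.2) hγ3 he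
    obtain ⟨m, hm, hvec⟩ := exists_flAct_Fl hζ hN hγ3 l
    obtain rfl : m = l' := (existsUnique_label hζ hA hN hg hC hW'.1).unique (by
      have h1 := label_translate hζ hA hN hg hC ⟨_, he.1⟩ hx hl
      rwa [← Fl_permF hζ hN ⟨_, he.1⟩, show (flEquiv γ : flN N (constK A 2) ≃+* flN N (constK A 2))
        (Fl hζ hN l) = Fl hζ hN m from hm] at h1) hl'
    rw [compTwo_act hζ hA hN hg hC hϖ hp.1 hp.2 hγ hγ3 hvec,
      compTwo_act hζ hA hN hg hC hϖ hp'.1 hp'.2 hγ hγ3 hvec, h]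
  line p hp p' hp' l l' h := by
    obtain ⟨hW, hl⟩ := compTwo_spec hζ hA hN hg hC hϖ hp.1 hp.2 l
    obtain ⟨-, hl'⟩ := compTwo_spec hζ hA hN hg hC hϖ hp'.1 hp'.2 l'
    exact (existsUnique_label hζ hA hN hg hC hW.1).unique hl (h ▸ hl')
  scale t ht := by
    obtain rfl : t = 1 := (show ∀ t : ZMod 2, t ≠ 0 → t = 1 by decide) t ht
    refine ⟨RingEquiv.refl _, fun f _ => rfl, fun p hp =>
      ⟨fun x => ⟨x, rfl, by rw [sub_self]; exact p.2.zero_mem⟩, fun l x hx => ?_⟩⟩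
    rw [show scaleLine (1 : ZMod 2) ht l = l by
      rcases l with _ | s <;> simp [scaleLine]]
    exact hx
  up t := by
    obtain ⟨k, hk, hk3, hkt⟩ := exists_shift hN hg t
    refine ⟨k, hk, hkt, fun p hp => ?_⟩
    have hγ := (unip_mem_gamma hN hg hk).1
    have hγ3 := (unip_mem_gamma hN hg (n := 3) hk3).1
    refine ⟨fixesPt_of_stab hC (twoCoord hζ hA hN hg hC) hp.1
      (gamma_mem_stab_ss hζ hA hN hg hC hϖ hp.1 hp.2 hγ hγ3), fun l x hx => ?_⟩
    rw [compTwo_act hζ hA hN hg hC hϖ hp.1 hp.2 hγ hγ3 (vecEq_up hN t k hkt l),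
      val_comap_galLvl]
    rwa [show ((flEquiv (upU k) : flN N (constK A 2) ≃+* flN N (constK A 2))⁻¹ :
      flN N (constK A 2) ≃+* flN N (constK A 2)) (flEquiv (upU k) x) = x from
        RingEquiv.symm_apply_apply _ _]
  low t := by
    obtain ⟨k, hk, hk3, hkt⟩ := exists_shift hN hg t
    refine ⟨k, hk, hkt, fun p hp => ?_⟩
    have hγ := (unip_mem_gamma hN hg hk).2
    have hγ3 := (unip_mem_gamma hN hg (n := 3) hk3).2
    refine ⟨fixesPt_of_stab hC (twoCoord hζ hA hN hg hC) hp.1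
      (gamma_mem_stab_ss hζ hA hN hg hC hϖ hp.1 hp.2 hγ hγ3), fun l x hx => ?_⟩
    rw [compTwo_act hζ hA hN hg hC hϖ hp.1 hp.2 hγ hγ3 (vecEq_low hN t k hkt l),
      val_comap_galLvl]
    rwa [show ((flEquiv (lowU k) : flN N (constK A 2) ≃+* flN N (constK A 2))⁻¹ :
      flN N (constK A 2) ≃+* flN N (constK A 2)) (flEquiv (lowU k) x) = x from
        RingEquiv.symm_apply_apply _ _]

/-- **The points at the prime two.** -/
theorem twoPtsHolds : PtsHolds ϖ (muF hζ hN) (3 * g) :=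
  ⟨fun p hp => by
    by_cases hss : SsPt hζ hN p
    · exact ptLocal_ss hζ hA hN hg hC hϖ hp hss
    · exact (point_smooth hζ hA hN hg hC hp hss).2,
    _, _, twoLineData hζ hA hN hg hC hϖ⟩

end FA.Carayol

end
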