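import Fermat.Agent.Carayol.Two.Label

/-!
# The action on the three labels

An element of `Γ(3)` permutes the labels; it is trivial once it is congruent to one modulo `3 g` and
fixes them.
-/

set_option autoImplicit false
set_option linter.unusedSectionVars false
set_option linter.style.haveILetI false

noncomputable section

namespace FA.Carayol

open CongruenceSubgroup ModularCurve FA.Level FA.Mazur.Wp
open scoped MatrixGroups

local notation "Qb" => AlgebraicClosure ℚ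

theorem GoodVec.vmul {m : ℕ} {v : ℤ × ℤ} (h : GoodVec m v) (γ : SL(2, ℤ)) :
    GoodVec m (vmul v γ) := fun hd => h (by
  have e : v = Carayol.vmul (Carayol.vmul v γ) γ⁻¹ := by rw [← vmul_mul, mul_inv_cancel, vmul_one]
  rw [e]
  exact ⟨dvd_add (hd.1.mul_right _) (hd.2.mul_right _), dvd_add (hd.1.mul_right _) (hd.2.mul_right _)⟩)

section vec

variable {N g : ℕ} [NeZero N] (hN : N = 2 * (3 * g))
include hN

/-- Every vector of order two is one of the three. -/
theorem exists_vecL {v : ℤ × ℤ} (hv : IsHalfPt N g v) : ∃ l, VecEq N v (vecL g l) := by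
  obtain ⟨⟨a, ha⟩, ⟨b, hb⟩, hvec⟩ := hv
  have key : ∀ x y : ℤ, 2 ∣ x - y → (N : ℤ) ∣ ((3 * g : ℕ) : ℤ) * x - ((3 * g : ℕ) : ℤ) * y := by
    rintro x y ⟨c, hc⟩
    exact ⟨c, by rw [← mul_sub, hc, hN]; push_cast; ring⟩
  rcases Int.emod_two_eq_zero_or_one a with ha2 | ha2
  · rcases Int.emod_two_eq_zero_or_one b with hb2 | hb2
    · exact absurd ⟨by simpa [ha] using key a 0 (by omega), by simpa [hb] using key b 0 (by omega)⟩
        hvec
    · exact ⟨none, by simpa [ha, vecL] using key a 0 (by omega),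
        by simpa [hb, vecL] using key b 1 (by omega)⟩
  · rcases Int.emod_two_eq_zero_or_one b with hb2 | hb2
    · exact ⟨some 0, by simpa [ha, vecL] using key a 1 (by omega),
        by simpa [hb, vecL] using key b 0 (by omega)⟩
    · refine ⟨some 1, by simpa [ha, vecL] using key a 1 (by omega), ?_⟩
      simpa [hb, vecL, ZMod.val_one] using key b 1 (by omega)

end vec

variable [Algebra Qb ℂ] {A : ValuationSubring Qb} {N g : ℕ} [NeZero N]
  (hζ : ∀ b : ℤ, eta N b ∈ constK A 2) (hN : N = 2 * (3 * g))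

theorem flAct_muF {γ : SL(2, ℤ)} (hγ : γ ∈ Gamma 3) :
    flAct γ (muF hζ hN) = muF hζ hN := by
  rw [muF, flAct_toFl, rAct_muR hN hζ hγ]

theorem flAct_Fl {γ : SL(2, ℤ)} (hγ : γ ∈ Gamma 3) {l l' : Option (ZMod 2)}
    (h : VecEq N (vmul (vecL g l) γ) (vecL g l')) :
    flAct γ (Fl hζ hN l) = Fl hζ hN l' := by
  rw [Fl, Fl, flAct_toFl, rAct_fR hN hζ hγ]
  congr 1
  simp only [fR]
  congr 1
  exact ratHol_congr hζ _ _ _ _ _ _ _ _ ⟨by simp, by simp⟩ h ⟨by simp, by simp⟩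

theorem exists_flAct_Fl {γ : SL(2, ℤ)} (hγ : γ ∈ Gamma 3) (l : Option (ZMod 2)) :
    ∃ l', flAct γ (Fl hζ hN l) = Fl hζ hN l' ∧ VecEq N (vmul (vecL g l) γ) (vecL g l') := by
  obtain ⟨l', hl'⟩ := exists_vecL hN ((isHalf_vecL hN l).vmul γ)
  exact ⟨l', flAct_Fl hζ hN hγ hl', hl'⟩

/-- The elements of the group. -/
theorem exists_of_galLvl {e : flN N (constK A 2) ≃+* flN N (constK A 2)}
    (he : e ∈ galLvl A 2 3) : ∃ γ ∈ Gamma 3, e = flEquiv γ := by
  obtain ⟨γ, hγ, rfl⟩ := he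
  exact ⟨γ⁻¹, inv_mem hγ, rfl⟩

theorem flEquiv_mem_galLvl_three {γ : SL(2, ℤ)} (hγ : γ ∈ Gamma 3) :
    (flEquiv γ : flN N (constK A 2) ≃+* flN N (constK A 2)) ∈ galLvl A 2 3 :=
  ⟨γ⁻¹, inv_mem hγ, by show flEquiv γ⁻¹⁻¹ = _; rw [inv_inv]⟩

theorem exists_perm {e : flN N (constK A 2) ≃+* flN N (constK A 2)} (he : e ∈ galLvl A 2 3) :
    ∃ σ : Equiv.Perm (Option (ZMod 2)), ∀ l, e (Fl hζ hN l) = Fl hζ hN (σ l) := by
  obtain ⟨γ, hγ, rfl⟩ := exists_of_galLvl he
  choose f hf using fun l => exists_flAct_Fl hζ hN hγ l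
  have hinj : Function.Injective f := fun l l' h => Fl_injective hζ hN
    ((flEquiv γ).injective (by rw [flEquiv_apply, flEquiv_apply, (hf l).1, (hf l').1, h]))
  exact ⟨Equiv.ofBijective f (Finite.injective_iff_bijective.1 hinj), fun l => (hf l).1⟩

/-- The permutation of the labels. -/
def permF (e : galLvl (N := N) A 2 3) : Equiv.Perm (Option (ZMod 2)) :=
  (exists_perm hζ hN e.2).choose

theorem Fl_permF (e : galLvl (N := N) A 2 3) (l : Option (ZMod 2)) :
    (e : flN N (constK A 2) ≃+* flN N (constK A 2)) (Fl hζ hN l) = Fl hζ hN (permF hζ hN e l) :=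
  (exists_perm hζ hN e.2).choose_spec l

variable (hg : ¬ 2 ∣ 3 * g)
include hg

/-- Only `Γ(N)` is congruent to one modulo `3 g` and fixes the labels. -/
theorem mem_gamma_of_fix_labels {γ : SL(2, ℤ)} (hγ : γ ∈ Gamma (3 * g))
    (h : ∀ l, flAct γ (Fl hζ hN l) = Fl hζ hN l) : γ ∈ Gamma N := by
  have hγ3 : γ ∈ Gamma 3 := by
    rw [Gamma_mem] at hγ ⊢
    have h3 : (3 : ℕ) ∣ 3 * g := dvd_mul_right _ _
    obtain ⟨h00, h01, h10, h11⟩ := hγ
    refine ⟨?_, ?_, ?_, ?_⟩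
    all_goals
      first
      | simpa using congrArg (ZMod.castHom h3 (ZMod 3)) h00
      | simpa using congrArg (ZMod.castHom h3 (ZMod 3)) h01
      | simpa using congrArg (ZMod.castHom h3 (ZMod 3)) h10
      | simpa using congrArg (ZMod.castHom h3 (ZMod 3)) h11
  have hv : ∀ l, VecEq N (vmul (vecL g l) γ) (vecL g l) := fun l => by
    obtain ⟨l', h1, h2⟩ := exists_flAct_Fl hζ hN hγ3 l
    rwa [← Fl_injective hζ hN ((h l).symm.trans h1)] at h2
  have hm0 : ((3 * g : ℕ) : ℤ) ≠ 0 := by have := g_pos' hN; positivity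
  have two : ∀ x : ℤ, (N : ℤ) ∣ ((3 * g : ℕ) : ℤ) * x → (2 : ℤ) ∣ x := fun x hx =>
    Int.dvd_of_mul_dvd_mul_left hm0 (by convert hx using 1; rw [hN]; push_cast; ring)
  have a := (hv (some 0)).1; have b := (hv (some 0)).2
  have c := (hv none).1; have d := (hv none).2
  simp only [vecL, vmul, ZMod.val_zero, Nat.cast_zero, mul_zero, zero_mul, add_zero, zero_add,
    sub_zero] at a b c d
  rw [← mul_sub_one] at a d
  have both : ∀ x : ℤ, ((3 * g : ℕ) : ℤ) ∣ x → 2 ∣ x → (x : ZMod N) = 0 := fun x h1 h2 => by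
    rw [ZMod.intCast_zmod_eq_zero_iff_dvd, hN]
    exact mul_dvd_of_even hg h2 h1
  rw [Gamma_mem] at hγ ⊢
  obtain ⟨h00, h01, h10, h11⟩ := hγ
  have z := fun (x : ℤ) (hx : (x : ZMod (3 * g)) = 0) =>
    (ZMod.intCast_zmod_eq_zero_iff_dvd _ _).1 hx
  refine ⟨?_, both _ (z _ h01) (two _ b), both _ (z _ h10) (two _ c), ?_⟩
  · have := both _ (z (γ 0 0 - 1) (by push_cast; rw [h00, sub_self])) (two _ a)
    push_cast at this
    exact sub_eq_zero.1 this
  · have := both _ (z (γ 1 1 - 1) (by push_cast; rw [h11, sub_self])) (two _ d)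
    push_cast at this
    exact sub_eq_zero.1 this

/-- Elements congruent modulo `3 g` with the same permutation agree. -/
theorem flEquiv_eq_of_perm {γ₁ γ₂ : SL(2, ℤ)}
    (hm : γ₁ * γ₂⁻¹ ∈ Gamma (3 * g))
    (h : ∀ l, flAct γ₁ (Fl hζ hN l) = flAct γ₂ (Fl hζ hN l)) :
    (flEquiv γ₁ : flN N (constK A 2) ≃+* flN N (constK A 2)) = flEquiv γ₂ := by
  have hmem := mem_gamma_of_fix_labels hζ hN hg hm fun l => by
    rw [flAct_mul, h l, ← flAct_mul, mul_inv_cancel, flAct_one]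
  refine RingEquiv.ext fun x => ?_
  show flAct γ₁ x = flAct γ₂ x
  conv_lhs => rw [show γ₁ = γ₁ * γ₂⁻¹ * γ₂ by rw [mul_assoc, inv_mul_cancel, mul_one]]
  rw [flAct_mul]
  congr 1
  exact Subtype.ext (merSL_eq_self hmem x.2)

end FA.Carayol

end
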