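import Fermat.Agent.Carayol.Two.Coord
import Fermat.Agent.Carayol.Count.Chart

/-!
# Functions with integral expansions are integral over the coordinate

`finR`: the functions whose translates have integral series, without pole at the finite cusps. Such
a function is integral over `baseO[μ]`; a power of `1/μ` makes it integral over `baseO[1/μ]`.
-/

set_option autoImplicit false
set_option linter.unusedSectionVars false
set_option linter.style.haveILetI false

noncomputable section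

namespace FA.Carayol

open CongruenceSubgroup HahnSeries ModularCurve FA.Level FA.ModField FA.Mazur.Wp Polynomial
open scoped MatrixGroups

local notation "Qb" => AlgebraicClosure ℚ

variable [Algebra Qb ℂ] (A : ValuationSubring Qb) (N : ℕ) [NeZero N]

/-- Integral series at all translates, no pole at the finite cusps. -/
def finR : Subring (rN N (constK A 2)) where
  carrier := {x | ∀ γ ∈ Gamma 3, ∀ r : Fin 4, rSer (rAct (γ * repThree r) x) ∈ intS A 2 ∧
    (r ≠ 0 → OrdGE 0 (rSer (rAct (γ * repThree r) x)))}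
  one_mem' γ _ r := by simp only [map_one]; exact ⟨one_mem _, fun _ => ordGE_one⟩
  zero_mem' γ _ r := by simp only [map_zero]; exact ⟨zero_mem _, fun _ => ordGE_zero 0⟩
  mul_mem' ha hb γ hγ r := by
    simp only [map_mul]
    exact ⟨mul_mem (ha γ hγ r).1 (hb γ hγ r).1,
      fun hr => by simpa using ((ha γ hγ r).2 hr).mul ((hb γ hγ r).2 hr)⟩
  add_mem' ha hb γ hγ r := by
    simp only [map_add]
    exact ⟨add_mem (ha γ hγ r).1 (hb γ hγ r).1, fun hr => ((ha γ hγ r).2 hr).add ((hb γ hγ r).2 hr)⟩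
  neg_mem' ha γ hγ r := by
    simp only [map_neg]
    exact ⟨neg_mem (ha γ hγ r).1, fun hr => ((ha γ hγ r).2 hr).neg⟩

variable {A N}

theorem repThree_zero : repThree 0 = 1 := rfl

theorem mem_finR {x : rN N (constK A 2)} : x ∈ finR A N ↔ ∀ γ ∈ Gamma 3, ∀ r : Fin 4,
    rSer (rAct (γ * repThree r) x) ∈ intS A 2 ∧
      (r ≠ 0 → OrdGE 0 (rSer (rAct (γ * repThree r) x))) := Iff.rfl

theorem rAct_mem_finR {x : rN N (constK A 2)} (hx : x ∈ finR A N) {γ : SL(2, ℤ)}
    (hγ : γ ∈ Gamma 3) : rAct γ x ∈ finR A N := fun γ' hγ' r => by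
  rw [← rAct_mul, ← mul_assoc]
  exact hx _ (mul_mem hγ hγ') r

/-- There are finitely many translates. -/
theorem exists_translates (f : rN N (constK A 2)) : ∃ T : Finset (rN N (constK A 2)),
    (∀ γ ∈ Gamma 3, rAct γ f ∈ T) ∧ ∀ x ∈ T, ∃ γ ∈ Gamma 3, rAct γ f = x := by
  classical
  haveI : Finite (galLvl (N := N) A 2 3) := finite_galLvl
  haveI : Fintype (galLvl (N := N) A 2 3) := Fintype.ofFinite _
  have hlift : ∀ e : galLvl (N := N) A 2 3, ∃ γ ∈ Gamma 3,
      (e : _ ≃+* _) (toFl f) = toFl (rAct γ f) := by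
    rintro ⟨_, γ, hγ, rfl⟩
    exact ⟨γ⁻¹, inv_mem hγ, flAct_toFl γ⁻¹ f⟩
  choose γ hγ hγc using hlift
  refine ⟨Finset.univ.image fun e => rAct (γ e) f, fun δ hδ => ?_, fun x hx => ?_⟩
  · refine Finset.mem_image.2 ⟨⟨flHom N (constK A 2) δ⁻¹, δ⁻¹, inv_mem hδ, rfl⟩, Finset.mem_univ _,
      toFl_injective ?_⟩
    rw [← hγc, ← flAct_toFl]
    show flAct δ⁻¹⁻¹ _ = _
    rw [inv_inv]
  · obtain ⟨e, -, rfl⟩ := Finset.mem_image.1 hx
    exact ⟨γ e, hγ e, rfl⟩

/-- The orders at the translates are bounded below. -/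
theorem exists_ordGE_translates (f : rN N (constK A 2)) : ∃ k : ℕ, ∀ γ ∈ Gamma 3, ∀ r : Fin 4,
    OrdGE (-(k : ℤ)) (rSer (rAct (γ * repThree r) f)) := by
  classical
  obtain ⟨T, hT, -⟩ := exists_translates f
  refine ⟨∑ x ∈ T, ∑ r, (-(rSer (rAct (repThree r) x)).order).toNat, fun γ hγ r => ?_⟩
  rw [rAct_mul]
  refine (ordGE_order _).mono ?_
  have h1 := Finset.single_le_sum (f := fun x => ∑ r, (-(rSer (rAct (repThree r) x)).order).toNat)
    (fun _ _ => Nat.zero_le _) (hT γ hγ)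
  have h2 := Finset.single_le_sum
    (f := fun r => (-(rSer (rAct (repThree r) (rAct γ f))).order).toNat)
    (fun _ _ => Nat.zero_le _) (Finset.mem_univ r)
  omega

/-- Poles of bounded order in a product of linear factors. -/
theorem ordGE_coeff_linear {R : Type*} [CommRing R] {ι : Type*} (s : Finset ι)
    (r : ι → LaurentSeries R) (D : ℤ) (hr : ∀ i ∈ s, OrdGE (-D) (r i)) (j : ℕ) :
    OrdGE (-(D * ((s.card : ℤ) - j))) ((∏ i ∈ s, (X - Polynomial.C (r i))).coeff j) := by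
  classical
  induction s using Finset.induction generalizing j with
  | empty =>
    rw [Finset.prod_empty, Polynomial.coeff_one]
    split_ifs with h
    · subst h; simpa using ordGE_one
    · exact ordGE_zero _
  | insert b t hb ih =>
    have h := ih fun i hi => hr i (Finset.mem_insert_of_mem hi)
    rw [Finset.prod_insert hb, sub_mul, Polynomial.coeff_sub, Polynomial.coeff_C_mul,
      Finset.card_insert_of_notMem hb]
    refine OrdGE.sub ?_ (((hr b (Finset.mem_insert_self _ _)).mul (h j)).mono ?_)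
    · cases j with
      | zero => rw [Polynomial.coeff_X_mul_zero]; exact ordGE_zero _
      | succ j => rw [Polynomial.coeff_X_mul]; exact (h j).mono (by push_cast; linarith)
    · push_cast; linarith

variable {q : ℕ}

/-- A polynomial with an integral value at a series with a pole is integral. -/
theorem exists_poly_intS {ϖ : baseO A (constL A q).toSubfield}
    (hC : ConstHyp A (constL A q).toSubfield ϖ) {S : LaurentSeries (constK A q)} {k : ℤ}
    (hS : LeadS A q S k) (hk : k < 0) (n : ℕ) : ∀ P : (constK A q)[X], P.natDegree ≤ n →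
    P.eval₂ HahnSeries.C S ∈ intS A q →
    ∃ P' : (baseO A (constL A q).toSubfield)[X], P'.natDegree ≤ n ∧ P'.map (baseK A q) = P := by
  induction n with
  | zero =>
    intro P hP h
    rw [eq_C_of_natDegree_le_zero hP, eval₂_C] at h
    obtain ⟨a, ha⟩ := exists_baseK_of_C_mem hC h
    exact ⟨Polynomial.C a, by simp, by rw [Polynomial.map_C, ha]; exact (eq_C_of_natDegree_le_zero hP).symm⟩
  | succ n ih =>
    intro P hP h
    set c := P.coeff (n + 1)
    set P₀ := P - Polynomial.C c * X ^ (n + 1)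
    have hdeg : P₀.natDegree ≤ n := by
      refine natDegree_le_iff_coeff_eq_zero.2 fun i hi => ?_
      simp only [P₀, Polynomial.coeff_sub, Polynomial.coeff_C_mul, Polynomial.coeff_X_pow]
      rcases eq_or_ne i (n + 1) with rfl | hne
      · simp [c]
      · rw [if_neg hne, mul_zero, sub_zero]
        exact coeff_eq_zero_of_natDegree_lt (by omega)
    have hsplit : P.eval₂ HahnSeries.C S =
        P₀.eval₂ HahnSeries.C S + HahnSeries.C c * S ^ (n + 1) := by
      simp [P₀, eval₂_sub, eval₂_mul, eval₂_C, eval₂_X_pow]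
    have hlow : OrdGE ((n : ℤ) * k) (P₀.eval₂ HahnSeries.C S) := by
      rw [eval₂_eq_sum_range' _ (Nat.lt_succ_of_le hdeg)]
      intro i hi
      rw [HahnSeries.coeff_sum]
      refine Finset.sum_eq_zero fun j hj => ?_
      refine ((ordGE_C _).mul (hS.ordGE.pow j)).mono ?_ i hi
      rw [Finset.mem_range] at hj
      have hjn : (j : ℤ) ≤ n := by omega
      nlinarith
    obtain ⟨a, ha, hak, hau⟩ := hS.pow (n + 1)
    obtain ⟨e, he⟩ := h
    have hcoef : c * baseK A q (a.coeff (((n + 1 : ℕ) : ℤ) * k)) =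
        baseK A q (e.coeff (((n + 1 : ℕ) : ℤ) * k)) := by
      have hc := congrArg (fun T : LaurentSeries (constK A q) => T.coeff (((n + 1 : ℕ) : ℤ) * k))
        (he.trans hsplit)
      simp only [HahnSeries.coeff_add] at hc
      rw [hlow _ (by push_cast; nlinarith), zero_add, HahnSeries.C_mul_eq_smul,
        HahnSeries.coeff_smul, smul_eq_mul, ← ha] at hc
      simp only [serO, coeffMap_coeff] at hc
      exact hc.symm
    obtain ⟨u, hu⟩ := isUnit_of_resT_ne hC hau
    have hc : c = baseK A q (e.coeff (((n + 1 : ℕ) : ℤ) * k) * ↑u⁻¹) := by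
      rw [map_mul, ← hcoef, mul_assoc, ← map_mul, ← hu, Units.mul_inv, map_one, mul_one]
    obtain ⟨P₁, hP₁, hP₁'⟩ := ih P₀ hdeg (by
      rw [← sub_eq_of_eq_add hsplit]
      exact sub_mem ⟨e, he⟩ (mul_mem (hc ▸ intS_C _) (pow_mem hS.mem_intS _)))
    refine ⟨P₁ + Polynomial.C (e.coeff (((n + 1 : ℕ) : ℤ) * k) * ↑u⁻¹) * X ^ (n + 1), ?_, ?_⟩
    · refine (natDegree_add_le _ _).trans (max_le (hP₁.trans (Nat.le_succ n)) ?_)
      exact natDegree_C_mul_X_pow_le _ _
    · rw [Polynomial.map_add, hP₁', Polynomial.map_mul, Polynomial.map_C, ← hc, Polynomial.map_pow, map_X]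
      simp [P₀]

variable {g : ℕ} (hζ : ∀ b : ℤ, eta N b ∈ constK A 2)
  {ϖ : baseO A (constL A 2).toSubfield} (hA : A.LiesOverPrime 2) (hN : N = 2 * (3 * g))
  (hg : ¬ 2 ∣ 3 * g) (hC : ConstHyp A (constL A 2).toSubfield ϖ)
include hA hN hg hC

/-- An invariant element of `finR` is an integral polynomial in the coordinate. -/
theorem exists_poly_finR {c : rN N (constK A 2)} (hinv : ∀ γ ∈ Gamma 3, rAct γ c = c)
    (hc : c ∈ finR A N) {d : ℕ} (hd : OrdGE (-((d * (2 * g) : ℕ) : ℤ)) (rSer c)) :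
    ∃ P : (baseO A (constL A 2).toSubfield)[X], P.natDegree ≤ d ∧
      c = P.eval₂ (rC.comp (baseK A 2)) (muR hN hζ) := by
  have h0 := hc 1 (one_mem _)
  simp only [one_mul] at h0
  obtain ⟨P, hP, rfl⟩ := exists_poly_three hζ hA hN hg hC d c hinv (fun r hr => (h0 r).2 hr) hd
  have h1 := (h0 0).1
  rw [repThree_zero, rAct_one, hom_eval₂,
    show (rSer (N := N)).comp rC = (HahnSeries.C : constK A 2 →+* _) from
      RingHom.ext fun a => rSer_rC a] at h1
  obtain ⟨P', hP', rfl⟩ := exists_poly_intS hC (lead_mu_infty hζ hA hN hg hC)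
    (by have := g_pos' hN; omega) d P hP h1
  exact ⟨P', hP', by rw [eval₂_map]⟩

set_option maxHeartbeats 800000 in
/-- **The expansion principle.** -/
theorem finR_mem_chart {f : rN N (constK A 2)} (hf : f ∈ finR A N) {d : ℕ}
    (hd : ∀ γ ∈ Gamma 3, OrdGE (-((d * (2 * g) : ℕ) : ℤ)) (rSer (rAct γ f))) :
    toFl f ∈ chartF A 2 (muF hζ hN) ∧
      toFl f * (muF hζ hN)⁻¹ ^ d ∈ chartF A 2 (muF hζ hN)⁻¹ := by
  classical
  have hμ : muF hζ hN ≠ 0 := fun e => by
    have h := congrArg ser e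
    rw [map_zero] at h
    exact (lead_mu_infty hζ hA hN hg hC).ne_zero ((ser_rMer _).symm.trans h)
  obtain ⟨T, hT, hT'⟩ := exists_translates f
  set Q : (rN N (constK A 2))[X] := ∏ x ∈ T, (X - Polynomial.C x) with hQdef
  have hQ : Q.Monic := monic_prod_of_monic _ _ fun x _ => monic_X_sub_C _
  have hdegQ : Q.natDegree = T.card := by rw [hQdef, natDegree_finsetProd_X_sub_C_eq_card]
  have hfix : ∀ δ ∈ Gamma 3, ∀ j, rAct δ (Q.coeff j) = Q.coeff j := by
    intro δ hδ j
    have hin : ∀ x ∈ T, rAct δ x ∈ T := fun x hx => by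
      obtain ⟨γ, hγ, rfl⟩ := hT' x hx
      rw [← rAct_mul]; exact hT _ (mul_mem hγ hδ)
    have hinj : Function.Injective (rAct δ : rN N (constK A 2) → rN N (constK A 2)) := fun x y e => by
      have := congrArg (rAct δ⁻¹) e
      rwa [← rAct_mul, ← rAct_mul, mul_inv_cancel, rAct_one, rAct_one] at this
    have himg : T.image (rAct δ) = T := Finset.eq_of_subset_of_card_le
      (fun y hy => by obtain ⟨x, hx, rfl⟩ := Finset.mem_image.1 hy; exact hin x hx)
      (Finset.card_image_of_injective _ hinj).ge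
    have h1 : Q.map (rAct δ : rN N (constK A 2) →+* _) = Q := by
      rw [hQdef, Polynomial.map_prod]
      simp only [Polynomial.map_sub, Polynomial.map_X, Polynomial.map_C]
      conv_rhs => rw [← himg, Finset.prod_image fun x _ y _ e => hinj e]
    conv_rhs => rw [← h1]
    rw [coeff_map]
  have hfin : ∀ j, Q.coeff j ∈ finR A N := by
    have hl : Q ∈ lifts (finR A N).subtype := by
      refine Subsemiring.prod_mem _ fun x hx => ?_
      obtain ⟨γ, hγ, rfl⟩ := hT' x hx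
      exact ⟨X - Polynomial.C ⟨_, rAct_mem_finR hf hγ⟩, by simp⟩
    exact fun j => by
      obtain ⟨y, hy⟩ := (lifts_iff_coeff_lifts _).1 hl j
      exact hy ▸ y.2
  have hbound : ∀ j ≤ T.card,
      OrdGE (-((d * (T.card - j) * (2 * g) : ℕ) : ℤ)) (rSer (Q.coeff j)) := fun j hj => by
    have e : rSer (Q.coeff j) = (∏ x ∈ T, (X - Polynomial.C (rSer x))).coeff j := by
      rw [← coeff_map, hQdef, Polynomial.map_prod]
      simp
    rw [e]
    refine (ordGE_coeff_linear T (fun x => rSer x) ((d * (2 * g) : ℕ) : ℤ) (fun x hx => ?_) j).mono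
      (le_of_eq ?_)
    · obtain ⟨γ, hγ, rfl⟩ := hT' x hx
      exact hd γ hγ
    · push_cast [hj]; ring
  have hP : ∀ j, ∃ P : (baseO A (constL A 2).toSubfield)[X], j ≤ T.card →
      P.natDegree ≤ d * (T.card - j) ∧
        toFl (Q.coeff j) = P.eval₂ (cF A 2 N) (muF hζ hN) := fun j => by
    by_cases hj : j ≤ T.card
    · obtain ⟨P, hP, e⟩ := exists_poly_finR hζ hA hN hg hC (fun γ hγ => hfix γ hγ j) (hfin j)
        (hbound j hj)
      exact ⟨P, fun _ => ⟨hP, by rw [e, hom_eval₂]; rfl⟩⟩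
    · exact ⟨0, fun h => absurd h hj⟩
  choose P hP using hP
  set Q' := Q.map (toFl (N := N) (K := constK A 2))
  have hQ' : Q'.Monic := hQ.map _
  have hdegQ' : Q'.natDegree = T.card := by rw [← hdegQ]; exact hQ.natDegree_map _
  have hroot : Q'.eval₂ (RingHom.id _) (toFl f) = 0 := by
    rw [eval₂_id, eval_map, eval₂_at_apply]
    rw [show Q.eval f = 0 from by
      rw [hQdef, eval_prod]
      exact Finset.prod_eq_zero (hT 1 (one_mem _)) (by rw [rAct_one]; simp), map_zero]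
  have hhigh : ∀ j, T.card < j → Q'.coeff j = 0 := fun j hj =>
    coeff_eq_zero_of_natDegree_lt (hdegQ'.trans_lt hj)
  constructor
  · have hl : Q' ∈ lifts (eval₂RingHom (cF A 2 N) (muF hζ hN)) := by
      refine (lifts_iff_coeff_lifts _).2 fun j => ?_
      rcases le_or_gt j T.card with hj | hj
      · exact ⟨P j, by rw [coe_eval₂RingHom, coeff_map, (hP j hj).2]⟩
      · exact ⟨0, by rw [map_zero, hhigh j hj]⟩
    obtain ⟨R, hR, -, hRm⟩ := lifts_and_degree_eq_and_monic hl hQ'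
    exact ⟨R, hRm, by rw [← eval_map, hR]; rwa [eval₂_id] at hroot⟩
  · set w := (muF hζ hN)⁻¹
    have hl : Q'.scaleRoots (w ^ d) ∈ lifts (eval₂RingHom (cF A 2 N) w) := by
      refine (lifts_iff_coeff_lifts _).2 fun j => ?_
      rw [coeff_scaleRoots, hdegQ']
      rcases le_or_gt j T.card with hj | hj
      · refine ⟨reflect (d * (T.card - j)) (P j), ?_⟩
        have e := eval_inv_eq_reflect (cF A 2 N) (inv_ne_zero hμ) (hP j hj).1
        rw [inv_inv] at e
        rw [coe_eval₂RingHom, coeff_map, (hP j hj).2, e, ← pow_mul, mul_assoc, ← mul_pow,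
          mul_inv_cancel₀ hμ, one_pow, mul_one]
      · exact ⟨0, by rw [map_zero, hhigh j hj, zero_mul]⟩
    obtain ⟨R, hR, -, hRm⟩ := lifts_and_degree_eq_and_monic hl ((monic_scaleRoots_iff _).2 hQ')
    refine ⟨R, hRm, ?_⟩
    rw [← eval_map, hR]
    have h := scaleRoots_eval₂_eq_zero (RingHom.id _) (s := w ^ d) hroot
    rwa [eval₂_id, RingHom.id_apply, mul_comm] at h

theorem aR_inv {γ : SL(2, ℤ)} (hγ : γ ∈ Gamma 3) : rAct γ (aR hζ hN) = aR hζ hN := by
  rw [aR, map_sub, map_pow, map_one, rAct_muR hN hζ hγ]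

/-- The coordinate is regular at the finite cusps. -/
theorem muR_mem_finR : muR hN hζ ∈ finR A N := fun γ hγ r => by
  rw [rAct_mul, rAct_muR hN hζ hγ]
  refine ⟨?_, fun hr => ordGE_mu_finite hζ hA hN hg hC hr⟩
  have h := (lead_mu_rep hζ hA hN hg hC r (show 0 < 3 by norm_num)).mem_intS
  rw [map_sub, map_sub, rAct_rC, rSer_rC] at h
  have h1 : HahnSeries.C (omK hN hζ ^ 0) ∈ intS A 2 := by
    rw [pow_zero, map_one]; exact one_mem _
  have := add_mem h h1
  rwa [sub_add_cancel] at this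

omit hA hg hC in
/-- Poles at some cusps are cleared by a multiplier. -/
theorem exists_mul_pow_finR {f e : rN N (constK A 2)}
    (hf : ∀ γ ∈ Gamma 3, ∀ r, rSer (rAct (γ * repThree r) f) ∈ intS A 2)
    (he : e ∈ finR A N) (heinv : ∀ γ ∈ Gamma 3, rAct γ e = e)
    (hr : ∀ r, r ≠ 0 → OrdGE 1 (rSer (rAct (repThree r) e)) ∨
      ∀ γ ∈ Gamma 3, OrdGE 0 (rSer (rAct (γ * repThree r) f))) :
    ∃ k₀ : ℕ, ∀ k ≥ k₀, f * e ^ k ∈ finR A N := by
  obtain ⟨k₀, hk₀⟩ := exists_ordGE_translates f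
  refine ⟨k₀, fun k hk γ hγ r => ?_⟩
  have h := he γ hγ r
  simp only [map_mul, map_pow]
  refine ⟨mul_mem (hf γ hγ r) (pow_mem h.1 k), fun h0 => ?_⟩
  rcases hr r h0 with h1 | h1
  · refine ((hk₀ γ hγ r).mul (OrdGE.pow ?_ k)).mono (show (0 : ℤ) ≤ -(k₀ : ℤ) + (k : ℤ) * 1 by omega)
    rw [rAct_mul, heinv γ hγ]
    exact h1
  · simpa using (h1 γ hγ).mul ((h.2 h0).pow k)

omit hA hg hC in
/-- A bound at infinity. -/
theorem exists_bound_infty (f : rN N (constK A 2)) : ∃ d₀ : ℕ, ∀ d ≥ d₀, ∀ γ ∈ Gamma 3,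
    OrdGE (-((d * (2 * g) : ℕ) : ℤ)) (rSer (rAct γ f)) := by
  obtain ⟨k₀, hk₀⟩ := exists_ordGE_translates f
  refine ⟨k₀, fun d hd γ hγ => ?_⟩
  have h := hk₀ γ hγ 0
  rw [repThree_zero, mul_one] at h
  refine h.mono ?_
  have := Nat.le_mul_of_pos_right d (show 0 < 2 * g by have := g_pos' hN; omega)
  omega

/-- The product of the chosen coordinates vanishing at the cusps, in either chart. -/
theorem exists_mul_clB {f : rN N (constK A 2)}
    (hf : ∀ γ ∈ Gamma 3, ∀ r, rSer (rAct (γ * repThree r) f) ∈ intS A 2) :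
    ∃ j₀ : ℕ, ∀ j ≥ j₀, toFl f * (muF hζ hN ^ 3 - 1) ^ j ∈ chartF A 2 (muF hζ hN) ∧
      toFl f * ((muF hζ hN)⁻¹ * (1 - (muF hζ hN)⁻¹ ^ 3)) ^ j ∈ chartF A 2 (muF hζ hN)⁻¹ := by
  have hμ := muR_mem_finR hζ hA hN hg hC
  have ha : aR hζ hN ∈ finR A N := sub_mem (pow_mem hμ 3) (one_mem _)
  obtain ⟨k₀, hk₀⟩ := exists_mul_pow_finR hN (f := f) hf ha (fun γ hγ => aR_inv hζ hA hN hg hC hγ)
    fun r hr => Or.inl ((lead_aR_finite hζ hA hN hg hC hr).ordGE.mono (by
      have := g_pos' hN; omega))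
  obtain ⟨d₀, hd₀⟩ := exists_bound_infty hN (A := A) (f * aR hζ hN ^ k₀)
  set d := max d₀ (3 * k₀)
  obtain ⟨h1, h2⟩ := finR_mem_chart hζ hA hN hg hC (hk₀ k₀ le_rfl) (hd₀ d (le_max_left _ _))
  have ea : toFl (aR hζ hN) = muF hζ hN ^ 3 - 1 := by simp [aR, muF]
  rw [map_mul, map_pow, ea] at h1 h2
  set μ := muF hζ hN
  have hμ0 : μ ≠ 0 := fun e => by
    have h := congrArg ser e
    rw [map_zero] at h
    exact (lead_mu_infty hζ hA hN hg hC).ne_zero ((ser_rMer _).symm.trans h)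
  have hmem : ∀ b : flN N (constK A 2), b ∈ chartF A 2 b :=
    fun b => ⟨X - Polynomial.C X, monic_X_sub_C _, by simp⟩
  have hw := hmem μ⁻¹
  have hone : 1 - μ⁻¹ ^ 3 ∈ chartF A 2 μ⁻¹ := sub_mem (one_mem _) (pow_mem hw 3)
  refine ⟨max k₀ d, fun j hj => ⟨?_, ?_⟩⟩
  · obtain ⟨i, rfl⟩ := Nat.exists_eq_add_of_le ((le_max_left _ _).trans hj)
    rw [_root_.pow_add, ← mul_assoc]
    exact mul_mem h1 (pow_mem (sub_mem (pow_mem (hmem μ) 3) (one_mem _)) i)
  · obtain ⟨i, hi⟩ := Nat.exists_eq_add_of_le ((le_max_right _ _).trans hj)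
    obtain ⟨i', hi'⟩ := Nat.exists_eq_add_of_le ((le_max_left _ _).trans hj)
    have e : toFl f * (μ⁻¹ * (1 - μ⁻¹ ^ 3)) ^ j = toFl f * (μ ^ 3 - 1) ^ k₀ * μ⁻¹ ^ d *
        (μ⁻¹ ^ (3 * k₀ + i) * (1 - μ⁻¹ ^ 3) ^ i') := by
      have hfac : (μ ^ 3 - 1) * μ⁻¹ ^ 3 = 1 - μ⁻¹ ^ 3 := by field_simp
      rw [mul_pow, show (1 - μ⁻¹ ^ 3) ^ j =
        ((μ ^ 3 - 1) * μ⁻¹ ^ 3) ^ k₀ * (1 - μ⁻¹ ^ 3) ^ i' by rw [hfac, ← _root_.pow_add, hi'],
        hi, mul_pow]
      ring
    rw [e]
    exact mul_mem h2 (mul_mem (pow_mem hw _) (pow_mem hone _))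

end FA.Carayol

end
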