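import Fermat.Agent.Carayol.Two.Perm
import Fermat.Agent.Carayol.Two.Principle
import Fermat.Agent.Carayol.Count.OnBranch

/-!
# The points: labels, residues, places

Away from the points over `μ = 0` in the finite chart exactly one label vanishes at a point.
-/

set_option autoImplicit false
set_option linter.unusedSectionVars false
set_option linter.style.haveILetI false
set_option linter.unusedSimpArgs false

noncomputable section

namespace FA.Carayol

open CongruenceSubgroup ModularCurve FA.Level FA.Mazur.Wp Polynomial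
open scoped MatrixGroups

local notation "Qb" => AlgebraicClosure ℚ

/-- Exactly one of three elements with vanishing product lies in a prime. -/
theorem existsUnique_mem_prime {R : Type*} [CommRing R] {P : Ideal R} (hP : P.IsPrime)
    (f : Option (ZMod 2) → R) {e t : R}
    (he : ∀ i j k, i ≠ j → i ≠ k → j ≠ k → f i * f j + f i * f k + f j * f k = e)
    (ht : ∀ i j k, i ≠ j → i ≠ k → j ≠ k → f i * f j * f k = t)
    (htP : t ∈ P) (heP : e ∉ P) : ∃! l, f l ∈ P := by
  obtain ⟨j, k, h1, h2, h3, -⟩ := optTwo_others none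
  have hex : ∃ l, f l ∈ P := by
    rw [← ht _ _ _ h1 h2 h3] at htP
    rcases hP.mem_or_mem htP with h | h
    · rcases hP.mem_or_mem h with h | h <;> exact ⟨_, h⟩
    · exact ⟨_, h⟩
  obtain ⟨l, hl⟩ := hex
  refine ⟨l, hl, fun l' hl' => by_contra fun hne => heP ?_⟩
  obtain ⟨k', hk1, hk2⟩ :=
    (show ∀ a b : Option (ZMod 2), a ≠ b → ∃ k, a ≠ k ∧ b ≠ k by decide) l' l hne
  rw [← he _ _ _ hne hk1 hk2]
  exact add_mem (add_mem (P.mul_mem_right _ hl') (P.mul_mem_right _ hl')) (P.mul_mem_right _ hl)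

variable [Algebra Qb ℂ] {A : ValuationSubring Qb} {q : ℕ} {N : ℕ} [NeZero N]
  {ϖ : baseO A (constL A q).toSubfield} {z : flN N (constK A q)} {ℓ : ℕ}

theorem cF_mem_chartB (c : baseO A (constL A q).toSubfield) (w : flN N (constK A q)) :
    cF A q N c ∈ chartF A q w :=
  ⟨X - Polynomial.C (Polynomial.C c), monic_X_sub_C _, by simp⟩

/-- An automorphism fixing a point fixes its residues. -/
theorem fixesPt_of_stab (hC : ConstHyp A (constL A q).toSubfield ϖ) (hz : Coord A q ℓ z)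
    {p : Pt A q z} (hp : IsPtF ϖ p) {e : flN N (constK A q) ≃+* flN N (constK A q)}
    (he : e ∈ stabSet (galLvl A q ℓ) (ptSet p)) : FixesPt e p := by
  intro x
  obtain ⟨a, ha⟩ := exists_const_sub_mem p.1 hC hp.1 (by
    obtain ⟨y, hy, hye⟩ := hp.2
    rwa [show toChart A q z p.1 (Polynomial.C ϖ) = y from
      Subtype.ext ((phiB_C p.1 ϖ).trans hye.symm)]) x
  refine ⟨actB p.1 hC hz ⟨e, he.1⟩ x, rfl, ?_⟩
  have h1 : actB p.1 hC hz ⟨e, he.1⟩ (x - toChart A q z p.1 (Polynomial.C a)) ∈ p.2 :=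
    ((mem_stabSet_ptSet hC hz ⟨e, he.1⟩).1 he _).2 ha
  rw [map_sub, actB_toChart] at h1
  have h2 := p.2.sub_mem h1 ha
  rwa [sub_sub_sub_cancel_right] at h2

theorem chart_ext {w : flN N (constK A q)} {x y : chartF A q w}
    (h : (chartF A q w).subtype x = (chartF A q w).subtype y) : x = y := Subtype.ext h

variable {g : ℕ} {ϖ : baseO A (constL A 2).toSubfield}
  (hζ : ∀ b : ℤ, eta N b ∈ constK A 2) (hA : A.LiesOverPrime 2) (hN : N = 2 * (3 * g))
  (hg : ¬ 2 ∣ 3 * g) (hC : ConstHyp A (constL A 2).toSubfield ϖ)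

/-- The equation of the cusps in the two charts. -/
def clF (b : Bool) : flN N (constK A 2) :=
  bif b then (muF hζ hN)⁻¹ * (1 - (muF hζ hN)⁻¹ ^ 3) else muF hζ hN ^ 3 - 1

/-- The points on three components. -/
def SsPt (p : Pt A 2 (muF hζ hN)) : Prop := p.1 = false ∧ muF hζ hN ∈ ptSet p

theorem clF_mem (b : Bool) : clF hζ hN b ∈ chartF A 2 (coordB A 2 (muF hζ hN) b) := by
  have h := mem_chartF_self (A := A) (coordB A 2 (muF hζ hN) b)
  cases b with
  | false => exact sub_mem (pow_mem h 3) (one_mem _)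
  | true => exact mul_mem h (sub_mem (one_mem _) (pow_mem h 3))

variable {p : Pt A 2 (muF hζ hN)}

include hA hC in
theorem two_mem_pt (hp : IsPtF ϖ p) :
    (2 : chartF A 2 (coordB A 2 (muF hζ hN) p.1)) ∈ p.2 := by
  obtain ⟨c, hc⟩ := (pi_dvd_iff hC).2 (resO_two hA)
  obtain ⟨x, hx, hxe⟩ := hp.2
  have e : (2 : chartF A 2 (coordB A 2 (muF hζ hN) p.1)) = x * ⟨_, cF_mem_chartB c _⟩ :=
    Subtype.ext (by
      show (2 : flN N (constK A 2)) = (x : flN N (constK A 2)) * cF A 2 N c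
      rw [hxe, ← map_mul, ← hc, map_ofNat])
  rw [e]
  exact p.2.mul_mem_right _ hx

include hA hC in
theorem nine_notMem_pt (hp : IsPtF ϖ p) :
    (9 : chartF A 2 (coordB A 2 (muF hζ hN) p.1)) ∉ p.2 := fun h9 => by
  refine hp.1.ne_top ((Ideal.eq_top_iff_one _).2 ?_)
  rw [show (1 : chartF A 2 (coordB A 2 (muF hζ hN) p.1)) = 9 - 4 * 2 by norm_num]
  exact p.2.sub_mem h9 (p.2.mul_mem_left 4 (two_mem_pt hζ hA hN hC hp))

/-- A point over `μ = 0` is away from the cusps. -/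
theorem clF_notMem_of_ss (hp : p.2.IsMaximal) (hs : SsPt hζ hN p) :
    clF hζ hN p.1 ∉ ptSet p := by
  intro hcl
  obtain ⟨hμc, hμ⟩ := mem_ptSet.1 hs.2
  obtain ⟨hclc, hcl⟩ := mem_ptSet.1 hcl
  refine hp.ne_top ((Ideal.eq_top_iff_one _).2 ?_)
  rw [show (1 : chartF A 2 (coordB A 2 (muF hζ hN) p.1)) =
      ⟨_, hμc⟩ ^ 3 - ⟨_, hclc⟩ from Subtype.ext (by
    push_cast
    rw [hs.1]
    simp [clF])]
  exact p.2.sub_mem (p.2.pow_mem_of_mem hμ 3 (by norm_num)) hcl

include hA hg hC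

/-- **Exactly one label vanishes at a point away from `μ = 0`.** -/
theorem existsUnique_phiL (hp : IsPtF ϖ p) (hss : ¬ SsPt hζ hN p) :
    ∃! l, phiL hζ hN p.1 l ∈ ptSet p := by
  obtain ⟨b, P⟩ := p
  let f : Option (ZMod 2) → chartF A 2 (coordB A 2 (muF hζ hN) b) :=
    fun l => ⟨phiL hζ hN b l, phiL_mem hζ hA hN hg hC b l⟩
  have hiff : ∀ l, phiL hζ hN b l ∈ ptSet (⟨b, P⟩ : Pt A 2 (muF hζ hN)) ↔ f l ∈ P := fun l =>
    ⟨fun h => (mem_ptSet.1 h).2, fun h => mem_ptSet.2 ⟨_, h⟩⟩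
  simp only [hiff]
  have hμ := mem_chartF_self (A := A) (coordB A 2 (muF hζ hN) b)
  have h2 := two_mem_pt hζ hA hN hC hp
  have h9 := nine_notMem_pt hζ hA hN hC hp
  cases b with
  | false =>
    refine existsUnique_mem_prime hp.1.isPrime f (e := 9 * ⟨muF hζ hN, hμ⟩ ^ 2)
      (t := 2 * (2 * (⟨muF hζ hN, hμ⟩ ^ 3 - 1)))
      (fun i j k h1 h2 h3 => chart_ext ?_) (fun i j k h1 h2 h3 => chart_ext ?_)
      (P.mul_mem_right _ h2) ?_
    · have h := (Fl_vieta hζ hN h1 h2 h3).2.1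
      simp only [map_mul, map_add, map_pow, map_ofNat]
      simp only [Subring.subtype_apply, f, phiL, cond_false, mul_one]
      linear_combination h
    · have h := (Fl_vieta hζ hN h1 h2 h3).2.2
      rw [aF] at h
      simp only [map_mul, map_sub, map_pow, map_one, map_ofNat]
      simp only [Subring.subtype_apply, f, phiL, cond_false, mul_one]
      linear_combination h
    · intro h
      rcases hp.1.isPrime.mem_or_mem h with h | h
      · exact h9 h
      · exact hss ⟨rfl, mem_ptSet.2 ⟨hμ, hp.1.isPrime.mem_of_pow_mem 2 h⟩⟩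
  | true =>
    have h1' : (muF hζ hN)⁻¹ * muF hζ hN = 1 := inv_mul_cancel₀ (muF_ne hζ hA hN hg hC)
    refine existsUnique_mem_prime hp.1.isPrime f (e := 9)
      (t := 2 * (2 * (1 - ⟨(muF hζ hN)⁻¹, hμ⟩ ^ 3)))
      (fun i j k h1 h2 h3 => chart_ext ?_) (fun i j k h1 h2 h3 => chart_ext ?_)
      (P.mul_mem_right _ h2) h9
    · have h := (Fl_vieta hζ hN h1 h2 h3).2.1
      simp only [map_mul, map_add, map_sub, map_pow, map_one, map_ofNat]
      simp only [Subring.subtype_apply, f, phiL, cond_true]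
      linear_combination (muF hζ hN)⁻¹ ^ 2 * h + 9 * ((muF hζ hN)⁻¹ * muF hζ hN + 1) * h1'
    · have h := (Fl_vieta hζ hN h1 h2 h3).2.2
      rw [aF] at h
      simp only [map_mul, map_add, map_sub, map_pow, map_one, map_ofNat]
      simp only [Subring.subtype_apply, f, phiL, cond_true]
      linear_combination (muF hζ hN)⁻¹ ^ 3 * h +
        4 * (((muF hζ hN)⁻¹ * muF hζ hN) ^ 2 + (muF hζ hN)⁻¹ * muF hζ hN + 1) * h1'

/-- At a point over `μ = 0` all roots vanish. -/
theorem Sl_mem_of_ss (hp : IsPtF ϖ p) (hs : SsPt hζ hN p) (l : Option (ZMod 2)) :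
    Sl hζ hN l ∈ ptSet p := by
  obtain ⟨b, P⟩ := p
  obtain ⟨rfl, hμm⟩ := hs
  obtain ⟨hμ, hμP⟩ := mem_ptSet.1 hμm
  have ha : aF hζ hN ∈ chartF A 2 (coordB A 2 (muF hζ hN) false) := clF_mem hζ hN false
  have hS : Sl hζ hN l ∈ chartF A 2 (coordB A 2 (muF hζ hN) false) := Sl_mem hζ hA hN hg hC l
  refine mem_ptSet.2 ⟨hS, hp.1.isPrime.mem_of_pow_mem 3 ?_⟩
  rw [show (⟨Sl hζ hN l, hS⟩ : chartF A 2 (coordB A 2 (muF hζ hN) false)) ^ 3 =
      (⟨muF hζ hN, hμ⟩ : chartF A 2 (coordB A 2 (muF hζ hN) false)) *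
          (3 * (⟨aF hζ hN, ha⟩ * ⟨Sl hζ hN l, hS⟩)) -
        2 * ⟨aF hζ hN, ha⟩ ^ 2 from chart_ext (by
      simp only [map_mul, map_sub, map_pow, map_ofNat]
      simp only [Subring.subtype_apply]
      linear_combination Sl_cubic hζ hA hN hg hC l)]
  exact P.sub_mem (P.mul_mem_right _ hμP) (P.mul_mem_right _ (two_mem_pt hζ hA hN hC hp))

/-- The label of a component at a point. -/
theorem phiL_mem_of_small {W : ValuationSubring (flN N (constK A 2))}
    (hW : IsVertF A 2 ϖ (muF hζ hN) W) (hT : Thru p W) {l : Option (ZMod 2)}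
    (hl : W.valuation (Fl hζ hN l) < 1) : phiL hζ hN p.1 l ∈ ptSet p :=
  mem_ptSet.2 ⟨phiL_mem hζ hA hN hg hC p.1 l, hT ⟨_, phiL_mem hζ hA hN hg hC p.1 l⟩
    ((val_phiL_iff hζ hA hN hg hC hW p.1 l).2 hl)⟩

/-- An element fixing a point away from `μ = 0` fixes its label. -/
theorem permF_label (hp : IsPtF ϖ p) (hss : ¬ SsPt hζ hN p) (e : galLvl (N := N) A 2 3)
    (he : (e : flN N (constK A 2) ≃+* flN N (constK A 2)) ∈ stabSet (galLvl A 2 3) (ptSet p))
    {l : Option (ZMod 2)} (hl : phiL hζ hN p.1 l ∈ ptSet p) : permF hζ hN e l = l := by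
  refine (existsUnique_phiL hζ hA hN hg hC hp hss).unique ?_ hl
  have h := (he.2 _).2 hl
  have hw : (e : flN N (constK A 2) ≃+* flN N (constK A 2))
      (bif p.1 then (muF hζ hN)⁻¹ else 1) = bif p.1 then (muF hζ hN)⁻¹ else 1 := by
    cases p.1 with
    | false => exact map_one _
    | true => exact galLvl_coord true hC (twoCoord hζ hA hN hg hC) e.2
  rwa [phiL, map_mul, Fl_permF, hw] at h

/-- An element preserving a component fixes its label. -/
theorem permF_small {W : ValuationSubring (flN N (constK A 2))}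
    (hW : IsVertF A 2 ϖ (muF hζ hN) W) (e : galLvl (N := N) A 2 3)
    (he : (e : flN N (constK A 2) ≃+* flN N (constK A 2)) ∈ stabVal (galLvl A 2 3) W)
    {l : Option (ZMod 2)} (hl : W.valuation (Fl hζ hN l) < 1) : permF hζ hN e l = l := by
  refine (existsUnique_label hζ hA hN hg hC hW).unique ?_ hl
  rw [← Fl_permF, val_lt_of_mem_stab he]
  exact hl

end FA.Carayol

end
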