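import Fermat.Agent.Carayol.Two.Abscissa

/-!
# The series of an abscissa minus `1/12`, and of the differences

`v` is toric if `N ∣ v.1`: then the constant term is a unit, otherwise the series starts at
`a = ± v.1`, `0 < a ≤ m`.
-/

set_option autoImplicit false
set_option linter.unusedSectionVars false
set_option linter.style.haveILetI false

noncomputable section

namespace FA.Carayol

open UpperHalfPlane hiding I
open HahnSeries ModularCurve FA.Level FA.ModField FA.Mazur.Wp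
open scoped MatrixGroups

local notation "Qb" => AlgebraicClosure ℚ

section general

variable {N : ℕ} [NeZero N] {K : Subfield ℂ} (hζ : ∀ b : ℤ, eta N b ∈ K)

theorem coeff_xK (v : ℤ × ℤ) (M : ℕ) :
    (xK K hζ v).coeff (M : ℤ) = xCoeff N v.1 ⟨eta N v.2, hζ v.2⟩ M := by
  rw [xK, HahnSeries.ofPowerSeries_apply_coeff, xSer, PowerSeries.coeff_mk]

theorem coeff_xK_of_neg (v : ℤ × ℤ) {i : ℤ} (hi : i < 0) : (xK K hζ v).coeff i = 0 :=
  ModularCurve.ofPowerSeries_coeff_of_neg _ hi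

theorem xK_eq_of_xVal {v w : ℤ × ℤ} (hv : IsVec N v) (hw : IsVec N w)
    (h : ∀ τ, xVal N v.1 v.2 τ = xVal N w.1 w.2 τ) : xK K hζ v = xK K hζ w := by
  refine HasKExp.unique (N := N) (f := xVal N v.1 v.2) ?_ ?_
  · unfold HasKExp; rw [coeffMap_xK]; exact hasExp_xVal _ _ hv
  · unfold HasKExp; rw [coeffMap_xK]
    exact (hasExp_xVal _ _ hw).congr (funext fun τ => (h τ).symm)

theorem xK_congr_dvd {v w : ℤ × ℤ} (hv : IsVec N v) (hw : IsVec N w)
    (h1 : (N : ℤ) ∣ v.1 - w.1) (h2 : (N : ℤ) ∣ v.2 - w.2) : xK K hζ v = xK K hζ w :=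
  xK_eq_of_xVal hζ hv hw fun τ => xVal_congr_dvd h1 h2 τ

theorem isVec_neg_vec {v : ℤ × ℤ} (hv : IsVec N v) : IsVec N (-v) := fun hd =>
  hv ⟨dvd_neg.1 hd.1, dvd_neg.1 hd.2⟩

theorem xK_neg {v : ℤ × ℤ} (hv : IsVec N v) : xK K hζ (-v) = xK K hζ v :=
  xK_eq_of_xVal hζ (isVec_neg_vec hv) hv fun τ => by
    have h := wpAt_neg N τ v
    simp only [wpAt] at h
    simp only [xVal, h]

end general

variable [Algebra Qb ℂ] {A : ValuationSubring Qb} {N m : ℕ} [NeZero N]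
  (hζ : ∀ b : ℤ, eta N b ∈ constK A 2) {ϖ : baseO A (constL A 2).toSubfield}

/-- The series minus `1/12`. -/
def xT (v : ℤ × ℤ) : LaurentSeries (constK A 2) :=
  xK (constK A 2) hζ v - HahnSeries.C (1 / 12 : constK A 2)

theorem xK_sub_xT (v w : ℤ × ℤ) :
    xK (constK A 2) hζ v - xK (constK A 2) hζ w = xT hζ v - xT hζ w := by simp [xT]

theorem ordGE_xT (v : ℤ × ℤ) : OrdGE 0 (xT hζ v) := fun i hi => by
  simp [xT, coeff_xK_of_neg hζ v hi, HahnSeries.C_apply, hi.ne]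

theorem coeff_xT_succ (v : ℤ × ℤ) (M : ℕ) :
    (xT hζ v).coeff ((M + 1 : ℕ) : ℤ) = xCoeff N v.1 ⟨eta N v.2, hζ v.2⟩ (M + 1) := by
  rw [xT, coeff_sub, coeff_xK, HahnSeries.C_apply,
    coeff_single_of_ne (show ((M + 1 : ℕ) : ℤ) ≠ 0 by omega), sub_zero]

theorem coeff_xT_zero (v : ℤ × ℤ) : (xT hζ v).coeff 0 = if (N : ℤ) ∣ v.1 then
    (⟨eta N v.2, hζ v.2⟩ : constK A 2) / (1 - ⟨eta N v.2, hζ v.2⟩) ^ 2 else 0 := by
  rw [xT, coeff_sub, show (0 : ℤ) = ((0 : ℕ) : ℤ) from rfl, coeff_xK, xCoeff, HahnSeries.C_apply]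
  simp

theorem inv_eta_mem (b : ℤ) : ((⟨eta N b, hζ b⟩ : constK A 2))⁻¹ = ⟨eta N (-b), hζ (-b)⟩ :=
  Subtype.ext (eta_inv N b)

variable (hA : A.LiesOverPrime 2) (hN : N = 2 * m) (hm : ¬ 2 ∣ m)
  (hC : ConstHyp A (constL A 2).toSubfield ϖ)

include hN in
theorem GoodVec.isVec {v : ℤ × ℤ} (h : GoodVec m v) : IsVec N v := fun hd =>
  h ⟨(Dvd.intro_left 2 (by rw [hN]; push_cast; ring)).trans hd.1,
    (Dvd.intro_left 2 (by rw [hN]; push_cast; ring)).trans hd.2⟩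

include hA hN hm hC

/-- `η / (1 - η)²` is a unit. -/
theorem exists_theta {b : ℤ} (hb : ¬ (m : ℤ) ∣ b) :
    ∃ θ u : baseO A (constL A 2).toSubfield, θ = etaT A hζ b * u ^ 2 ∧
      (1 - etaT A hζ b) * u = 1 ∧ resO A 2 θ ≠ 0 ∧
      baseK A 2 θ = (⟨eta N b, hζ b⟩ : constK A 2) / (1 - ⟨eta N b, hζ b⟩) ^ 2 := by
  have h1 : resO A 2 (1 - etaT A hζ b) ≠ 0 := by
    rw [map_sub, map_one, sub_ne_zero]
    exact (resO_etaT_ne_one hζ hA hN hm hb).symm
  obtain ⟨u, hu⟩ := (isUnit_of_resT_ne hC h1).exists_right_inv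
  refine ⟨_, u, rfl, hu, resO_ne_of_isUnit ((isUnit_etaT A hζ b).mul
    ((IsUnit.of_mul_eq_one _ ((mul_comm _ _).trans hu)).pow 2)), ?_⟩
  have h2 := congrArg (baseK A 2) hu
  rw [map_mul, map_sub, map_one, baseK_etaT] at h2
  rw [map_mul, map_pow, baseK_etaT, div_eq_mul_inv, ← inv_pow, ← inv_eq_of_mul_eq_one_right h2]

theorem coeff_xT_succ_mem (v : ℤ × ℤ) (M : ℕ) :
    (xT hζ v).coeff ((M + 1 : ℕ) : ℤ) ∈ (baseK A 2).range := by
  rw [coeff_xT_succ, inv_eq_iff_eq_inv.1 (inv_eta_mem hζ v.2)]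
  simp only [xCoeff, inv_inv]
  refine (sum_mem fun x _ => mul_mem (natCast_mem _ _) (sub_mem (add_mem ?_ ?_) ?_))
  · split_ifs
    · exact ⟨etaT A hζ v.2 ^ x.1, by rw [map_pow, baseK_etaT, ← inv_eta_mem hζ v.2, inv_inv]⟩
    · exact zero_mem _
  · split_ifs
    · exact ⟨etaT A hζ (-v.2) ^ x.1, by rw [map_pow, baseK_etaT]⟩
    · exact zero_mem _
  · split_ifs
    · exact natCast_mem _ 2
    · exact zero_mem _

theorem intS_xT {v : ℤ × ℤ} (hv : GoodVec m v) : xT hζ v ∈ intS A 2 := by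
  refine intS_of_coeff fun i => ?_
  rcases lt_or_ge i 0 with hi | hi
  · exact ⟨0, by rw [map_zero, ordGE_xT hζ v i hi]⟩
  obtain ⟨M, rfl⟩ := Int.eq_ofNat_of_zero_le hi
  cases M with
  | zero =>
    rw [Nat.cast_zero, coeff_xT_zero]
    split_ifs with hd
    · obtain ⟨θ, -, -, -, -, h⟩ := exists_theta hζ hA hN hm hC (b := v.2) fun h2 =>
        hv ⟨(Dvd.intro_left 2 (by rw [hN]; push_cast; ring)).trans hd, h2⟩
      exact ⟨θ, h⟩
    · exact ⟨0, map_zero _⟩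
  | succ M => exact RingHom.mem_range.1 (coeff_xT_succ_mem hζ hA hN hm hC v M)

/-- All series of abscissae are integral up to a constant. -/
theorem intS_xK_tail (v : ℤ × ℤ) :
    xK (constK A 2) hζ v - HahnSeries.C ((xK (constK A 2) hζ v).coeff 0) ∈ intS A 2 := by
  refine intS_of_coeff fun i => ?_
  rw [coeff_sub, HahnSeries.C_apply]
  rcases lt_trichotomy i 0 with hi | rfl | hi
  · exact ⟨0, by rw [map_zero, coeff_xK_of_neg hζ v hi, coeff_single_of_ne hi.ne, sub_zero]⟩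
  · exact ⟨0, by rw [map_zero, coeff_single_same, sub_self]⟩
  · obtain ⟨M, rfl⟩ : ∃ M : ℕ, i = ((M + 1 : ℕ) : ℤ) := ⟨(i - 1).toNat, by omega⟩
    obtain ⟨c, hc⟩ := RingHom.mem_range.1 (coeff_xT_succ_mem hζ hA hN hm hC v M)
    refine ⟨c, ?_⟩
    rw [hc, xT, coeff_sub, HahnSeries.C_apply, coeff_single_of_ne hi.ne', coeff_single_of_ne hi.ne']

theorem intS_xK_sub {v w : ℤ × ℤ} (hv : GoodVec m v) (hw : GoodVec m w) :
    xK (constK A 2) hζ v - xK (constK A 2) hζ w ∈ intS A 2 := by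
  rw [xK_sub_xT]
  exact sub_mem (intS_xT hζ hA hN hm hC hv) (intS_xT hζ hA hN hm hC hw)

/-- A toric point against a point which is not. -/
theorem lead_toric_other {v w : ℤ × ℤ} (hv : GoodVec m v) (hw : GoodVec m w)
    (hvt : (N : ℤ) ∣ v.1) (hwt : ¬ (N : ℤ) ∣ w.1) :
    LeadS A 2 (xK (constK A 2) hζ v - xK (constK A 2) hζ w) 0 := by
  rw [xK_sub_xT]
  obtain ⟨θ, -, -, -, hr, h⟩ := exists_theta hζ hA hN hm hC (b := v.2) fun h2 =>
    hv ⟨(Dvd.intro_left 2 (by rw [hN]; push_cast; ring)).trans hvt, h2⟩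
  refine leadS_of_coeff (sub_mem (intS_xT hζ hA hN hm hC hv) (intS_xT hζ hA hN hm hC hw))
    ((ordGE_xT hζ v).sub (ordGE_xT hζ w)) ?_ hr
  rw [coeff_sub, coeff_xT_zero, coeff_xT_zero, if_pos hvt, if_neg hwt, sub_zero, h]

/-- Two toric points. -/
theorem lead_toric_toric {v w : ℤ × ℤ} (hv : GoodVec m v) (hw : GoodVec m w)
    (hvt : (N : ℤ) ∣ v.1) (hwt : (N : ℤ) ∣ w.1) (hd : ¬ (m : ℤ) ∣ v.2 - w.2)
    (hs : ¬ (m : ℤ) ∣ v.2 + w.2) :
    LeadS A 2 (xK (constK A 2) hζ v - xK (constK A 2) hζ w) 0 := by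
  rw [xK_sub_xT]
  have hb : ∀ u, GoodVec m u → (N : ℤ) ∣ u.1 → ¬ (m : ℤ) ∣ u.2 := fun u hu ht h2 =>
    hu ⟨(Dvd.intro_left 2 (by rw [hN]; push_cast; ring)).trans ht, h2⟩
  obtain ⟨θ, u, hθ, hu, -, h⟩ := exists_theta hζ hA hN hm hC (hb v hv hvt)
  obtain ⟨θ', u', hθ', hu', -, h'⟩ := exists_theta hζ hA hN hm hC (hb w hw hwt)
  refine leadS_of_coeff (c := θ - θ')
    (sub_mem (intS_xT hζ hA hN hm hC hv) (intS_xT hζ hA hN hm hC hw))
    ((ordGE_xT hζ v).sub (ordGE_xT hζ w)) ?_ ?_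
  · rw [map_sub, coeff_sub, coeff_xT_zero, coeff_xT_zero, if_pos hvt, if_pos hwt, h, h']
  · set e := etaT A hζ v.2
    set e' := etaT A hζ w.2
    have key : θ - θ' = (e - e') * (1 - e * e') * (u * u') ^ 2 := by
      rw [hθ, hθ']
      linear_combination (-(e * u ^ 2) * ((1 - e') * u' + 1)) * hu' +
        (e' * u' ^ 2 * ((1 - e) * u + 1)) * hu
    rw [key, map_mul, map_mul, map_pow, map_mul]
    refine mul_ne_zero (mul_ne_zero ?_ ?_) (pow_ne_zero _ (mul_ne_zero ?_ ?_))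
    · rw [map_sub, sub_ne_zero]
      exact fun he => hd (resO_etaT_inj hζ hA hN hm he)
    · rw [map_sub, map_one, sub_ne_zero, ← etaT_add]
      exact (resO_etaT_ne_one hζ hA hN hm hs).symm
    · exact resO_ne_of_isUnit (IsUnit.of_mul_eq_one _ ((mul_comm _ _).trans hu))
    · exact resO_ne_of_isUnit (IsUnit.of_mul_eq_one _ ((mul_comm _ _).trans hu'))

omit hA hm hC in
/-- The first coefficients at a point which is not toric. -/
theorem coeff_xT_small {v : ℤ × ℤ} {a : ℕ} (hva : v.1 = (a : ℤ)) (ha : 0 < a) (ha' : a < m)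
    {M : ℕ} (hM : M ≤ a) :
    (xT hζ v).coeff (M : ℤ) = if M = a then (⟨eta N v.2, hζ v.2⟩ : constK A 2) else 0 := by
  have nd : ∀ x : ℤ, 0 < x → x < N → ¬ (N : ℤ) ∣ x := fun x h1 h2 hd =>
    absurd (Int.le_of_dvd h1 hd) (by omega)
  cases M with
  | zero =>
    rw [Nat.cast_zero, coeff_xT_zero, if_neg, if_neg ha.ne]
    rw [hva]
    exact nd _ (by omega) (by omega)
  | succ M =>
    rw [coeff_xT_succ, xCoeff, hva]
    have key : ∀ x ∈ Nat.divisorsAntidiagonal (M + 1), 0 < x.2 ∧ x.2 ≤ M + 1 ∧ (x.2 = M + 1 → x.1 = 1) :=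
      fun x hx => by
      obtain ⟨h1, -⟩ := Nat.mem_divisorsAntidiagonal.1 hx
      have h2 : 0 < x.2 := Nat.pos_of_ne_zero fun h0 => by simp [h0] at h1
      have h3 : 1 ≤ x.1 := Nat.pos_of_ne_zero fun h0 => by simp [h0] at h1
      refine ⟨h2, h1 ▸ Nat.le_mul_of_pos_left _ h3, fun h4 => ?_⟩
      rw [h4] at h1
      exact Nat.eq_of_mul_eq_mul_right (Nat.succ_pos M) (h1.trans (one_mul _).symm)
    have hterm : ∀ x ∈ Nat.divisorsAntidiagonal (M + 1), x.2 ≠ a →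
        ((x.1 : constK A 2) * ((if (N : ℤ) ∣ (x.2 : ℤ) - a then
            (⟨eta N v.2, hζ v.2⟩ : constK A 2) ^ x.1 else 0) +
          (if (N : ℤ) ∣ (x.2 : ℤ) + a then (⟨eta N v.2, hζ v.2⟩ : constK A 2)⁻¹ ^ x.1 else 0) -
          (if (N : ℤ) ∣ (x.2 : ℤ) then 2 else 0))) = 0 := fun x hx hne => by
      obtain ⟨h1, h2, -⟩ := key x hx
      have n1 : ¬ (N : ℤ) ∣ (x.2 : ℤ) - a := fun hd =>
        nd ((a : ℤ) - x.2) (by omega) (by omega) (by rwa [dvd_sub_comm])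
      rw [if_neg n1, if_neg (nd _ (by omega) (by omega)), if_neg (nd _ (by omega) (by omega))]
      simp
    split_ifs with hMa
    · rw [Finset.sum_eq_single ((1 : ℕ), M + 1)]
      · rw [if_pos ⟨0, by omega⟩, if_neg (nd _ (by omega) (by omega)),
          if_neg (nd _ (by omega) (by omega))]
        simp
      · intro x hx hne
        refine hterm x hx fun h4 => hne (Prod.ext ((key x hx).2.2 (by omega)) ?_)
        show x.2 = M + 1
        omega
      · exact fun hn => absurd (Nat.mem_divisorsAntidiagonal.2 ⟨by simp, by omega⟩) hn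
    · exact Finset.sum_eq_zero fun x hx => hterm x hx (by have := (key x hx).2.1; omega)

/-- Two points which are not toric. -/
theorem lead_other_other {v w : ℤ × ℤ} {a a' : ℕ} (hv : GoodVec m v) (hw : GoodVec m w)
    (hva : v.1 = (a : ℤ)) (hwa : w.1 = (a' : ℤ)) (ha : 0 < a) (haa : a ≤ a') (ha' : a' < m)
    (hd : a = a' → ¬ (m : ℤ) ∣ v.2 - w.2) :
    LeadS A 2 (xK (constK A 2) hζ v - xK (constK A 2) hζ w) a := by
  rw [xK_sub_xT]
  refine leadS_of_coeff (c := etaT A hζ v.2 - if a = a' then etaT A hζ w.2 else 0)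
    (sub_mem (intS_xT hζ hA hN hm hC hv) (intS_xT hζ hA hN hm hC hw)) (fun i hi => ?_) ?_ ?_
  · rcases lt_or_ge i 0 with h0 | h0
    · exact ((ordGE_xT hζ v).sub (ordGE_xT hζ w)) i h0
    obtain ⟨M, rfl⟩ := Int.eq_ofNat_of_zero_le h0
    have hi' : (M : ℤ) < a := hi
    rw [coeff_sub, coeff_xT_small hζ hN hva ha (by omega) (show M ≤ a by omega),
      coeff_xT_small hζ hN hwa (by omega) ha' (show M ≤ a' by omega), if_neg (by omega),
      if_neg (by omega), sub_zero]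
  · rw [coeff_sub, coeff_xT_small hζ hN hva ha (by omega) le_rfl, if_pos rfl,
      coeff_xT_small hζ hN hwa (by omega) ha' haa, map_sub, apply_ite (baseK A 2), map_zero,
      baseK_etaT, baseK_etaT]
  · split_ifs with h
    · rw [map_sub, sub_ne_zero]
      exact fun he => hd h (resO_etaT_inj hζ hA hN hm he)
    · rw [sub_zero]
      exact resO_ne_of_isUnit (isUnit_etaT A hζ v.2)

end FA.Carayol

end
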