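import Fermat.Agent.Carayol.Two.Points

/-!
# Stabilisers of points away from the cusps

Differences of abscissae of even vectors are units away from the cusps, so an element fixing such a
point is congruent to one modulo `3 g`; it is determined by its permutation of the labels.
-/

set_option autoImplicit false
set_option linter.unusedSectionVars false
set_option linter.style.haveILetI false

noncomputable section

namespace FA.Carayol

open CongruenceSubgroup HahnSeries ModularCurve FA.Level FA.ModField FA.Mazur.Wp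
open scoped MatrixGroups

local notation "Qb" => AlgebraicClosure ℚ

theorem evenVec_pA (g : ℕ) : EvenVec (pA g) :=
  ⟨dvd_zero _, by simp only [pA]; push_cast; exact dvd_mul_right _ _⟩

theorem evenVec_pB (g : ℕ) (i : ℤ) : EvenVec (pB g i) :=
  ⟨by simp only [pB]; push_cast; exact dvd_mul_right _ _,
    by simp only [pB]; push_cast; exact (dvd_mul_right (2 : ℤ) g).mul_right _⟩

theorem card_perm_label : Fintype.card (Equiv.Perm (Option (ZMod 2))) = 6 := by decide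

theorem card_perm_fix (l : Option (ZMod 2)) :
    Fintype.card {σ : Equiv.Perm (Option (ZMod 2)) // σ l = l} = 2 := by
  revert l; decide

variable [Algebra Qb ℂ] {A : ValuationSubring Qb} {N g : ℕ} [NeZero N]
  (hζ : ∀ b : ℤ, eta N b ∈ constK A 2) {ϖ : baseO A (constL A 2).toSubfield}
  (hA : A.LiesOverPrime 2) (hN : N = 2 * (3 * g)) (hg : ¬ 2 ∣ 3 * g)
  (hC : ConstHyp A (constL A 2).toSubfield ϖ)
include hA hN hg hC

/-- A ratio of even abscissae has integral translates. -/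
theorem intS_ratHol_even {v a b : ℤ × ℤ} (hv : IsVec N v) (ha : IsVec N a) (hb : IsVec N b)
    (hab : Apart N a b) (hve : EvenVec v) (hae : EvenVec a) (hbe : EvenVec b) (δ : SL(2, ℤ)) :
    rSer (rAct δ (ratHol (constK A 2) hζ hv ha hb hab)) ∈ intS A 2 := by
  rw [rSer_rAct_ratHol]
  obtain ⟨k, hk⟩ := exists_lead_even hζ hA hN hg hC (hae.vmul δ) (hbe.vmul δ) (ha.vmul δ)
    (hb.vmul δ) (hab.vmul δ)
  exact mul_mem (intS_xK_sub hζ hA hN hg hC ((hve.vmul δ).goodVec hN hg (hv.vmul δ))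
    ((hbe.vmul δ).goodVec hN hg (hb.vmul δ))) (hk.inv hC).mem_intS

set_option maxHeartbeats 1000000 in
/-- **An element fixing a point away from the cusps fixes the even abscissae.** -/
theorem not_apart_of_stab {p : Pt A 2 (muF hζ hN)} (hp : IsPtF ϖ p)
    (hcl : clF hζ hN p.1 ∉ ptSet p) {γ : SL(2, ℤ)} (hγ : γ ∈ Gamma 3)
    (hst : flEquiv γ ∈ stabSet (galLvl A 2 3) (ptSet p)) {v : ℤ × ℤ} (hv : IsVec N v)
    (hve : EvenVec v) : ¬ Apart N (vmul v γ) v := by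
  intro hap
  have hz := twoCoord hζ hA hN hg hC
  have hab := apart_pB_pA hN (g := g) 0
  set f := ratHol (constK A 2) hζ hv (isVec_pB hN 0) (isVec_pA hN) hab with hf
  set f' := ratHol (constK A 2) hζ (hv.vmul γ) (isVec_pB hN 0) (isVec_pA hN) hab with hf'
  set D' := ratHol (constK A 2) hζ (isVec_pB hN 0) (hv.vmul γ) hv hap -
    ratHol (constK A 2) hζ (isVec_pA hN) (hv.vmul γ) hv hap with hD'
  have hact : rAct γ f = f' := by
    rw [hf, rAct_ratHol]
    exact ratHol_congr hζ _ _ _ _ _ _ _ _ ⟨by simp, by simp⟩ (vmul_pB hN 0 hγ) (vmul_pA hN hγ)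
  have hfI : ∀ δ, rSer (rAct δ f) ∈ intS A 2 := fun δ => intS_ratHol_even hζ hA hN hg hC _ _ _ _
    hve (evenVec_pB g 0) (evenVec_pA g) δ
  have hf'I : ∀ δ, rSer (rAct δ f') ∈ intS A 2 := fun δ => intS_ratHol_even hζ hA hN hg hC _ _ _ _
    (hve.vmul γ) (evenVec_pB g 0) (evenVec_pA g) δ
  have hDI : ∀ δ, rSer (rAct δ D') ∈ intS A 2 := fun δ => by
    rw [hD', map_sub, map_sub]
    exact sub_mem (intS_ratHol_even hζ hA hN hg hC _ _ _ _ (evenVec_pB g 0) (hve.vmul γ) hve δ)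
      (intS_ratHol_even hζ hA hN hg hC _ _ _ _ (evenVec_pA g) (hve.vmul γ) hve δ)
  obtain ⟨j₁, hj₁⟩ := exists_mul_clB hζ hA hN hg hC (f := f) fun δ _ r => hfI _
  obtain ⟨j₂, hj₂⟩ := exists_mul_clB hζ hA hN hg hC (f := f') fun δ _ r => hf'I _
  obtain ⟨j₃, hj₃⟩ := exists_mul_clB hζ hA hN hg hC (f := D') fun δ _ r => hDI _
  set j := max (max j₁ j₂) j₃
  have hmem : ∀ (x : rN N (constK A 2)), (toFl x * (muF hζ hN ^ 3 - 1) ^ j ∈ chartF A 2 (muF hζ hN) ∧
      toFl x * ((muF hζ hN)⁻¹ * (1 - (muF hζ hN)⁻¹ ^ 3)) ^ j ∈ chartF A 2 (muF hζ hN)⁻¹) →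
      toFl x * clF hζ hN p.1 ^ j ∈ chartF A 2 (coordB A 2 (muF hζ hN) p.1) := fun x h => by
    rcases p.1
    · exact h.1
    · exact h.2
  have h1 := hmem f (hj₁ j ((le_max_left _ _).trans (le_max_left _ _)))
  have h2 := hmem f' (hj₂ j ((le_max_right _ _).trans (le_max_left _ _)))
  have h3 := hmem D' (hj₃ j (le_max_right _ _))
  have hcle : (flEquiv γ : flN N (constK A 2) ≃+* flN N (constK A 2)) (clF hζ hN p.1) =
      clF hζ hN p.1 := by
    show flAct γ _ = _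
    have hm := flAct_muF hζ hN hγ (A := A)
    cases p.1 <;> simp [clF, map_mul, map_sub, map_pow, map_inv₀, hm]
  obtain ⟨y, hy, hmy⟩ := fixesPt_of_stab hC hz hp hst ⟨_, h1⟩
  have hyv : (y : flN N (constK A 2)) = toFl f' * clF hζ hN p.1 ^ j := by
    rw [hy, map_mul, map_pow, hcle, flEquiv_apply, flAct_toFl, hact]
  have hone : toFl (f' - f) * toFl D' = (1 : flN N (constK A 2)) := by
    refine (ser : flN N (constK A 2) →+* _).injective ?_
    rw [map_one, ← map_mul, show ser (toFl ((f' - f) * D')) = rSer ((f' - f) * D') from ser_rMer _,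
      ← rAct_one ((f' - f) * D'), map_mul, map_mul, hD', hf, hf', map_sub, map_sub, map_sub, map_sub,
      rSer_rAct_ratHol, rSer_rAct_ratHol, rSer_rAct_ratHol, rSer_rAct_ratHol]
    simp only [vmul_one]
    obtain ⟨k, hk⟩ := exists_lead_even hζ hA hN hg hC (hve.vmul γ) hve (hv.vmul γ) hv hap
    obtain ⟨k', hk'⟩ := exists_lead_even hζ hA hN hg hC (evenVec_pB g 0) (evenVec_pA g)
      (isVec_pB hN 0) (isVec_pA hN) hab
    field_simp [hk.ne_zero, hk'.ne_zero]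
    ring
  have hcmem := clF_mem (A := A) hζ hN p.1
  have key : (y - ⟨_, h1⟩) * ⟨_, h3⟩ =
      (⟨_, hcmem⟩ : chartF A 2 (coordB A 2 (muF hζ hN) p.1)) ^ (2 * j) := by
    refine chart_ext ?_
    simp only [map_mul, map_sub, map_pow]
    simp only [Subring.subtype_apply]
    rw [hyv]
    rw [map_sub] at hone
    linear_combination clF hζ hN p.1 ^ (2 * j) * hone
  have := p.2.mul_mem_right (⟨_, h3⟩ : chartF A 2 (coordB A 2 (muF hζ hN) p.1)) hmy
  rw [key] at this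
  exact hcl (mem_ptSet.2 ⟨hcmem, hp.1.isPrime.mem_of_pow_mem _ this⟩)

/-- **An element fixing a point away from the cusps is congruent to one modulo `3 g`.** -/
theorem mem_gamma_of_stab {p : Pt A 2 (muF hζ hN)} (hp : IsPtF ϖ p)
    (hcl : clF hζ hN p.1 ∉ ptSet p) {γ : SL(2, ℤ)} (hγ : γ ∈ Gamma 3)
    (hst : flEquiv γ ∈ stabSet (galLvl A 2 3) (ptSet p)) : γ ∈ Gamma (3 * g) := by
  have hg0 := g_pos' hN
  have n2 : ¬ (N : ℤ) ∣ 2 := fun hd => by have := Int.le_of_dvd two_pos hd; omega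
  have hm : ((3 * g : ℕ) : ℤ) * 2 = (N : ℤ) := by rw [hN]; push_cast; ring
  have h2 : ∀ x : ℤ, (N : ℤ) ∣ 2 * x → ((3 * g : ℕ) : ℤ) ∣ x := fun x hx =>
    Int.dvd_of_mul_dvd_mul_left two_ne_zero (by convert hx using 1; rw [← hm, mul_comm])
  have h3 : ∀ x : ℤ, ((3 * g : ℕ) : ℤ) ∣ x → (3 : ℤ) ∣ x := fun x hx =>
    (Dvd.intro (g : ℤ) (by push_cast; ring)).trans hx
  have hg3 := Gamma_mem.1 hγ
  have z3 : ∀ x : ℤ, (x : ZMod 3) = 0 → (3 : ℤ) ∣ x :=
    fun x hx => (ZMod.intCast_zmod_eq_zero_iff_dvd _ 3).1 hx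
  have key : ∀ v : ℤ × ℤ, IsVec N v → EvenVec v →
      ((N : ℤ) ∣ (vmul v γ - v).1 ∧ (N : ℤ) ∣ (vmul v γ - v).2) ∨
      ((N : ℤ) ∣ (vmul v γ + v).1 ∧ (N : ℤ) ∣ (vmul v γ + v).2) := fun v hv hve => by
    by_contra hne
    rw [not_or] at hne
    exact not_apart_of_stab hζ hA hN hg hC hp hcl hγ hst hv hve ⟨hne.1, hne.2⟩
  have a := key (2, 0) (fun h => n2 h.1) ⟨dvd_rfl, dvd_zero _⟩
  have b := key (0, 2) (fun h => n2 h.2) ⟨dvd_zero _, dvd_rfl⟩
  simp only [vmul, zero_mul, add_zero, zero_add, Prod.fst_sub, Prod.snd_sub, Prod.fst_add,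
    Prod.snd_add, sub_zero] at a b
  have da : ((3 * g : ℕ) : ℤ) ∣ γ 0 0 - 1 ∧ ((3 * g : ℕ) : ℤ) ∣ γ 0 1 := by
    rcases a with a | a
    · exact ⟨h2 _ (by convert a.1 using 1; ring), h2 _ a.2⟩
    · exfalso
      have h1 := h3 _ (h2 (γ 0 0 + 1) (by convert a.1 using 1; ring))
      have h1' := z3 (γ 0 0 - 1) (by push_cast; rw [hg3.1, sub_self])
      omega
  have db : ((3 * g : ℕ) : ℤ) ∣ γ 1 0 ∧ ((3 * g : ℕ) : ℤ) ∣ γ 1 1 - 1 := by
    rcases b with b | b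
    · exact ⟨h2 _ b.1, h2 _ (by convert b.2 using 1; ring)⟩
    · exfalso
      have h1 := h3 _ (h2 (γ 1 1 + 1) (by convert b.2 using 1; ring))
      have h1' := z3 (γ 1 1 - 1) (by push_cast; rw [hg3.2.2.2, sub_self])
      omega
  simp only [← ZMod.intCast_zmod_eq_zero_iff_dvd, Int.cast_sub, Int.cast_one, sub_eq_zero] at da db
  exact Gamma_mem.2 ⟨da.1, da.2, db.1, db.2⟩

/-- Two elements fixing such a point with the same permutation agree. -/
theorem permF_inj_of_stab {p : Pt A 2 (muF hζ hN)} (hp : IsPtF ϖ p)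
    (hcl : clF hζ hN p.1 ∉ ptSet p) {e₁ e₂ : galLvl (N := N) A 2 3}
    (h₁ : (e₁ : flN N (constK A 2) ≃+* flN N (constK A 2)) ∈ stabSet (galLvl A 2 3) (ptSet p))
    (h₂ : (e₂ : flN N (constK A 2) ≃+* flN N (constK A 2)) ∈ stabSet (galLvl A 2 3) (ptSet p))
    (h : permF hζ hN e₁ = permF hζ hN e₂) : e₁ = e₂ := by
  obtain ⟨γ₁, hγ₁, he₁⟩ := exists_of_galLvl e₁.2
  obtain ⟨γ₂, hγ₂, he₂⟩ := exists_of_galLvl e₂.2
  have hm := mul_mem (mem_gamma_of_stab hζ hA hN hg hC hp hcl hγ₁ (he₁ ▸ h₁))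
    (inv_mem (mem_gamma_of_stab hζ hA hN hg hC hp hcl hγ₂ (he₂ ▸ h₂)))
  refine Subtype.ext (he₁.trans (Eq.trans ?_ he₂.symm))
  refine flEquiv_eq_of_perm hζ hN hg hm fun l => ?_
  rw [← flEquiv_apply, ← flEquiv_apply, ← he₁, ← he₂, Fl_permF, Fl_permF, h]

/-- **The stabiliser of a point away from the cusps has at most six elements.** -/
theorem card_stab_le_six {p : Pt A 2 (muF hζ hN)} (hp : IsPtF ϖ p)
    (hcl : clF hζ hN p.1 ∉ ptSet p) :
    Nat.card ↥(stabSet (galLvl A 2 3) (ptSet p)) ≤ 6 := by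
  rw [← card_perm_label, ← Nat.card_eq_fintype_card]
  refine Nat.card_le_card_of_injective (fun e => permF hζ hN ⟨e.1, e.2.1⟩) fun e₁ e₂ h => ?_
  exact Subtype.ext (congrArg Subtype.val
    (permF_inj_of_stab hζ hA hN hg hC hp hcl (e₁ := ⟨e₁.1, e₁.2.1⟩) (e₂ := ⟨e₂.1, e₂.2.1⟩)
      e₁.2 e₂.2 h) :)

/-- A subgroup of it fixing a label has at most two. -/
theorem card_stab_le_two {p : Pt A 2 (muF hζ hN)} (hp : IsPtF ϖ p)
    (hcl : clF hζ hN p.1 ∉ ptSet p)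
    (H : Subgroup (flN N (constK A 2) ≃+* flN N (constK A 2)))
    (hH : H ≤ stabSet (galLvl A 2 3) (ptSet p)) (l : Option (ZMod 2))
    (hl : ∀ e : galLvl (N := N) A 2 3,
      (e : flN N (constK A 2) ≃+* flN N (constK A 2)) ∈ H → permF hζ hN e l = l) :
    Nat.card ↥H ≤ 2 := by
  refine le_trans (Nat.card_le_card_of_injective
    (β := {σ : Equiv.Perm (Option (ZMod 2)) // σ l = l})
    (fun e => ⟨permF hζ hN ⟨e.1, (hH e.2).1⟩, hl ⟨e.1, (hH e.2).1⟩ e.2⟩) fun e₁ e₂ h => ?_)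
    (Nat.card_eq_fintype_card.trans (card_perm_fix l)).le
  exact Subtype.ext (congrArg Subtype.val
    (permF_inj_of_stab hζ hA hN hg hC hp hcl (e₁ := ⟨e₁.1, (hH e₁.2).1⟩)
      (e₂ := ⟨e₂.1, (hH e₂.2).1⟩) (hH e₁.2) (hH e₂.2) (congrArg Subtype.val h :)) :)

end FA.Carayol

end
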